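/-
P-S34 phase 2 (S35), (G3) adapter (helper43): the semilinear (N2)+(N3) in helper50's
`ChartCoord` / `TwistFam` language.

For `R : RedSetup2 A S k (κ₁ × κ₂)`, a chart coordinate `C`, a twisted family `W : TwistFam C m`
(`W.L i a b = L(i D_w + a C₀ + b C∞)`), (L2), the node condition (N1) (`hN1`), the codimension bounds
for `N_1`, `N_{i'}` (`UBBridge`), and a `θ`-semilinear pair `(φ, φV)` with `res ∘ σ = φ ∘ res`,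
`φ B̄ ⊆ B̄` and (CONG) `φV z - z ^ Q ∈ I₁ × I₂` (`m e = Q + i'`):

* `exists_lifts_sigma`: finitely many `x_j ∈ W.L 1 0 b ∩ O`, `y_j ∈ W.L i' 0 b' ∩ O` with
  `∑ res (σ x_j) * res (y_j) = 1`  (the hypothesis `hinf` of
  `TheoremB.exists_const_mul_pow_of_sigma`); for the chart `0` apply it to `W.swap`;
* `exists_const_mul_pow_of_twistFam`: the two-chart composite `σ w / w ^ Q = c v ^ m`, for a family
  `W` with `W.L 1 a b = T.LM Dw a b`, `W.L i' a b = T.LM (i' • Dw) a b`.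
-/
import Fermat.Agent.S34x.Lattice2.L2
import Fermat.Agent.S34x.Lattice2.Swap
import Fermat.Agent.S34x.ExistsLifts
import Fermat.Agent.S34x.TheoremBSigma

set_option autoImplicit false
set_option linter.unusedSectionVars false

noncomputable section

namespace Fermat.Agent.S35x.SigmaNbar

open Module AlgebraicCurve IntermediateField
open Fermat.Agent.Gateway.C0 Fermat.Agent.S34x Fermat.Agent.S34x.C0two Fermat.Agent.S34x.Lattice2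

section OneChart

variable {K : Type*} [Field K] {A : ValuationSubring K} {F : Type*} [Field F] [Algebra K F]
  {S : SmallRing F} {k κ₁ κ₂ : Type*} [Field k] [CommRing κ₁] [CommRing κ₂]
  [Algebra k κ₁] [Algebra k κ₂] {R : RedSetup2 A S k (κ₁ × κ₂)} {C : ChartCoord R} {m : ℕ}
  (W : TwistFam C m)

/-- `N_i ^ n ⊆ N_{n i}`. -/
theorem pow_mem_Nbar {i : ℕ} {y : κ₁ × κ₂} (hy : y ∈ W.Nbar i) (n : ℕ) :
    y ^ n ∈ W.Nbar (n * i) := by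
  induction n with
  | zero =>
    rw [pow_zero, Nat.zero_mul, W.Nbar_zero]
    exact C.Bbar.one_mem
  | succ n ih =>
    rw [pow_succ, Nat.succ_mul]
    exact W.mul_mem_Nbar ih hy

/-- `N_{i + e m} = N_i`. -/
theorem Nbar_add_mul (i e : ℕ) : W.Nbar (i + e * m) = W.Nbar i := by
  induction e with
  | zero => rw [Nat.zero_mul, Nat.add_zero]
  | succ e ih => rw [Nat.succ_mul, ← Nat.add_assoc, W.Nbar_add_m, ih]

/-- `N_1 ^ Q · N_{i'} ⊆ B̄` when `m e = Q + i'`. -/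
theorem pow_mul_mem_Bbar {Q e i' : ℕ} (hQ : m * e = Q + i') {n n' : κ₁ × κ₂}
    (hn : n ∈ W.Nbar 1) (hn' : n' ∈ W.Nbar i') : n ^ Q * n' ∈ C.Bbar := by
  have h1 := W.mul_mem_Nbar (pow_mem_Nbar W hn Q) hn'
  have e1 : Q * 1 + i' = 0 + e * m := by rw [Nat.mul_one, Nat.zero_add, Nat.mul_comm e m, hQ]
  rw [e1, Nbar_add_mul, W.Nbar_zero] at h1
  exact h1

variable [IsAlgClosed k]

/-- **Semilinear (N2)+(N3) for a twisted family, one chart** (`hinf` of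
`TheoremB.exists_const_mul_pow_of_sigma`; for the chart `0` use `W.swap`). -/
theorem exists_lifts_sigma (hm : 0 < m) (hL2 : C.IsL2)
    [hfinB : Module.Finite k ((C.B₁ × C.B₂) ⧸ Subalgebra.toSubmodule C.BbarT)]
    {p : ℕ} (hp : 2 ≤ p)
    (hN1 : ∀ g : C.B₂, ∃ g' : C.B₂, ((0 : C.B₁), g - g' ^ p) ∈ C.BbarT)
    {Q e i' : ℕ} (hQ : m * e = Q + i')
    [hfin1 : Module.Finite k ((C.B₁ × C.B₂) ⧸ W.NbarT 1)]
    [hfin' : Module.Finite k ((C.B₁ × C.B₂) ⧸ W.NbarT i')]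
    (hcodim : finrank k ((C.B₁ × C.B₂) ⧸ W.NbarT 1) ≤
      finrank k ((C.B₁ × C.B₂) ⧸ Subalgebra.toSubmodule C.BbarT))
    (hcodim' : finrank k ((C.B₁ × C.B₂) ⧸ W.NbarT i') ≤
      finrank k ((C.B₁ × C.B₂) ⧸ Subalgebra.toSubmodule C.BbarT))
    (θ : k ≃+* k) (φV : (C.B₁ × C.B₂) →+* (C.B₁ × C.B₂)) (hφVsurj : Function.Surjective φV)
    (hφVsmul : ∀ (c : k) (v : C.B₁ × C.B₂), φV (c • v) = θ c • φV v)
    (φ : (κ₁ × κ₂) →+* (κ₁ × κ₂)) (hφsmul : ∀ (c : k) (y : κ₁ × κ₂), φ (c • y) = θ c • φ y)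
    (hjφ : ∀ v, C.incl (φV v) = φ (C.incl v)) (hφBbar : ∀ y ∈ C.Bbar, φ y ∈ C.Bbar)
    (hcong : ∀ z : C.B₁ × C.B₂, ((φV z - z ^ Q).1, (0 : C.B₂)) ∈ C.BbarT ∧
      ((0 : C.B₁), (φV z - z ^ Q).2) ∈ C.BbarT)
    (σ : F → F) (hσO : ∀ f ∈ S.O, σ f ∈ S.O)
    (hσres : ∀ (f : F) (hf : f ∈ S.O), R.res ⟨σ f, hσO f hf⟩ = φ (R.res ⟨f, hf⟩)) :
    ∃ (r b b' : ℕ) (x y : Fin r → F) (hxO : ∀ j, x j ∈ S.O) (hyO : ∀ j, y j ∈ S.O),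
      (∀ j, x j ∈ W.L 1 0 b) ∧ (∀ j, y j ∈ W.L i' 0 b') ∧
      ∑ j, R.res ⟨σ (x j), hσO _ (hxO j)⟩ * R.res ⟨y j, hyO j⟩ = 1 := by
  have hm' : m ≠ 0 := hm.ne'
  have : Module.Finite k ((C.B₁ × C.B₂) ⧸ Subalgebra.toSubmodule (C.Bbar.comap C.incl)) := hfinB
  have : Module.Finite k ((C.B₁ × C.B₂) ⧸ (W.Nbar 1).comap C.incl.toLinearMap) := hfin1
  have : Module.Finite k ((C.B₁ × C.B₂) ⧸ (W.Nbar i').comap C.incl.toLinearMap) := hfin'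
  refine ExistsLifts.exists_lifts_semilinear R C.incl C.Bbar (W.Nbar 1) (W.Nbar i') hL2.h1 hL2.h2
    hp hN1 hcodim hcodim' θ φV hφVsurj hφVsmul φ hφsmul hjφ hφBbar Q ?_ ?_ hm' hm'
    (fun n hn => W.pow_mem_Bbar hn) (fun n hn => W.pow_mem_Bbar hn)
    (fun n hn n' hn' => pow_mul_mem_Bbar W hQ hn hn')
    (V := fun b => W.L 1 0 b) (V' := fun b => W.L i' 0 b)
    (fun _ _ h => W.L_mono le_rfl h) (fun _ _ h => W.L_mono le_rfl h)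
    (fun x hx => hx) (fun y hy => hy) σ hσO hσres
  · -- (CONG) on `N_1`
    intro x hx
    obtain ⟨z, rfl⟩ := C.mem_Btilde_iff_range.mp (W.Nbar_le_Btilde hm 1 hx)
    refine ⟨(φV z - z ^ Q).1, (φV z - z ^ Q).2, ?_, (hcong z).1, (hcong z).2⟩
    rw [← hjφ, ← map_pow, ← map_sub]
  · -- `N_{i'} ⊆ B̃`
    intro y hy
    exact C.mem_Btilde_iff_range.mp (W.Nbar_le_Btilde hm i' hy)

end OneChart

/-! ### The two-chart composite -/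

section TwoCharts

variable {K : Type*} [Field K] [IsAlgClosed K] [CharZero K] {A : ValuationSubring K}
  {F : Type*} [Field F] [Algebra K F] {S : SmallRing F}
  {k κ₁ κ₂ : Type*} [Field k] [IsAlgClosed k] [CommRing κ₁] [CommRing κ₂] [Algebra k κ₁]
  [Algebra k κ₂] [Nontrivial (κ₁ × κ₂)]
  (R : RedSetup2 A S k (κ₁ × κ₂))
  {t : F} (ht : Transcendental K t) [FiniteDimensional K⟮t⟯ F]
  {Dt : Divisor K F} (hDt : ∀ v : Place K F, Dt v = v.ord t)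
  (htO : t ∈ S.O) (htiO : t⁻¹ ∈ S.O)
  (hcart : ∀ V : Submodule K F, FiniteDimensional K V → (R.lat V).FG)
  (P : ℕ → Submodule k (κ₁ × κ₂)) [∀ b, FiniteDimensional k (P b)] {b₀ : ℕ}
  (hgen : ∀ b, b₀ ≤ b → ∀ x ∈ P (b + 1), ∃ y ∈ P b, ∃ z ∈ P b, x = y + R.res ⟨t, htO⟩ * z)
  {m : ℕ}
  (hSC : ∀ (b : ℕ) (f : F) (hf : f ∈ S.O), f ∈ (TwoCharts.ofDivisor Dt).LN 0 b →
    R.res ⟨f, hf⟩ ∈ P b)
  (hrad : ∀ (b : ℕ) (x : κ₁ × κ₂), x ^ m ∈ P (m * b) → x ∈ P b)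
  (hmA : IsUnit ((m : ℕ) : A))
  {σ : F →+* F}
  (hσLN : ∀ (a b : ℕ) (x : F), x ∈ (TwoCharts.ofDivisor Dt).LN a b →
    σ x ∈ (TwoCharts.ofDivisor Dt).LN a b)
  (hσO : ∀ x ∈ S.O, σ x ∈ S.O)
  {w : F} (hw0 : w ≠ 0) (hwO : w ∈ S.O) (hw1 : R.res ⟨w, hwO⟩ = 1)
  {Dw : Divisor K F} (hDw : ∀ v : Place K F, (m : ℤ) * Dw v = v.ord w)
  (hdiv : ∀ v : Place K F, (m : ℤ) ∣ v.ord (σ w))
  {Q e i' : ℕ} (hQ : m * e = Q + i')
  (huO : σ w / w ^ Q ∈ S.O) (hu1 : R.res ⟨σ w / w ^ Q, huO⟩ = 1)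
  (θ : k ≃+* k) (φ : (κ₁ × κ₂) →+* (κ₁ × κ₂))
  (hφsmul : ∀ (c : k) (y : κ₁ × κ₂), φ (c • y) = θ c • φ y)
  (hσres : ∀ (f : F) (hf : f ∈ S.O), R.res ⟨σ f, hσO f hf⟩ = φ (R.res ⟨f, hf⟩))

include ht hDt htiO hcart hgen hSC hrad hmA hσLN hw0 hw1 hDw hdiv hQ hu1 hφsmul hσres in
/-- **Theorem B' for a twisted family** (`W.L 1 = L(D_w + ·)`, `W.L i' = L(i' D_w + ·)`), from the
node data of the two charts `C` and `C.swap`. -/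
theorem exists_const_mul_pow_of_twistFam (hm : 0 < m) {C : ChartCoord R} (W : TwistFam C m)
    (hW1 : ∀ a b, W.L 1 a b = (TwoCharts.ofDivisor Dt).LM Dw a b)
    (hWi : ∀ a b, W.L i' a b = (TwoCharts.ofDivisor Dt).LM (i' • Dw) a b)
    -- chart `∞`
    (hL2 : C.IsL2)
    [Module.Finite k ((C.B₁ × C.B₂) ⧸ Subalgebra.toSubmodule C.BbarT)]
    {p : ℕ} (hp : 2 ≤ p)
    (hN1 : ∀ g : C.B₂, ∃ g' : C.B₂, ((0 : C.B₁), g - g' ^ p) ∈ C.BbarT)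
    [Module.Finite k ((C.B₁ × C.B₂) ⧸ W.NbarT 1)]
    [Module.Finite k ((C.B₁ × C.B₂) ⧸ W.NbarT i')]
    (hcodim : finrank k ((C.B₁ × C.B₂) ⧸ W.NbarT 1) ≤
      finrank k ((C.B₁ × C.B₂) ⧸ Subalgebra.toSubmodule C.BbarT))
    (hcodim' : finrank k ((C.B₁ × C.B₂) ⧸ W.NbarT i') ≤
      finrank k ((C.B₁ × C.B₂) ⧸ Subalgebra.toSubmodule C.BbarT))
    (φV : (C.B₁ × C.B₂) →+* (C.B₁ × C.B₂)) (hφVsurj : Function.Surjective φV)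
    (hφVsmul : ∀ (c : k) (v : C.B₁ × C.B₂), φV (c • v) = θ c • φV v)
    (hjφ : ∀ v, C.incl (φV v) = φ (C.incl v)) (hφBbar : ∀ y ∈ C.Bbar, φ y ∈ C.Bbar)
    (hcong : ∀ z : C.B₁ × C.B₂, ((φV z - z ^ Q).1, (0 : C.B₂)) ∈ C.BbarT ∧
      ((0 : C.B₁), (φV z - z ^ Q).2) ∈ C.BbarT)
    -- chart `0`
    (hL2₀ : C.swap.IsL2)
    [Module.Finite k ((C.swap.B₁ × C.swap.B₂) ⧸ Subalgebra.toSubmodule C.swap.BbarT)]
    {p₀ : ℕ} (hp₀ : 2 ≤ p₀)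
    (hN1₀ : ∀ g : C.swap.B₂, ∃ g' : C.swap.B₂, ((0 : C.swap.B₁), g - g' ^ p₀) ∈ C.swap.BbarT)
    [Module.Finite k ((C.swap.B₁ × C.swap.B₂) ⧸ W.swap.NbarT 1)]
    [Module.Finite k ((C.swap.B₁ × C.swap.B₂) ⧸ W.swap.NbarT i')]
    (hcodim₀ : finrank k ((C.swap.B₁ × C.swap.B₂) ⧸ W.swap.NbarT 1) ≤
      finrank k ((C.swap.B₁ × C.swap.B₂) ⧸ Subalgebra.toSubmodule C.swap.BbarT))
    (hcodim₀' : finrank k ((C.swap.B₁ × C.swap.B₂) ⧸ W.swap.NbarT i') ≤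
      finrank k ((C.swap.B₁ × C.swap.B₂) ⧸ Subalgebra.toSubmodule C.swap.BbarT))
    (φV₀ : (C.swap.B₁ × C.swap.B₂) →+* (C.swap.B₁ × C.swap.B₂))
    (hφVsurj₀ : Function.Surjective φV₀)
    (hφVsmul₀ : ∀ (c : k) (v : C.swap.B₁ × C.swap.B₂), φV₀ (c • v) = θ c • φV₀ v)
    (hjφ₀ : ∀ v, C.swap.incl (φV₀ v) = φ (C.swap.incl v))
    (hφBbar₀ : ∀ y ∈ C.swap.Bbar, φ y ∈ C.swap.Bbar)
    (hcong₀ : ∀ z : C.swap.B₁ × C.swap.B₂,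
      ((φV₀ z - z ^ Q).1, (0 : C.swap.B₂)) ∈ C.swap.BbarT ∧
      ((0 : C.swap.B₁), (φV₀ z - z ^ Q).2) ∈ C.swap.BbarT) :
    ∃ (c : K) (v : F), σ w / w ^ Q = algebraMap K F c * v ^ m := by
  refine TheoremB.exists_const_mul_pow_of_sigma R ht hDt htO htiO hcart P hgen hSC hrad hmA hσLN
    hσO hw0 hwO hw1 hDw hdiv hQ huO hu1 ?_ ?_
  · obtain ⟨r, b, b', x, y, hxO, hyO, hx, hy, hsum⟩ := exists_lifts_sigma W hm hL2 hp hN1 hQ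
      hcodim hcodim' θ φV hφVsurj hφVsmul φ hφsmul hjφ hφBbar hcong σ hσO hσres
    refine ⟨r, b, b', x, y, hxO, hyO, fun j => ?_, fun j => ?_, hsum⟩
    · rw [← hW1]; exact hx j
    · rw [← hWi]; exact hy j
  · obtain ⟨r, a, a', x, y, hxO, hyO, hx, hy, hsum⟩ := exists_lifts_sigma W.swap hm hL2₀ hp₀ hN1₀
      hQ hcodim₀ hcodim₀' θ φV₀ hφVsurj₀ hφVsmul₀ φ hφsmul hjφ₀ hφBbar₀ hcong₀ σ hσO hσres
    refine ⟨r, a, a', x, y, hxO, hyO, fun j => ?_, fun j => ?_, hsum⟩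
    · rw [← hW1]; exact hx j
    · rw [← hWi]; exact hy j

end TwoCharts

end Fermat.Agent.S35x.SigmaNbar
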