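import Mathlib
import Fermat.Agent.Gateway.S31Reduction

/-!
# S35, clause 2, from torsion level data (consumer side)

Let `ρ` be a two dimensional `p`-adic Galois representation over a local domain `T` whose Frobenius
characteristic polynomials at the primes outside `S` are `X ^ 2 - π(T_ℓ) X + ℓ` for a ring
homomorphism `π` from the Hecke algebra, and let `D` be torsion level data (think `J₀(N)[p ^ n]`).

`SteinbergRelation D q y`: for every Frobenius lift `φ` at `q` and every level `n`,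
`y * (φ ^ 2 - 1) * (φ ^ 2 - q ^ 2) = 0` on `D.M n` (the geometric input: on the `q`-new part of the
torsion of the Jacobian, `φ ^ 2 - 1` maps into the toric part on which `φ ^ 2 = q ^ 2`, and `y`
is a Hecke operator killing the `q`-old part).

`charpoly_frob_of_steinbergRelation`: if moreover `π y ≠ 0`, then for every Frobenius lift `φ` at
`q` the characteristic polynomial of `ρ φ` is `X ^ 2 - (q + 1) X + q` or `X ^ 2 + (q + 1) X + q`.
-/

set_option autoImplicit false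

namespace Fermat.Agent.S35x

open Polynomial
open Fermat.Agent.Gateway.S31Red

local notation "Γℚ" => (AlgebraicClosure ℚ ≃ₐ[ℚ] AlgebraicClosure ℚ)

variable {p : ℕ} {N : ℕ} [NeZero N] {S : Finset ℕ}
  {T : Type} [CommRing T] [IsLocalRing T]

/-- The Frobenius characteristic polynomials of `ρ` outside `S` are given by `π`. -/
def FrobCharpoly (ρ : GaloisRepAdic T) (π : CuspForm.heckeAlgebra N 2 (↑S : Set ℕ) →+* T) : Prop :=
  ∀ (ℓ : ℕ) (hℓ : ℓ.Prime) (hℓN : ¬ ℓ ∣ N) (hℓS : ℓ ∉ (↑S : Set ℕ)),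
    ∀ A : ValuationSubring (AlgebraicClosure ℚ), A.LiesOverPrime ℓ →
      ∀ σ : Γℚ, A.IsFrobeniusAt σ ℓ →
        LinearMap.charpoly (ρ.ρ σ) =
          X ^ 2 - C (π (CuspForm.heckeAlgebra.T hℓ hℓN hℓS)) * X + C ((ℓ : T))

/-- The geometric input at a prime `q` of multiplicative reduction: a Hecke operator `y` such that
`y (φ ^ 2 - 1) (φ ^ 2 - q ^ 2) = 0` on every torsion level, for every Frobenius lift `φ` at `q`. -/
def SteinbergRelation (D : TorsionHeckeData p N S) (q : ℕ)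
    (y : CuspForm.heckeAlgebra N 2 (↑S : Set ℕ)) : Prop :=
  ∀ (n : ℕ) (P : ValuationSubring (AlgebraicClosure ℚ)), P.LiesOverPrime q →
    ∀ φ : Γℚ, P.IsFrobeniusAt φ q →
      D.hecke n y * (D.gal n φ * D.gal n φ - 1)
        * (D.gal n φ * D.gal n φ - ((q ^ 2 : ℕ) : AddMonoid.End (D.M n))) = 0

/-- The level `n` approximation, for a representation over a local ring with Frobenius
characteristic polynomials given by a character of the Hecke algebra. -/
theorem exists_approx_char (hF : FrobPowerDense) (hp : p.Prime) (hpS : p ∈ S)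
    (hNS : ∀ q : ℕ, q.Prime → q ∣ N → q ∈ S)
    (ρ : GaloisRepAdic T) (π : CuspForm.heckeAlgebra N 2 (↑S : Set ℕ) →+* T)
    (hρ : FrobCharpoly ρ π) (D : TorsionHeckeData p N S)
    (g : Γℚ) (n : ℕ) :
    ∃ (y : CuspForm.heckeAlgebra N 2 (↑S : Set ℕ)) (e : ℕ),
      LinearMap.trace T ρ.V (ρ.ρ g) - π y ∈ IsLocalRing.maximalIdeal T ^ n ∧
      LinearMap.det (ρ.ρ g) - (e : T) ∈ IsLocalRing.maximalIdeal T ^ n ∧
      D.hecke n y = D.gal n g + (e : AddMonoid.End (D.M n)) * D.gal n g⁻¹ ∧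
      ∀ ζ : AlgebraicClosure ℚ, ζ ^ (p ^ n) = 1 → g ζ = ζ ^ e := by
  classical
  obtain ⟨L1, hL1fd, hL1⟩ := ρ.isAdicContinuous n
  obtain ⟨L2, hL2fd, hL2⟩ := D.gal_level n
  obtain ⟨L3, hL3fd, hL3⟩ := exists_cyclotomic_level (p ^ n) (pow_ne_zero n hp.ne_zero)
  have := hL1fd
  have := hL2fd
  have := hL3fd
  obtain ⟨ℓ, hℓ, hℓS, A, hA, σ, hσ, k, hk⟩ := hF (L1 ⊔ L2 ⊔ L3) inferInstance g S
  have hℓS' : ℓ ∉ (↑S : Set ℕ) := by simpa using hℓS
  have hℓN : ¬ ℓ ∣ N := fun h => hℓS (hNS ℓ hℓ h)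
  have hℓp : ℓ ≠ p := fun h => hℓS (h ▸ hpS)
  have hℓpn : ¬ ℓ ∣ p ^ n := fun h =>
    hℓp ((Nat.prime_dvd_prime_iff_eq hℓ hp).mp (hℓ.dvd_of_dvd_pow h))
  set h : Γℚ := (σ ^ k)⁻¹ * g with hh
  have hg : g = σ ^ k * h := by rw [hh, mul_inv_cancel_left]
  have hfix : ∀ x ∈ L1 ⊔ L2 ⊔ L3, h x = x := by
    intro x hx
    rw [hh, AlgEquiv.mul_apply, ← hk x hx]
    show (σ ^ k)⁻¹ ((σ ^ k) x) = x
    rw [← AlgEquiv.mul_apply, inv_mul_cancel, AlgEquiv.one_apply]
  have hfix1 : ∀ x ∈ L1, h x = x := fun x hx =>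
    hfix x ((le_sup_left : L1 ≤ L1 ⊔ L2).trans le_sup_left hx)
  have hfix2 : ∀ x ∈ L2, h x = x := fun x hx =>
    hfix x ((le_sup_right : L2 ≤ L1 ⊔ L2).trans le_sup_left hx)
  set Tℓ : CuspForm.heckeAlgebra N 2 (↑S : Set ℕ) := CuspForm.heckeAlgebra.T hℓ hℓN hℓS' with hTℓ
  refine ⟨dick Tℓ (ℓ : CuspForm.heckeAlgebra N 2 (↑S : Set ℕ)) k, ℓ ^ k, ?_, ?_, ?_, ?_⟩
  · -- trace
    have hc := hρ ℓ hℓ hℓN hℓS' A hA σ hσ
    obtain ⟨hsq, htr, -⟩ := of_charpoly_eq ρ.finrank_eq hc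
    have h1 : LinearMap.trace T ρ.V (ρ.ρ (σ ^ k))
        = π (dick Tℓ (ℓ : CuspForm.heckeAlgebra N 2 (↑S : Set ℕ)) k) := by
      rw [map_pow, trace_pow_eq_dick ρ.finrank_eq hsq htr, map_dick, map_natCast]
    rw [← h1, ← map_sub]
    have h2 : ρ.ρ g - ρ.ρ (σ ^ k) = ρ.ρ (σ ^ k) * (ρ.ρ h - 1) := by
      rw [hg, map_mul, mul_sub, mul_one]
    rw [h2]
    refine trace_mem_of_forall_mem_smul_top _ _ fun v => ?_
    rw [Module.End.mul_apply, LinearMap.sub_apply, Module.End.one_apply]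
    have h3 := hL1 h hfix1 v
    refine Submodule.smul_induction_on (p := fun x => ρ.ρ (σ ^ k) x ∈
      (IsLocalRing.maximalIdeal T ^ n) • (⊤ : Submodule T ρ.V)) h3 ?_ ?_
    · intro a ha w _
      rw [map_smul]
      exact Submodule.smul_mem_smul ha Submodule.mem_top
    · intro x y hx hy
      rw [map_add]
      exact Submodule.add_mem _ hx hy
  · -- det
    have hc := hρ ℓ hℓ hℓN hℓS' A hA σ hσ
    obtain ⟨-, -, hdet⟩ := of_charpoly_eq ρ.finrank_eq hc
    have h1 : LinearMap.det (ρ.ρ g) = ((ℓ ^ k : ℕ) : T) * LinearMap.det (ρ.ρ h) := by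
      rw [hg, map_mul, map_mul, map_pow, map_pow, hdet, Nat.cast_pow]
    have h2 := det_sub_one_mem_of_forall_sub_mem_smul_top (IsLocalRing.maximalIdeal T ^ n)
      (ρ.ρ h) (hL1 h hfix1)
    have h3 : LinearMap.det (ρ.ρ g) - ((ℓ ^ k : ℕ) : T)
        = ((ℓ ^ k : ℕ) : T) * (LinearMap.det (ρ.ρ h) - 1) := by
      rw [h1]; ring
    rw [h3]
    exact Ideal.mul_mem_left _ _ h2
  · -- Hecke action on the torsion level
    set a := D.gal n σ with ha
    set a' := D.gal n σ⁻¹ with ha'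
    have haa' : a * a' = 1 := by rw [ha, ha', ← map_mul, mul_inv_cancel, map_one]
    have ha'a : a' * a = 1 := by rw [ha, ha', ← map_mul, inv_mul_cancel, map_one]
    set d : AddMonoid.End (D.M n) := (ℓ : AddMonoid.End (D.M n)) with hd
    have hES := D.eichlerShimura n ℓ hℓ hℓN hℓS' A hA σ hσ
    have ht : D.hecke n Tℓ = a + d * a' := by
      have h1 : (a * a - D.hecke n Tℓ * a + d) * a' = 0 := by rw [hES, zero_mul]
      have h2 : (a * a - D.hecke n Tℓ * a + d) * a' = a - D.hecke n Tℓ + d * a' := by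
        rw [add_mul, sub_mul, mul_assoc, haa', mul_one, mul_assoc, haa', mul_one]
      rw [h2] at h1
      rw [sub_add_eq_add_sub, sub_eq_zero] at h1
      exact h1.symm
    have hdick := dick_eq_pow_add haa' ha'a (Nat.cast_commute ℓ a) (Nat.cast_commute ℓ a') ht k
    rw [map_dick, map_natCast, hdick]
    have hgk : D.gal n g = a ^ k := by
      rw [hg, map_mul, hL2 h hfix2, mul_one, map_pow]
    have hgk' : D.gal n g⁻¹ = a' ^ k := by
      have : g⁻¹ = h⁻¹ * (σ⁻¹) ^ k := by rw [hg, mul_inv_rev, inv_pow]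
      rw [this, map_mul, map_pow]
      have hh1 : D.gal n h⁻¹ = 1 := by
        have : D.gal n h⁻¹ * D.gal n h = 1 := by rw [← map_mul, inv_mul_cancel, map_one]
        rwa [hL2 h hfix2, mul_one] at this
      rw [hh1, one_mul]
    rw [hgk, hgk', Nat.cast_pow]
  · -- roots of unity
    intro ζ hζ
    have hζL : ζ ∈ L1 ⊔ L2 ⊔ L3 := (le_sup_right : L3 ≤ L1 ⊔ L2 ⊔ L3) (hL3 ζ hζ)
    rw [← hk ζ hζL]
    exact frob_pow_apply_rootOfUnity hℓ hA hσ hℓpn hζ k

/-- `π` maps `p ^ n`-divisible Hecke operators into the `n`-th power of the maximal ideal. -/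
lemma char_zsmul_mem (hpT : (p : T) ∈ IsLocalRing.maximalIdeal T)
    (π : CuspForm.heckeAlgebra N 2 (↑S : Set ℕ) →+* T) (n : ℕ)
    (y' : CuspForm.heckeAlgebra N 2 (↑S : Set ℕ)) :
    π (((p : ℤ) ^ n) • y') ∈ IsLocalRing.maximalIdeal T ^ n := by
  rw [zsmul_eq_mul, map_mul, map_intCast, Int.cast_pow, Int.cast_natCast]
  exact Ideal.mul_mem_right _ _ (Ideal.pow_mem_pow hpT n)

/-- The determinant of a Frobenius lift at a prime `q ≠ p` is `q`. -/
theorem det_frob_eq [IsNoetherianRing T] (hF : FrobPowerDense) (hp : p.Prime) (hpS : p ∈ S)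
    (hNS : ∀ q : ℕ, q.Prime → q ∣ N → q ∈ S)
    (hpT : (p : T) ∈ IsLocalRing.maximalIdeal T)
    (ρ : GaloisRepAdic T) (π : CuspForm.heckeAlgebra N 2 (↑S : Set ℕ) →+* T)
    (hρ : FrobCharpoly ρ π) (D : TorsionHeckeData p N S)
    (q : ℕ) (hq : q.Prime) (hqp : q ≠ p)
    (P : ValuationSubring (AlgebraicClosure ℚ)) (hP : P.LiesOverPrime q)
    (φ : Γℚ) (hφ : P.IsFrobeniusAt φ q) :
    LinearMap.det (ρ.ρ φ) = (q : T) := by
  rw [← sub_eq_zero]
  refine eq_zero_of_forall_mem_pow fun n => ?_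
  obtain ⟨y, e, -, hdet, -, hζ⟩ := exists_approx_char hF hp hpS hNS ρ π hρ D φ n
  have hpn0 : p ^ n ≠ 0 := pow_ne_zero n hp.ne_zero
  have : NeZero (p ^ n) := ⟨hpn0⟩
  obtain ⟨ζ0, hζ0⟩ := HasEnoughRootsOfUnity.exists_primitiveRoot (AlgebraicClosure ℚ) (p ^ n)
  have hqpn : ¬ q ∣ p ^ n := fun h =>
    hqp ((Nat.prime_dvd_prime_iff_eq hq hp).mp (hq.dvd_of_dvd_pow h))
  have hφζ : φ ζ0 = ζ0 ^ q := frob_apply_rootOfUnity hq hP hφ hqpn hζ0.pow_eq_one
  have hpow : ζ0 ^ e = ζ0 ^ q := by rw [← hζ ζ0 hζ0.pow_eq_one, hφζ]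
  have hmod : e ≡ q [MOD p ^ n] := modEq_of_pow_eq hζ0 hpn0 hpow
  have h1 : (e : T) - (q : T) ∈ IsLocalRing.maximalIdeal T ^ n := by
    refine natCast_sub_natCast_mem hmod _ ?_
    rw [Nat.cast_pow]
    exact Ideal.pow_mem_pow hpT n
  have : LinearMap.det (ρ.ρ φ) - (q : T)
      = (LinearMap.det (ρ.ρ φ) - (e : T)) + ((e : T) - (q : T)) := by ring
  rw [this]
  exact Ideal.add_mem _ hdet h1

/-- The trace of the square of a Frobenius lift at a prime `q ≠ p` satisfying the Steinberg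
relation is `q ^ 2 + 1`. -/
theorem trace_frob_sq_eq [IsNoetherianRing T] [IsDomain T] (hF : FrobPowerDense) (hp : p.Prime)
    (hpS : p ∈ S) (hNS : ∀ q : ℕ, q.Prime → q ∣ N → q ∈ S)
    (hpT : (p : T) ∈ IsLocalRing.maximalIdeal T)
    (ρ : GaloisRepAdic T) (π : CuspForm.heckeAlgebra N 2 (↑S : Set ℕ) →+* T)
    (hρ : FrobCharpoly ρ π) (D : TorsionHeckeData p N S)
    (q : ℕ) (hq : q.Prime) (hqp : q ≠ p)
    (y : CuspForm.heckeAlgebra N 2 (↑S : Set ℕ)) (hy : π y ≠ 0) (hrel : SteinbergRelation D q y)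
    (P : ValuationSubring (AlgebraicClosure ℚ)) (hP : P.LiesOverPrime q)
    (φ : Γℚ) (hφ : P.IsFrobeniusAt φ q) :
    LinearMap.trace T ρ.V (ρ.ρ (φ ^ 2)) = (q : T) ^ 2 + 1 := by
  obtain ⟨c0, hc0⟩ := D.faithful
  have key : π y * (LinearMap.trace T ρ.V (ρ.ρ (φ ^ 2)) - ((q : T) ^ 2 + 1)) = 0 := by
    refine eq_zero_of_forall_mem_pow fun n => ?_
    set m := n + c0 with hm
    have hmn : IsLocalRing.maximalIdeal T ^ m ≤ IsLocalRing.maximalIdeal T ^ n :=
      Ideal.pow_le_pow_right (Nat.le_add_right n c0)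
    obtain ⟨y2, e, htr, -, hhe, hζ⟩ := exists_approx_char hF hp hpS hNS ρ π hρ D (φ ^ 2) m
    have hpm0 : p ^ m ≠ 0 := pow_ne_zero m hp.ne_zero
    have : NeZero (p ^ m) := ⟨hpm0⟩
    obtain ⟨ζ0, hζ0⟩ := HasEnoughRootsOfUnity.exists_primitiveRoot (AlgebraicClosure ℚ) (p ^ m)
    have hqpm : ¬ q ∣ p ^ m := fun h =>
      hqp ((Nat.prime_dvd_prime_iff_eq hq hp).mp (hq.dvd_of_dvd_pow h))
    have hφζ : (φ ^ 2) ζ0 = ζ0 ^ (q ^ 2) :=
      frob_pow_apply_rootOfUnity hq hP hφ hqpm hζ0.pow_eq_one 2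
    have hpow : ζ0 ^ e = ζ0 ^ (q ^ 2) := by rw [← hζ ζ0 hζ0.pow_eq_one, hφζ]
    have hee : (e : AddMonoid.End (D.M m)) = ((q ^ 2 : ℕ) : AddMonoid.End (D.M m)) :=
      natCast_end_eq_of_pow_eq (D.pow_smul m) hζ0 hpm0 hpow
    set a := D.gal m φ with ha
    set a' := D.gal m φ⁻¹ with ha'
    set Q : AddMonoid.End (D.M m) := ((q ^ 2 : ℕ) : AddMonoid.End (D.M m)) with hQ
    have haa' : a * a' = 1 := by rw [ha, ha', ← map_mul, mul_inv_cancel, map_one]
    have hQa : Commute Q a := Nat.cast_commute _ a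
    have hQa' : Commute Q a' := Nat.cast_commute _ a'
    have hg2 : D.gal m (φ ^ 2) = a * a := by rw [map_pow, pow_two]
    have hg2' : D.gal m (φ ^ 2)⁻¹ = a' * a' := by rw [← inv_pow, map_pow, pow_two]
    have hy2 : D.hecke m y2 = a * a + Q * (a' * a') := by rw [hhe, hee, hg2, hg2']
    have hR := hrel m P hP φ hφ
    have hcomp : (a * a - 1) * (a * a - Q) * (a' * a') = a * a + Q * (a' * a') - (Q + 1) := by
      have h1 : a * a * a' = a := by rw [mul_assoc, haa', mul_one]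
      have h2 : a * a * (a * a) * (a' * a') = a * a := by
        have : a * a * (a * a) * (a' * a') = a * (a * (a * (a * a') * a')) := by noncomm_ring
        rw [this, haa', mul_one, haa', mul_one]
      have h3 : a * a * Q * (a' * a') = Q := by
        have e1 : a * a * Q = Q * (a * a) := ((hQa.mul_right hQa).eq).symm
        rw [e1]
        have : Q * (a * a) * (a' * a') = Q * (a * (a * a' * a')) := by noncomm_ring
        rw [this, haa', one_mul, haa', mul_one]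
      have h4 : a * a * (a' * a') = 1 := by
        have : a * a * (a' * a') = a * (a * a' * a') := by noncomm_ring
        rw [this, haa', one_mul, haa']
      calc (a * a - 1) * (a * a - Q) * (a' * a')
          = a * a * (a * a) * (a' * a') - a * a * Q * (a' * a') - a * a * (a' * a')
            + Q * (a' * a') := by noncomm_ring
        _ = a * a + Q * (a' * a') - (Q + 1) := by rw [h2, h3, h4]; abel
    have hzero : D.hecke m (y * (y2 - ((q ^ 2 : ℕ) + 1))) = 0 := by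
      rw [map_mul, map_sub, map_add, map_natCast, map_one, hy2, ← hcomp]
      have hR' : D.hecke m y * (a * a - 1) * (a * a - Q) = 0 := hR
      rw [show D.hecke m y * ((a * a - 1) * (a * a - Q) * (a' * a'))
        = D.hecke m y * (a * a - 1) * (a * a - Q) * (a' * a') by simp only [mul_assoc],
        hR', zero_mul]
    obtain ⟨y', hy'⟩ := hc0 _ n hzero
    have hπ : π y * (π y2 - ((q : T) ^ 2 + 1)) ∈ IsLocalRing.maximalIdeal T ^ n := by
      have : π y * (π y2 - ((q : T) ^ 2 + 1)) = π (y * (y2 - ((q ^ 2 : ℕ) + 1))) := by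
        rw [map_mul, map_sub, map_add, map_natCast, map_one, Nat.cast_pow]
      rw [this, hy']
      exact char_zsmul_mem hpT π n y'
    have : π y * (LinearMap.trace T ρ.V (ρ.ρ (φ ^ 2)) - ((q : T) ^ 2 + 1))
        = π y * (LinearMap.trace T ρ.V (ρ.ρ (φ ^ 2)) - π y2)
          + π y * (π y2 - ((q : T) ^ 2 + 1)) := by ring
    rw [this]
    exact Ideal.add_mem _ (Ideal.mul_mem_left _ _ (hmn htr)) hπ
  rcases mul_eq_zero.mp key with h | h
  · exact absurd h hy
  · exact sub_eq_zero.mp h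

/-- **S35, clause 2, consumer side.** The characteristic polynomial of a Frobenius lift at a
prime `q ≠ p` satisfying the Steinberg relation. -/
theorem charpoly_frob_of_steinbergRelation [IsNoetherianRing T] [IsDomain T]
    (hF : FrobPowerDense) (hp : p.Prime)
    (hpS : p ∈ S) (hNS : ∀ q : ℕ, q.Prime → q ∣ N → q ∈ S)
    (hpT : (p : T) ∈ IsLocalRing.maximalIdeal T)
    (ρ : GaloisRepAdic T) (π : CuspForm.heckeAlgebra N 2 (↑S : Set ℕ) →+* T)
    (hρ : FrobCharpoly ρ π) (D : TorsionHeckeData p N S)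
    (q : ℕ) (hq : q.Prime) (hqp : q ≠ p)
    (y : CuspForm.heckeAlgebra N 2 (↑S : Set ℕ)) (hy : π y ≠ 0) (hrel : SteinbergRelation D q y)
    (P : ValuationSubring (AlgebraicClosure ℚ)) (hP : P.LiesOverPrime q)
    (φ : Γℚ) (hφ : P.IsFrobeniusAt φ q) :
    LinearMap.charpoly (ρ.ρ φ) = X ^ 2 - C ((q : T) + 1) * X + C (q : T) ∨
      LinearMap.charpoly (ρ.ρ φ) = X ^ 2 + C ((q : T) + 1) * X + C (q : T) := by
  have hdet := det_frob_eq hF hp hpS hNS hpT ρ π hρ D q hq hqp P hP φ hφ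
  have htr2 := trace_frob_sq_eq hF hp hpS hNS hpT ρ π hρ D q hq hqp y hy hrel P hP φ hφ
  set f := ρ.ρ φ with hf
  set t := LinearMap.trace T ρ.V f with ht
  have hc := charpoly_eq_of_finrank_two ρ.finrank_eq f
  obtain ⟨hsq, -, -⟩ := of_charpoly_eq ρ.finrank_eq hc
  have h2 : LinearMap.trace T ρ.V (f ^ 2) = t * t - LinearMap.det f * 2 := by
    rw [trace_pow_eq_dick ρ.finrank_eq hsq rfl 2, dick_succ_succ, dick_one, dick_zero]
  rw [map_pow, ← hf, h2, hdet] at htr2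
  have hprod : (t - ((q : T) + 1)) * (t + ((q : T) + 1)) = 0 := by
    linear_combination htr2
  rw [hc, hdet, ← ht]
  rcases mul_eq_zero.mp hprod with h | h
  · left
    rw [sub_eq_zero.mp h]
  · right
    have : t = -((q : T) + 1) := eq_neg_of_add_eq_zero_left h
    rw [this, map_neg, neg_mul, sub_neg_eq_add]

end Fermat.Agent.S35x
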