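import Mathlib
import Fermat.Agent.S35x.Consumer
import Fermat.Agent.Gateway.Statements

/-!
# S35 from S30, Frobenius density and the Steinberg relation on torsion level data

`s35_of_data`: the conclusion of the frozen statement S35 follows from
* `S30Statement` (existence of the representation with the Frobenius characteristic polynomials),
* `FrobPowerDense`,
* finiteness of the Hecke algebra over `ℤ` (S22),
* torsion level data `D : TorsionHeckeData lam M S` together with, for every prime `q ≠ lam`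
  exactly dividing `M`, a Hecke operator `y` with `chig y ≠ 0` and `SteinbergRelation D q y`.
-/

set_option autoImplicit false

namespace Fermat.Agent.S35x

open Polynomial
open Fermat.Agent.Gateway.S31Red Fermat.Agent.Gateway.Assembly

/-- A ring homomorphism from a domain integral over `ℤ` to a domain of characteristic zero is
injective. -/
theorem injective_of_isIntegral_int {R O : Type*} [CommRing R] [IsDomain R]
    [Algebra.IsIntegral ℤ R] [CommRing O] [IsDomain O] [CharZero O] (f : R →+* O) :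
    Function.Injective f := by
  rw [RingHom.injective_iff_ker_eq_bot]
  refine Ideal.eq_bot_of_comap_eq_bot (R := ℤ) ?_
  rw [eq_bot_iff]
  intro n hn
  rw [Ideal.mem_comap, RingHom.mem_ker, eq_intCast, map_intCast] at hn
  rw [Ideal.mem_bot]
  exact_mod_cast hn

/-- The conclusion of S35 from S30, Frobenius density and the Steinberg relation. -/
theorem s35_of_data (h30 : S30Statement) (h22 : S22Statement) (hF : FrobPowerDense)
    {M : ℕ} [NeZero M]
    (lam : ℕ) [Fact lam.Prime]
    (S : Finset ℕ)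
    (O' : Type) [CommRing O'] [IsDomain O'] [IsDiscreteValuationRing O']
    [IsAdicComplete (IsLocalRing.maximalIdeal O') O'] [Finite (IsLocalRing.ResidueField O')]
    [CharZero O'] (hlamO' : (lam : O') ∈ IsLocalRing.maximalIdeal O')
    (chig : CuspForm.heckeAlgebra M 2 (↑S : Set ℕ) →+* ℂ)
    (iota : chig.range →+* O')
    (hlamS : lam ∈ S) (hMS : ∀ q : ℕ, q.Prime → q ∣ M → q ∈ S)
    (hdata : ∃ D : TorsionHeckeData lam M S,
      ∀ q : ℕ, q.Prime → q ≠ lam → q ∣ M → ¬ q ^ 2 ∣ M →
        ∃ y : CuspForm.heckeAlgebra M 2 (↑S : Set ℕ), chig y ≠ 0 ∧ SteinbergRelation D q y) :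
    ∃ (O'' : Type) (_ : CommRing O'') (_ : IsDomain O'') (_ : IsDiscreteValuationRing O'')
      (_ : IsAdicComplete (IsLocalRing.maximalIdeal O'') O'')
      (_ : Finite (IsLocalRing.ResidueField O''))
      (_ : CharZero O'') (_ : Algebra O' O'') (_ : Module.Finite O' O'')
      (_ : IsLocalHom (algebraMap O' O'')),
      Function.Injective (algebraMap O' O'') ∧
      ∃ ρ : GaloisRepAdic O'',
        (∀ (ℓ : ℕ) (hℓ : ℓ.Prime) (hℓM : ¬ ℓ ∣ M) (hℓS : ℓ ∉ (↑S : Set ℕ)),
          ∀ A : ValuationSubring (AlgebraicClosure ℚ), A.LiesOverPrime ℓ →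
            ∀ σ : AlgebraicClosure ℚ ≃ₐ[ℚ] AlgebraicClosure ℚ, A.IsFrobeniusAt σ ℓ →
              LinearMap.charpoly (ρ.ρ σ) =
                X ^ 2 - C (algebraMap O' O'' ((iota.comp chig.rangeRestrict)
                  (CuspForm.heckeAlgebra.T hℓ hℓM hℓS))) * X
                  + C ((ℓ : O''))) ∧
        (∀ q : ℕ, q.Prime → q ≠ lam → q ∣ M → ¬ q ^ 2 ∣ M →
          ∀ A : ValuationSubring (AlgebraicClosure ℚ), A.LiesOverPrime q →
            ∀ σ : AlgebraicClosure ℚ ≃ₐ[ℚ] AlgebraicClosure ℚ, A.IsFrobeniusAt σ q →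
              LinearMap.charpoly (ρ.ρ σ) = X ^ 2 - C ((q : O'') + 1) * X + C ((q : O'')) ∨
              LinearMap.charpoly (ρ.ρ σ) = X ^ 2 + C ((q : O'') + 1) * X + C ((q : O''))) := by
  classical
  have hlam : lam.Prime := Fact.out
  obtain ⟨D, hD⟩ := hdata
  obtain ⟨O'', j1, j2, j3, j4, j5, j6, j7, j8, j9, hinj, ρ, hchar, -⟩ :=
    h30 lam M S hlamS hMS O' hlamO' (iota.comp chig.rangeRestrict)
  refine ⟨O'', j1, j2, j3, j4, j5, j6, j7, j8, j9, hinj, ρ, hchar, ?_⟩
  intro q hq hqlam hqM hq2 A hA σ hσ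
  obtain ⟨y, hy, hrel⟩ := hD q hq hqlam hqM hq2
  -- the character with values in `O''`
  set π : CuspForm.heckeAlgebra M 2 (↑S : Set ℕ) →+* O'' :=
    (algebraMap O' O'').comp (iota.comp chig.rangeRestrict) with hπ
  have hρ : FrobCharpoly ρ π := fun ℓ hℓ hℓM hℓS B hB τ hτ => hchar ℓ hℓ hℓM hℓS B hB τ hτ
  -- `iota` is injective
  have hfin : Module.Finite ℤ (CuspForm.heckeAlgebra M 2 (↑S : Set ℕ)) := h22 M 2 _
  have : Algebra.IsIntegral ℤ chig.range := by
    refine ⟨fun x => ?_⟩
    obtain ⟨t, ht⟩ := x.2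
    have h1 : IsIntegral ℤ t := IsIntegral.of_finite ℤ t
    have h2 : IsIntegral ℤ (chig.rangeRestrict t) := h1.map chig.rangeRestrict.toIntAlgHom
    have h3 : chig.rangeRestrict t = x := Subtype.ext ht
    rwa [h3] at h2
  have hiota : Function.Injective iota := injective_of_isIntegral_int iota
  have hπy : π y ≠ 0 := by
    intro h0
    have h1 : iota (chig.rangeRestrict y) = 0 := by
      apply hinj
      rw [map_zero]
      exact h0
    have h2 : chig.rangeRestrict y = 0 := by
      apply hiota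
      rw [map_zero]
      exact h1
    exact hy (congrArg Subtype.val h2)
  have hlamO'' : (lam : O'') ∈ IsLocalRing.maximalIdeal O'' := by
    have h1 : (lam : O'') = algebraMap O' O'' (lam : O') := by rw [map_natCast]
    rw [h1]
    exact map_nonunit (algebraMap O' O'') _ hlamO'
  exact charpoly_frob_of_steinbergRelation hF hlam hlamS hMS hlamO'' ρ π hρ D q hq hqlam y hπy
    hrel A hA σ hσ

end Fermat.Agent.S35x
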