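import Mathlib
import Fermat.Prelude.Def_CuspForm_HeckeAlgebra
import Fermat.Prelude.Def_CuspForm_IntegralStructure
import Fermat.Prelude.Thm_CuspForm_intLattice_fg
import Fermat.Prelude.Thm_CuspForm_mem_intLattice_of_mem_heckeAlgebra
import Fermat.Agent.S22
import Fermat.Agent.S23
import Fermat.Agent.S49.Eigenform
import Fermat.Agent.S49.Realize
import Fermat.Agent.Gateway.S30.Occ

/-!
# Every character of the anemic Hecke ring occurs in `S₂(Γ₀(N))` (S35 phase 2, file F1b)

`T = heckeAlgebra N 2 S` is a finite free `ℤ`-module preserving the integral lattice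
`L = intLattice N 2`, which spans the space of cusp forms over `ℂ` and consists of forms with
integral `q`-coefficients.  Hence a `ℤ`-basis of `T` stays linearly independent over `ℂ` in
`End_ℂ (S₂)`, every `ℂ`-linear relation between Hecke operators is killed by any character `χ`
of `T`, and `χ` occurs as a system of eigenvalues.
-/

set_option autoImplicit false

namespace Fermat.Agent.S35x.CharEigenvector

open CongruenceSubgroup ModularFormClass

variable {N : ℕ}

/-- Elements of the integral lattice have integral `q`-coefficients. -/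
theorem exists_int_qCoeff_of_mem_intLattice {f : CuspForm (Gamma0 N) 2}
    (hf : f ∈ CuspForm.intLattice N 2) (n : ℕ) : ∃ m : ℤ, qCoeff (⇑f) n = (m : ℂ) := by
  induction hf using Submodule.span_induction with
  | mem x hx => exact hx n
  | zero => exact ⟨0, by rw [Fermat.Agent.S49.Realize.qCoeff_zero']; simp⟩
  | add x y _ _ hx hy =>
    obtain ⟨a, ha⟩ := hx
    obtain ⟨b, hb⟩ := hy
    exact ⟨a + b, by rw [Fermat.Agent.S49.Realize.qCoeff_add, ha, hb]; push_cast; ring⟩
  | smul c x _ hx =>
    obtain ⟨a, ha⟩ := hx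
    refine ⟨c * a, ?_⟩
    rw [← Int.cast_smul_eq_zsmul ℂ c x, Fermat.Agent.S49.Eigenform.qCoeff_smul_cuspForm, ha]
    push_cast; ring

/-- The matrix-coefficient map `A ↦ ((f, n) ↦ a_n (A f))`, `f` in the integral lattice. -/
noncomputable def coeffMap (N : ℕ) :
    Module.End ℂ (CuspForm (Gamma0 N) 2) →ₗ[ℂ] Matrix (CuspForm.intLattice N 2) ℕ ℂ where
  toFun A := fun f n => qCoeff (⇑(A (f : CuspForm (Gamma0 N) 2))) n
  map_add' A B := by
    ext f n
    simp only [LinearMap.add_apply]
    exact Fermat.Agent.S49.Realize.qCoeff_add _ _ n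
  map_smul' c A := by
    ext f n
    simp only [LinearMap.smul_apply, RingHom.id_apply]
    exact Fermat.Agent.S49.Eigenform.qCoeff_smul_cuspForm c _ n

theorem coeffMap_apply (A : Module.End ℂ (CuspForm (Gamma0 N) 2))
    (f : CuspForm.intLattice N 2) (n : ℕ) :
    coeffMap N A f n = qCoeff (⇑(A (f : CuspForm (Gamma0 N) 2))) n := rfl

/-- The matrix-coefficient map is injective when the lattice spans. -/
theorem eq_zero_of_coeffMap_eq_zero
    (hspan : Submodule.span ℂ ((CuspForm.intLattice N 2 :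
      Submodule ℤ (CuspForm (Gamma0 N) 2)) : Set (CuspForm (Gamma0 N) 2)) = ⊤)
    (A : Module.End ℂ (CuspForm (Gamma0 N) 2)) (hA : coeffMap N A = 0) : A = 0 := by
  apply LinearMap.ext_on hspan
  intro f hf
  rw [LinearMap.zero_apply]
  apply Fermat.Agent.S49.Eigenform.cuspForm_eq_zero_of_qCoeff
  intro n
  have := congrFun (congrFun hA ⟨f, hf⟩) n
  simpa [coeffMap_apply] using this

section indep

variable [NeZero N] {S : Set ℕ}

/-- A `ℤ`-basis of the Hecke ring is linearly independent over `ℂ` inside `End_ℂ (S₂(Γ₀(N)))`. -/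
theorem linearIndependent_basis_heckeAlgebra
    (hspan : Submodule.span ℂ ((CuspForm.intLattice N 2 :
      Submodule ℤ (CuspForm (Gamma0 N) 2)) : Set (CuspForm (Gamma0 N) 2)) = ⊤)
    {κ : Type*} [Fintype κ] (s : Module.Basis κ ℤ (CuspForm.heckeAlgebra N 2 S)) :
    LinearIndependent ℂ (fun k => ((s k : CuspForm.heckeAlgebra N 2 S) :
      Module.End ℂ (CuspForm (Gamma0 N) 2))) := by
  classical
  -- integrality of the matrix coefficients
  have hB : ∀ (k : κ) (f : CuspForm.intLattice N 2) (n : ℕ), ∃ m : ℤ,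
      qCoeff (⇑(((s k : CuspForm.heckeAlgebra N 2 S) : Module.End ℂ (CuspForm (Gamma0 N) 2))
        (f : CuspForm (Gamma0 N) 2))) n = (m : ℂ) := fun k f n =>
    exists_int_qCoeff_of_mem_intLattice
      (CuspForm.mem_intLattice_of_mem_heckeAlgebra (by norm_num) (s k).2 f.2) n
  choose B hBspec using hB
  let wQ : κ → Matrix (CuspForm.intLattice N 2) ℕ ℚ := fun k => Matrix.of fun f n => (B k f n : ℚ)
  have hw : ∀ k f n, wQ k f n = (B k f n : ℚ) := fun _ _ _ => rfl
  -- independence over `ℤ`
  have hZ : LinearIndependent ℤ wQ := by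
    rw [Fintype.linearIndependent_iff]
    intro m hm
    have h1 : coeffMap N (((∑ k, m k • s k : CuspForm.heckeAlgebra N 2 S)) :
        Module.End ℂ (CuspForm (Gamma0 N) 2)) = 0 := by
      ext f n
      have h2 := congrFun (congrFun hm f) n
      simp only [Matrix.sum_apply, Matrix.smul_apply, Matrix.zero_apply, hw, zsmul_eq_mul] at h2
      have h3 : (∑ k, (m k : ℂ) * (B k f n : ℂ)) = 0 := by
        have := congrArg (fun x : ℚ => (x : ℂ)) h2
        simpa using this
      rw [coeffMap_apply, Matrix.zero_apply]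
      have h4 : ((∑ k, m k • s k : CuspForm.heckeAlgebra N 2 S) :
          Module.End ℂ (CuspForm (Gamma0 N) 2)) =
          ∑ k, (m k : ℂ) • ((s k : CuspForm.heckeAlgebra N 2 S) :
            Module.End ℂ (CuspForm (Gamma0 N) 2)) := by
        rw [AddSubmonoidClass.coe_finsetSum]
        refine Finset.sum_congr rfl fun k _ => ?_
        rw [Int.cast_smul_eq_zsmul]
        rfl
      rw [h4]
      have h5 : coeffMap N (∑ k, (m k : ℂ) • ((s k : CuspForm.heckeAlgebra N 2 S) :
            Module.End ℂ (CuspForm (Gamma0 N) 2))) f n = 0 := by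
        rw [map_sum, Matrix.sum_apply]
        rw [← h3]
        refine Finset.sum_congr rfl fun k _ => ?_
        rw [map_smul, Matrix.smul_apply, coeffMap_apply, hBspec, smul_eq_mul]
      exact h5
    have h6 := eq_zero_of_coeffMap_eq_zero hspan _ h1
    have h7 : (∑ k, m k • s k : CuspForm.heckeAlgebra N 2 S) = 0 := Subtype.ext h6
    exact (Fintype.linearIndependent_iff.mp s.linearIndependent) m h7
  -- independence over `ℚ`, then over `ℂ`
  have hQ : LinearIndependent ℚ wQ := (LinearIndependent.iff_fractionRing ℤ ℚ).mp hZ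
  have hC := Fermat.Agent.Gateway.Assembly.Occ.linearIndependent_map_algebraMap
    (K := ℚ) (E := ℂ) wQ hQ
  have hcomp : (fun k => (wQ k).map (algebraMap ℚ ℂ)) =
      (coeffMap N) ∘ (fun k => ((s k : CuspForm.heckeAlgebra N 2 S) :
        Module.End ℂ (CuspForm (Gamma0 N) 2))) := by
    funext k
    ext f n
    simp only [Matrix.map_apply, Function.comp_apply, coeffMap_apply, hw, hBspec]
    simp
  rw [hcomp] at hC
  exact LinearIndependent.of_comp (coeffMap N) hC

end indep

section main

variable [NeZero N]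

theorem span_intLattice_eq_top (N : ℕ) [NeZero N] :
    Submodule.span ℂ ((CuspForm.intLattice N 2 :
      Submodule ℤ (CuspForm (Gamma0 N) 2)) : Set (CuspForm (Gamma0 N) 2)) = ⊤ :=
  Fermat.Agent.S23.result N

theorem finite_cuspForm (N : ℕ) [NeZero N] : Module.Finite ℂ (CuspForm (Gamma0 N) 2) := by
  obtain ⟨t, ht⟩ := CuspForm.intLattice_fg N 2
  refine ⟨⟨t, ?_⟩⟩
  rw [eq_top_iff, ← span_intLattice_eq_top N, ← ht]
  rw [Submodule.span_le]
  intro x hx
  exact Submodule.span_subset_span ℤ ℂ _ hx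

/-- Every ring homomorphism from the Hecke ring to `ℂ` is the system of eigenvalues of a nonzero
cusp form (general form: all elements of the Hecke ring). -/
theorem exists_eigenvector_of_char' (S : Set ℕ) (χ : CuspForm.heckeAlgebra N 2 S →+* ℂ) :
    ∃ f : CuspForm (Gamma0 N) 2, f ≠ 0 ∧ ∀ t : CuspForm.heckeAlgebra N 2 S,
      (t : Module.End ℂ (CuspForm (Gamma0 N) 2)) f = χ t • f := by
  classical
  have : Module.Finite ℤ (CuspForm.heckeAlgebra N 2 S) := Fermat.Agent.S22.result N 2 S
  have : Module.Finite ℂ (CuspForm (Gamma0 N) 2) := finite_cuspForm N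
  let s := Module.Free.chooseBasis ℤ (CuspForm.heckeAlgebra N 2 S)
  have hli0 := linearIndependent_basis_heckeAlgebra (span_intLattice_eq_top N) s
  let bV := Module.finBasis ℂ (CuspForm (Gamma0 N) 2)
  let h := Module.finrank ℂ (CuspForm (Gamma0 N) 2)
  let e : Module.End ℂ (CuspForm (Gamma0 N) 2) ≃ₐ[ℂ] Matrix (Fin h) (Fin h) ℂ :=
    LinearMap.toMatrixAlgEquiv bV
  let M : CuspForm.heckeAlgebra N 2 S →+* Matrix (Fin h) (Fin h) ℂ :=
    (e : Module.End ℂ (CuspForm (Gamma0 N) 2) →+* Matrix (Fin h) (Fin h) ℂ).comp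
      (CuspForm.heckeAlgebra N 2 S).val.toRingHom
  have hli : LinearIndependent ℂ (fun k => M.toAddMonoidHom (s k)) := by
    have := hli0.map' e.toLinearEquiv.toLinearMap (LinearEquiv.ker _)
    exact this
  have hrel : ∀ c : CuspForm.heckeAlgebra N 2 S →₀ ℂ, (c.sum fun t e => e • M t) = 0 →
      (c.sum fun t e => e * χ t) = 0 := fun c hc =>
    Fermat.Agent.Gateway.Assembly.Occ.relations_of_linearIndependent s M.toAddMonoidHom
      χ.toAddMonoidHom hli c hc
  obtain ⟨v, hv, hev⟩ :=
    Fermat.Agent.Gateway.Assembly.exists_common_eigenvector_of_relations M χ hrel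
  refine ⟨bV.equivFun.symm v, ?_, fun t => ?_⟩
  · intro h0
    apply hv
    have := congrArg bV.equivFun h0
    rwa [LinearEquiv.apply_symm_apply, map_zero] at this
  · apply bV.equivFun.injective
    have h1 := LinearMap.toMatrix_mulVec_repr bV bV
      (t : Module.End ℂ (CuspForm (Gamma0 N) 2)) (bV.equivFun.symm v)
    have h2 : (bV.repr (bV.equivFun.symm v) : Fin h → ℂ) = v := by
      have := bV.equivFun.apply_symm_apply v
      exact this
    rw [h2] at h1
    have h3 : M t = LinearMap.toMatrix bV bV (t : Module.End ℂ (CuspForm (Gamma0 N) 2)) := rfl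
    rw [← h3, hev t] at h1
    rw [map_smul, LinearEquiv.apply_symm_apply]
    exact h1.symm

/-- **(F1b)** Every character of the anemic Hecke ring occurs in `S₂(Γ₀(N))`. -/
theorem exists_eigenvector_of_char (S : Finset ℕ)
    (_hNS : ∀ q : ℕ, q.Prime → q ∣ N → q ∈ S)
    (χ : CuspForm.heckeAlgebra N 2 (↑S : Set ℕ) →+* ℂ) :
    ∃ f : CuspForm (CongruenceSubgroup.Gamma0 N) 2, f ≠ 0 ∧
      ∀ (ℓ : ℕ) (hℓ : ℓ.Prime) (hℓN : ¬ ℓ ∣ N) (hℓS : ℓ ∉ (↑S : Set ℕ)),
        CuspForm.heckeTLin 2 hℓ hℓN f = χ (CuspForm.heckeAlgebra.T hℓ hℓN hℓS) • f := by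
  obtain ⟨f, hf, hev⟩ := exists_eigenvector_of_char' (↑S : Set ℕ) χ
  exact ⟨f, hf, fun ℓ hℓ hℓN hℓS => hev (CuspForm.heckeAlgebra.T hℓ hℓN hℓS)⟩

end main

end Fermat.Agent.S35x.CharEigenvector
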