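import Mathlib
import Fermat.Prelude.Def_CuspForm_HeckeAlgebra

/-!
# The level lowering homomorphism of Hecke algebras `𝕋(N q) → 𝕋(N)`

`levelIncl N q : S₂(Γ₀(N)) → S₂(Γ₀(N q))` is the inclusion of cusp forms (same function). It
intertwines the Hecke operators `T_ℓ` of the two levels (they are given by the same formula on
functions), so restriction of operators to the stable subspace `S₂(Γ₀(N))` is a ring homomorphism
`levelHom : heckeAlgebra (N q) 2 S →+* heckeAlgebra N 2 S` with `T_ℓ ↦ T_ℓ`, as soon as `S`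
contains the primes dividing `N q`. It is surjective.
-/

set_option autoImplicit false

namespace Fermat.Agent.S35x

open CongruenceSubgroup CuspForm
open scoped MatrixGroups

variable (N q : ℕ)

theorem gamma0_mul_le : Gamma0 (N * q) ≤ Gamma0 N := by
  intro A hA
  rw [Gamma0_mem] at hA ⊢
  have h1 : ((N * q : ℕ) : ℤ) ∣ (A 1 0 : ℤ) := (ZMod.intCast_zmod_eq_zero_iff_dvd _ _).mp hA
  exact (ZMod.intCast_zmod_eq_zero_iff_dvd _ _).mpr
    (dvd_trans (by exact_mod_cast Dvd.intro q rfl) h1)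

theorem map_gamma0_mul_le :
    Subgroup.map (Matrix.SpecialLinearGroup.mapGL ℝ) (Gamma0 (N * q)) ≤
      Subgroup.map (Matrix.SpecialLinearGroup.mapGL ℝ) (Gamma0 N) :=
  Subgroup.map_mono (gamma0_mul_le N q)

/-- The inclusion of cusp forms of level `N` into cusp forms of level `N q`. -/
noncomputable def levelIncl : CuspForm (Gamma0 N) 2 →ₗ[ℂ] CuspForm (Gamma0 (N * q)) 2 where
  toFun f :=
    { toFun := f
      slash_action_eq' := fun A hA => f.slash_action_eq' A (map_gamma0_mul_le N q hA)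
      holo' := f.holo'
      zero_at_cusps' := fun hc => f.zero_at_cusps' (hc.mono (map_gamma0_mul_le N q)) }
  map_add' _ _ := rfl
  map_smul' _ _ := rfl

@[simp] theorem coe_levelIncl (f : CuspForm (Gamma0 N) 2) : ⇑(levelIncl N q f) = ⇑f := rfl

theorem levelIncl_injective : Function.Injective (levelIncl N q) := by
  intro f g h
  apply DFunLike.coe_injective
  have := congrArg (fun x : CuspForm (Gamma0 (N * q)) 2 => (⇑x : UpperHalfPlane → ℂ)) h
  simpa using this

variable {N q}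

/-- The Hecke operators `T_ℓ` of the two levels are intertwined by the inclusion. -/
theorem heckeTLin_levelIncl {ℓ : ℕ} (hℓ : ℓ.Prime) (hℓN : ¬ ℓ ∣ N) (hℓNq : ¬ ℓ ∣ N * q)
    (f : CuspForm (Gamma0 N) 2) :
    heckeTLin 2 hℓ hℓNq (levelIncl N q f) = levelIncl N q (heckeTLin 2 hℓ hℓN f) :=
  DFunLike.coe_injective rfl

variable (N q)

/-- `t'` is the restriction of the operator `t` of level `N q` to the forms of level `N`. -/
def IsRestr (t : Module.End ℂ (CuspForm (Gamma0 (N * q)) 2))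
    (t' : Module.End ℂ (CuspForm (Gamma0 N) 2)) : Prop :=
  ∀ f, t (levelIncl N q f) = levelIncl N q (t' f)

variable {N q}

theorem IsRestr.unique {t : Module.End ℂ (CuspForm (Gamma0 (N * q)) 2)}
    {t' t'' : Module.End ℂ (CuspForm (Gamma0 N) 2)} (h' : IsRestr N q t t')
    (h'' : IsRestr N q t t'') : t' = t'' :=
  LinearMap.ext fun f => levelIncl_injective N q ((h' f).symm.trans (h'' f))

theorem IsRestr.add {t u : Module.End ℂ (CuspForm (Gamma0 (N * q)) 2)}
    {t' u' : Module.End ℂ (CuspForm (Gamma0 N) 2)} (ht : IsRestr N q t t')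
    (hu : IsRestr N q u u') : IsRestr N q (t + u) (t' + u') := fun f => by
  rw [LinearMap.add_apply, LinearMap.add_apply, ht f, hu f, map_add]

theorem IsRestr.mul {t u : Module.End ℂ (CuspForm (Gamma0 (N * q)) 2)}
    {t' u' : Module.End ℂ (CuspForm (Gamma0 N) 2)} (ht : IsRestr N q t t')
    (hu : IsRestr N q u u') : IsRestr N q (t * u) (t' * u') := fun f => by
  rw [Module.End.mul_apply, Module.End.mul_apply, hu f, ht (u' f)]

theorem IsRestr.algebraMap (n : ℤ) :
    IsRestr N q (algebraMap ℤ (Module.End ℂ (CuspForm (Gamma0 (N * q)) 2)) n)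
      (algebraMap ℤ (Module.End ℂ (CuspForm (Gamma0 N) 2)) n) := fun f => by
  rw [Algebra.algebraMap_eq_smul_one, Algebra.algebraMap_eq_smul_one, LinearMap.smul_apply,
    LinearMap.smul_apply, Module.End.one_apply, Module.End.one_apply, map_zsmul]

theorem IsRestr.one : IsRestr N q 1 1 := fun _ => rfl

theorem IsRestr.zero : IsRestr N q 0 0 := fun f => by
  rw [LinearMap.zero_apply, LinearMap.zero_apply, map_zero]

theorem IsRestr.heckeTLin {ℓ : ℕ} (hℓ : ℓ.Prime) (hℓN : ¬ ℓ ∣ N) (hℓNq : ¬ ℓ ∣ N * q) :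
    IsRestr N q (heckeTLin 2 hℓ hℓNq) (heckeTLin 2 hℓ hℓN) :=
  fun f => heckeTLin_levelIncl hℓ hℓN hℓNq f

variable {S : Set ℕ} [NeZero N] [NeZero q]

/-- Every element of the Hecke algebra of level `N q` away from `S` restricts to an element of the
Hecke algebra of level `N` away from `S`. -/
theorem exists_isRestr (hS : ∀ p : ℕ, p.Prime → p ∣ N * q → p ∈ S)
    (t : Module.End ℂ (CuspForm (Gamma0 (N * q)) 2)) (ht : t ∈ heckeAlgebra (N * q) 2 S) :
    ∃ t' ∈ heckeAlgebra N 2 S, IsRestr N q t t' := by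
  induction ht using Algebra.adjoin_induction with
  | mem x hx =>
    rcases hx with ⟨ℓ, hℓ, hℓNq, hℓS, rfl⟩ | ⟨p, hpNq, hp, hpS, rfl⟩
    · have hℓN : ¬ ℓ ∣ N := fun hd => hℓNq (Dvd.dvd.mul_right hd q)
      exact ⟨_, heckeTLin_mem_heckeAlgebra hℓ hℓN hℓS, IsRestr.heckeTLin hℓ hℓN hℓNq⟩
    · exact absurd (hS p hp hpNq) hpS
  | algebraMap n => exact ⟨_, Subalgebra.algebraMap_mem _ n, IsRestr.algebraMap n⟩
  | add x y _ _ hx hy =>
    obtain ⟨x', hx', hxr⟩ := hx
    obtain ⟨y', hy', hyr⟩ := hy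
    exact ⟨_, Subalgebra.add_mem _ hx' hy', hxr.add hyr⟩
  | mul x y _ _ hx hy =>
    obtain ⟨x', hx', hxr⟩ := hx
    obtain ⟨y', hy', hyr⟩ := hy
    exact ⟨_, Subalgebra.mul_mem _ hx' hy', hxr.mul hyr⟩

/-- The restriction of an element of the Hecke algebra of level `N q`. -/
noncomputable def levelRestr (hS : ∀ p : ℕ, p.Prime → p ∣ N * q → p ∈ S)
    (t : heckeAlgebra (N * q) 2 S) : heckeAlgebra N 2 S :=
  ⟨(exists_isRestr hS t.1 t.2).choose, (exists_isRestr hS t.1 t.2).choose_spec.1⟩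

theorem isRestr_levelRestr (hS : ∀ p : ℕ, p.Prime → p ∣ N * q → p ∈ S)
    (t : heckeAlgebra (N * q) 2 S) :
    IsRestr N q (t : Module.End ℂ (CuspForm (Gamma0 (N * q)) 2))
      (levelRestr hS t : Module.End ℂ (CuspForm (Gamma0 N) 2)) :=
  (exists_isRestr hS t.1 t.2).choose_spec.2

theorem levelRestr_eq (hS : ∀ p : ℕ, p.Prime → p ∣ N * q → p ∈ S)
    (t : heckeAlgebra (N * q) 2 S) {t' : heckeAlgebra N 2 S}
    (h : IsRestr N q (t : Module.End ℂ (CuspForm (Gamma0 (N * q)) 2))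
      (t' : Module.End ℂ (CuspForm (Gamma0 N) 2))) : levelRestr hS t = t' :=
  Subtype.ext ((isRestr_levelRestr hS t).unique h)

/-- **The level lowering homomorphism** `𝕋(N q) → 𝕋(N)`, `T_ℓ ↦ T_ℓ`. -/
noncomputable def levelHom (hS : ∀ p : ℕ, p.Prime → p ∣ N * q → p ∈ S) :
    heckeAlgebra (N * q) 2 S →+* heckeAlgebra N 2 S where
  toFun := levelRestr hS
  map_one' := levelRestr_eq hS 1 IsRestr.one
  map_mul' a b := levelRestr_eq hS (a * b)
    ((isRestr_levelRestr hS a).mul (isRestr_levelRestr hS b))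
  map_zero' := levelRestr_eq hS 0 IsRestr.zero
  map_add' a b := levelRestr_eq hS (a + b)
    ((isRestr_levelRestr hS a).add (isRestr_levelRestr hS b))

/-- The defining property of `levelHom`: `t ∘ incl = incl ∘ levelHom t`. -/
theorem levelHom_spec (hS : ∀ p : ℕ, p.Prime → p ∣ N * q → p ∈ S)
    (t : heckeAlgebra (N * q) 2 S) (f : CuspForm (Gamma0 N) 2) :
    (t : Module.End ℂ (CuspForm (Gamma0 (N * q)) 2)) (levelIncl N q f)
      = levelIncl N q ((levelHom hS t : Module.End ℂ (CuspForm (Gamma0 N) 2)) f) :=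
  isRestr_levelRestr hS t f

theorem levelHom_T (hS : ∀ p : ℕ, p.Prime → p ∣ N * q → p ∈ S) {ℓ : ℕ} (hℓ : ℓ.Prime)
    (hℓN : ¬ ℓ ∣ N) (hℓNq : ¬ ℓ ∣ N * q) (hℓS : ℓ ∉ S) :
    levelHom hS (heckeAlgebra.T hℓ hℓNq hℓS) = heckeAlgebra.T hℓ hℓN hℓS :=
  levelRestr_eq hS _ (IsRestr.heckeTLin hℓ hℓN hℓNq)

theorem levelHom_surjective (hS : ∀ p : ℕ, p.Prime → p ∣ N * q → p ∈ S) :
    Function.Surjective (levelHom (N := N) (q := q) hS) := by
  rintro ⟨t', ht'⟩
  induction ht' using Algebra.adjoin_induction with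
  | mem x hx =>
    rcases hx with ⟨ℓ, hℓ, hℓN, hℓS, rfl⟩ | ⟨p, hpN, hp, hpS, rfl⟩
    · have hℓNq : ¬ ℓ ∣ N * q := fun hd => hℓS (hS ℓ hℓ hd)
      exact ⟨heckeAlgebra.T hℓ hℓNq hℓS, levelHom_T hS hℓ hℓN hℓNq hℓS⟩
    · exact absurd (hS p hp (Dvd.dvd.mul_right hpN q)) hpS
  | algebraMap n =>
    refine ⟨algebraMap ℤ _ n, ?_⟩
    rw [eq_intCast, map_intCast]
    rfl
  | add x y hx hy ihx ihy =>
    obtain ⟨a, ha⟩ := ihx
    obtain ⟨b, hb⟩ := ihy
    exact ⟨a + b, by rw [map_add, ha, hb]; rfl⟩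
  | mul x y hx hy ihx ihy =>
    obtain ⟨a, ha⟩ := ihx
    obtain ⟨b, hb⟩ := ihy
    exact ⟨a * b, by rw [map_mul, ha, hb]; rfl⟩

end Fermat.Agent.S35x
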