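import Mathlib
import Fermat.Agent.S35x.LevelHom
import Fermat.Agent.S35x.CharEigenvector
import Fermat.Agent.S34x.Phase2.StrongMult
import Fermat.Agent.Gateway.Statements

/-!
# (F1d) The eigencharacter of a newform of level `N q` does not factor through level `N`

Let `g` be a newform of level `N q` (`q ≠ 1`), `S` a finite set of primes containing the primes
dividing `N q`, and `chig : 𝕋(N q)^S → ℂ` the eigencharacter of `g`. Then `chig` does not factor
through the level lowering homomorphism `levelHom : 𝕋(N q)^S → 𝕋(N)^S`: there is `y` in the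
kernel of `levelHom` with `chig y ≠ 0`.

Indeed, otherwise `chig` descends to a character `χ'` of `𝕋(N)^S` with `χ'(T_ℓ) = a_ℓ(g)`; every
character of the Hecke ring occurs in `S₂(Γ₀(N))` (F1b), so the eigensystem of `g` outside `S`
occurs at the proper divisor level `N`, contradicting strong multiplicity one for newforms
(`not_occurs_of_isNewform`).
-/

set_option autoImplicit false

namespace Fermat.Agent.S35x.KillChar

open CongruenceSubgroup ModularFormClass
open Fermat.Agent.Gateway.Assembly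

theorem exists_levelHom_eq_zero_of_isNewform (h22 : S22Statement) (h30 : S30Statement)
    {N q : ℕ} [NeZero N] [NeZero q] (hq1 : q ≠ 1) (S : Finset ℕ)
    (hS : ∀ p : ℕ, p.Prime → p ∣ N * q → p ∈ (↑S : Set ℕ))
    {g : CuspForm (CongruenceSubgroup.Gamma0 (N * q)) 2} (hg : g.IsNewform)
    (chig : CuspForm.heckeAlgebra (N * q) 2 (↑S : Set ℕ) →+* ℂ)
    (hchig : ∀ (ℓ : ℕ) (hℓ : ℓ.Prime) (hℓM : ¬ ℓ ∣ N * q) (hℓS : ℓ ∉ (↑S : Set ℕ)),
      chig (CuspForm.heckeAlgebra.T hℓ hℓM hℓS) = ModularFormClass.qCoeff g ℓ) :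
    ∃ y : CuspForm.heckeAlgebra (N * q) 2 (↑S : Set ℕ),
      Fermat.Agent.S35x.levelHom hS y = 0 ∧ chig y ≠ 0 := by
  by_contra hcon
  push Not at hcon
  have hker : RingHom.ker (levelHom (N := N) (q := q) hS) ≤ RingHom.ker chig := fun y hy =>
    (RingHom.mem_ker).mpr (hcon y ((RingHom.mem_ker).mp hy))
  -- the descended character of level `N`
  let χ' : CuspForm.heckeAlgebra N 2 (↑S : Set ℕ) →+* ℂ :=
    (levelHom (N := N) (q := q) hS).liftOfSurjective (levelHom_surjective hS) ⟨chig, hker⟩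
  have hχ' : ∀ y, χ' (levelHom hS y) = chig y := fun y =>
    RingHom.liftOfSurjective_comp_apply (levelHom (N := N) (q := q) hS)
      (levelHom_surjective hS) ⟨chig, hker⟩ y
  -- all primes of `N` are in `S`
  have hNS : ∀ p : ℕ, p.Prime → p ∣ N → p ∈ S := fun p hp hpN =>
    Finset.mem_coe.mp (hS p hp (Dvd.dvd.mul_right hpN q))
  obtain ⟨f, hf, hev⟩ := CharEigenvector.exists_eigenvector_of_char (N := N) S hNS χ'
  have hNq : N ≠ N * q := by
    intro h
    have hN : N ≠ 0 := NeZero.ne N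
    have : N * 1 = N * q := by rw [mul_one]; exact h
    exact hq1 (Nat.eq_of_mul_eq_mul_left (Nat.pos_of_ne_zero hN) this).symm
  refine Fermat.Agent.S34x.Phase2.StrongMult.not_occurs_of_isNewform h22 h30 (M := N * q) hg
    (M' := N) (dvd_mul_right N q) hNq S f hf ?_
  intro ℓ hℓ hℓN hℓNq hℓS
  have hℓS' : ℓ ∉ (↑S : Set ℕ) := fun h => hℓS (Finset.mem_coe.mp h)
  rw [hev ℓ hℓ hℓN hℓS', ← levelHom_T hS hℓ hℓN hℓNq hℓS', hχ', hchig ℓ hℓ hℓNq hℓS']

end Fermat.Agent.S35x.KillChar
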