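import Fermat.Agent.S35x.Degeneracy.HeckeES
import Fermat.Agent.S35x.Consumer

/-!
# S35 phase 2, producer: the Steinberg relation on the torsion data of `J₀(N q)`

Let `q` be a prime and `S` a finite set of primes containing the primes dividing `N q` and `lam`.
Suppose the Steinberg relation `φ⁴ - (q² + 1) φ² + q² = 0` holds on the part of the prime to `q`
torsion of `J₀(N q)` killed by the two degeneracy push-forwards to `J₀(N)` (the `q`-new part).
Then every Hecke operator `y` in the kernel of the level lowering homomorphism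
`levelHom : 𝕋(N q) → 𝕋(N)` satisfies `SteinbergRelation D q y` for the torsion data `D` of the
export contract: `y` maps the torsion into the `q`-new part (`Degeneracy.deg_eta_eq_zero`) and
commutes with the Galois action.
-/

set_option autoImplicit false

namespace Fermat.Agent.S35x.Producer

open ModularCurve AlgebraicCurve CuspForm
open Fermat.Agent.Gateway.S31Red Fermat.Agent.S35x.Degeneracy

local notation "Qb" => AlgebraicClosure ℚ
local notation "Γℚ" => (AlgebraicClosure ℚ ≃ₐ[ℚ] AlgebraicClosure ℚ)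

variable {N q : ℕ} [NeZero N] [NeZero q] {S : Finset ℕ}

/-- The factorisation `(a² - 1)(a² - Q) = a⁴ - (Q + 1) a² + Q` applied to a vector, in an
endomorphism ring. -/
theorem steinberg_factor_apply {X : Type*} [AddCommGroup X] (a : AddMonoid.End X) (Q : ℕ)
    (z : X) :
    ((a * a - 1) * (a * a - ((Q : ℕ) : AddMonoid.End X))) z
      = a (a (a (a z))) - (Q + 1) • a (a z) + Q • z := by
  have hQa : Commute ((Q : ℕ) : AddMonoid.End X) a := Nat.cast_commute _ a
  have h1 : (a * a - 1) * (a * a - ((Q : ℕ) : AddMonoid.End X))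
      = a * a * (a * a) - (((Q : ℕ) : AddMonoid.End X) + 1) * (a * a)
        + ((Q : ℕ) : AddMonoid.End X) := by
    have e1 : a * a * ((Q : ℕ) : AddMonoid.End X) = ((Q : ℕ) : AddMonoid.End X) * (a * a) :=
      ((hQa.mul_right hQa).eq).symm
    calc (a * a - 1) * (a * a - ((Q : ℕ) : AddMonoid.End X))
        = a * a * (a * a) - a * a * ((Q : ℕ) : AddMonoid.End X) - a * a
          + ((Q : ℕ) : AddMonoid.End X) := by noncomm_ring
      _ = a * a * (a * a) - (((Q : ℕ) : AddMonoid.End X) + 1) * (a * a)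
          + ((Q : ℕ) : AddMonoid.End X) := by rw [e1]; noncomm_ring
  rw [h1]
  have h2 : (((Q : ℕ) : AddMonoid.End X) + 1) = ((Q + 1 : ℕ) : AddMonoid.End X) := by
    rw [Nat.cast_add, Nat.cast_one]
  rw [h2]
  show a (a (a (a z))) - ((Q + 1 : ℕ) : AddMonoid.End X) (a (a z))
    + ((Q : ℕ) : AddMonoid.End X) z = _
  rw [AddMonoid.End.natCast_apply, AddMonoid.End.natCast_apply]

/-- The Steinberg relation in an endomorphism ring from its pointwise form on the image of an
endomorphism `H` commuting with `G`. -/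
theorem steinberg_of_comm {X : Type*} [AddCommGroup X] (G H : AddMonoid.End X) (Q : ℕ)
    (hGH : Commute G H)
    (h : ∀ x : X, G (G (G (G (H x)))) - (Q + 1) • G (G (H x)) + Q • H x = 0) :
    H * (G * G - 1) * (G * G - ((Q : ℕ) : AddMonoid.End X)) = 0 := by
  set c : AddMonoid.End X := ((Q : ℕ) : AddMonoid.End X) with hc
  have hHG : Commute H G := hGH.symm
  have e1 : H * (G * G) = G * G * H := (hHG.mul_right hHG).eq
  have e2 : H * c = c * H := ((Nat.cast_commute Q H).eq).symm
  have step1 : H * (G * G - 1) = (G * G - 1) * H := by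
    rw [mul_sub, sub_mul, e1, mul_one, one_mul]
  have step2 : H * (G * G - c) = (G * G - c) * H := by
    rw [mul_sub, sub_mul, e1, e2]
  rw [step1, mul_assoc, step2, ← mul_assoc]
  refine AddMonoidHom.ext fun x => ?_
  show ((G * G - 1) * (G * G - c)) (H x) = 0
  rw [hc, steinberg_factor_apply G Q (H x)]
  exact h x

/-- The pointwise Steinberg relation on the image of a Hecke operator killed by level
lowering. -/
theorem steinberg_pointwise {lam : ℕ} (hlam : lam.Prime) (hlamS : lam ∈ S)
    (hq : q.Prime) (hqlam : q ≠ lam)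
    (hS : ∀ p : ℕ, p.Prime → p ∣ N * q → p ∈ (↑S : Set ℕ))
    (E : HeckeTorsionAction (N * q) S) (E' : HeckeTorsionAction N S)
    (h6 : TorsionEichlerShimura (N * q)) (h6' : TorsionEichlerShimura N)
    (hTS : ∀ m : ℕ, ¬ q ∣ m → ∀ A : ValuationSubring Qb, A.LiesOverPrime q →
      ∀ φ : Γℚ, A.IsFrobeniusAt φ q → ∀ x : JZero (N * q), m • x = 0 →
        degAlpha N q x = 0 → degBeta N q x = 0 →
          φ • φ • φ • φ • x - (q ^ 2 + 1) • (φ • φ • x) + (q ^ 2) • x = 0)
    (y : heckeAlgebra (N * q) 2 (↑S : Set ℕ)) (hy : levelHom hS y = 0)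
    (n : ℕ) (P : ValuationSubring Qb) (hP : P.LiesOverPrime q) (φ : Γℚ)
    (hφ : P.IsFrobeniusAt φ q) (x : JTors (N * q) (lam ^ n)) :
    galTors (N * q) (lam ^ n) φ (galTors (N * q) (lam ^ n) φ (galTors (N * q) (lam ^ n) φ
        (galTors (N * q) (lam ^ n) φ (E.eta (lam ^ n) (pow_pos hlam.pos n) y x))))
      - (q ^ 2 + 1) • galTors (N * q) (lam ^ n) φ (galTors (N * q) (lam ^ n) φ
        (E.eta (lam ^ n) (pow_pos hlam.pos n) y x))
      + (q ^ 2) • E.eta (lam ^ n) (pow_pos hlam.pos n) y x = 0 := by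
  have hm : 0 < lam ^ n := pow_pos hlam.pos n
  have hmS : ∀ p : ℕ, p.Prime → p ∣ lam ^ n → p ∈ S := by
    intro p hp hpd
    have : p = lam := (Nat.prime_dvd_prime_iff_eq hp hlam).mp (hp.dvd_of_dvd_pow hpd)
    rw [this]
    exact hlamS
  have hqm : ¬ q ∣ lam ^ n := fun h =>
    hqlam ((Nat.prime_dvd_prime_iff_eq hq hlam).mp (hq.dvd_of_dvd_pow h))
  obtain ⟨hzA, hzB⟩ := deg_eta_eq_zero h6 h6' hS E E' hm hmS y hy x
  have key := hTS (lam ^ n) hqm P hP φ hφ
    ((E.eta (lam ^ n) hm y x : JTors (N * q) (lam ^ n)) : JZero (N * q))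
    (nsmul_coe_eq_zero (E.eta (lam ^ n) hm y x)) hzA hzB
  apply Subtype.ext
  rw [AddSubgroup.coe_add, AddSubgroup.coe_sub, AddSubgroupClass.coe_nsmul,
    AddSubgroupClass.coe_nsmul, coe_galTors_apply, coe_galTors_apply, coe_galTors_apply,
    coe_galTors_apply]
  exact key

/-- **Producer.** The Steinberg relation for the Hecke operators killed by level lowering. -/
theorem steinbergRelation_of_levelHom_eq_zero {lam : ℕ} (hlam : lam.Prime) (hlamS : lam ∈ S)
    (hq : q.Prime) (hqlam : q ≠ lam)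
    (hS : ∀ p : ℕ, p.Prime → p ∣ N * q → p ∈ (↑S : Set ℕ))
    (E : HeckeTorsionAction (N * q) S) (E' : HeckeTorsionAction N S)
    (h4 : GaloisHeckeComm (N * q)) (h6 : TorsionEichlerShimura (N * q))
    (h6' : TorsionEichlerShimura N) (h7 : TorsionGalLevel (N * q))
    (hTS : ∀ m : ℕ, ¬ q ∣ m → ∀ A : ValuationSubring Qb, A.LiesOverPrime q →
      ∀ φ : Γℚ, A.IsFrobeniusAt φ q → ∀ x : JZero (N * q), m • x = 0 →
        degAlpha N q x = 0 → degBeta N q x = 0 →
          φ • φ • φ • φ • x - (q ^ 2 + 1) • (φ • φ • x) + (q ^ 2) • x = 0)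
    (y : heckeAlgebra (N * q) 2 (↑S : Set ℕ)) (hy : levelHom hS y = 0) :
    SteinbergRelation
      (torsionHeckeDataOfExport hlam hlamS (fun p hp hpd => Finset.mem_coe.mp (hS p hp hpd))
        E h4 h6 h7) q y := by
  intro n P hP φ hφ
  exact steinberg_of_comm _ _ (q ^ 2)
    ((torsionHeckeDataOfExport hlam hlamS (fun p hp hpd => Finset.mem_coe.mp (hS p hp hpd))
      E h4 h6 h7).comm n φ y)
    (fun x => steinberg_pointwise hlam hlamS hq hqlam hS E E' h6 h6' hTS y hy n P hP φ hφ x)

end Fermat.Agent.S35x.Producer
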