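/-
P-S34 phase 2 (S35), helper38: level glue for the Frobenius-square Kummer statement (G3).

`FrobSqAt N q A m Cond`: for every `w ∈ F_N^×` whose divisor is divisible by `m` and which satisfies
the (level-monotone) condition `Cond`, and every Frobenius lift `φ` at `(A, q)`, the function
`φ²(w) / w^(q²)` is a constant times an `m`-th power.

`frobSqAt_of_level`: the statement at a good level `M = lcm N 4` or `lcm N 9` implies the statement
at level `N` (Kummer descent along `F_N ⊆ F_M`; the inclusion commutes with the coefficientwise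
Galois action and with powers).  Copy of `Kummer.kummerRedInj_of_level` / `S34x/LevelGlueSS` with
the inertia element replaced by a Frobenius lift and the target `(τ • w) / w` replaced by
`(φ • φ • w) / w ^ (q^2)`.
-/
import Fermat.Agent.Gateway.Kummer.LevelGlue

set_option autoImplicit false

noncomputable section

namespace Fermat.Agent.S35x.LevelGlueFrob

open ModularCurve AlgebraicCurve HahnSeries Fermat.Agent.Gateway.Descent Fermat.Agent.Gateway.Kummer

local notation "Qb" => AlgebraicClosure ℚ

/-- the Frobenius-square Kummer statement (G3) at level `N`, for functions satisfying `Cond` -/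
def FrobSqAt (N q : ℕ) [NeZero N] (A : ValuationSubring Qb) (m : ℕ)
    (Cond : FF Qb N → Prop) : Prop :=
  ∀ w : FF Qb N, w ≠ 0 → (∀ P : Place Qb (FF Qb N), (m : ℤ) ∣ P.ord w) → Cond w →
    ∀ φ : Qb ≃ₐ[ℚ] Qb, A.IsFrobeniusAt φ q →
      ∃ (c : Qb) (v : FF Qb N),
        (arithmeticGalois (modularFunctionFieldFull N) φ •
            arithmeticGalois (modularFunctionFieldFull N) φ • w) / w ^ (q ^ 2)
          = algebraMap Qb (FF Qb N) c * v ^ m

section General

variable {K F : Type*} [Field K] [Field F] [Algebra K F]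

/-- the divisibility condition is stable under semilinear automorphisms -/
theorem dvd_ord_smul (g : SemilinearAut K F) {m : ℕ} {w : F}
    (hdiv : ∀ P : Place K F, (m : ℤ) ∣ P.ord w) (P : Place K F) :
    (m : ℤ) ∣ P.ord (g • w) := by
  have h := SemilinearAut.ord_smul g (g⁻¹ • P) w
  rw [smul_inv_smul] at h
  rw [h]
  exact hdiv _

/-- the divisibility condition for `(g • g • w) / w ^ n` -/
theorem dvd_ord_smul_smul_div_pow (g : SemilinearAut K F) {m : ℕ} {w : F}
    (hw : w ≠ 0) (hdiv : ∀ P : Place K F, (m : ℤ) ∣ P.ord w) (n : ℕ)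
    (P : Place K F) :
    (m : ℤ) ∣ P.ord ((g • g • w) / w ^ n) := by
  have h1 : g • g • w ≠ 0 := by simpa using hw
  have h2 : (w ^ n)⁻¹ ≠ 0 := inv_ne_zero (pow_ne_zero _ hw)
  rw [div_eq_mul_inv, P.ord_mul h1 h2, P.ord_inv, ← zpow_natCast, P.ord_zpow]
  exact dvd_add (dvd_ord_smul g (dvd_ord_smul g hdiv) P)
    ((dvd_neg).mpr (Dvd.dvd.mul_left (hdiv P) _))

end General

section Level

variable {N M : ℕ} [NeZero N] [NeZero M]

/-- the inclusion `F_N ⊆ F_M` commutes with the (coefficientwise) arithmetic Galois action -/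
theorem incl_arithmeticGalois_smul (hNM : N ∣ M) (φ : Qb ≃ₐ[ℚ] Qb) (w : FF Qb N) :
    Incl.incl hNM (arithmeticGalois (modularFunctionFieldFull N) φ • w)
      = arithmeticGalois (modularFunctionFieldFull M) φ • Incl.incl hNM w := by
  apply Subtype.ext
  rw [Incl.coe_incl, coe_arithmeticGalois_smul', coe_arithmeticGalois_smul', Incl.coe_incl]

/-- (G3) descends from a good level `M` to level `N` -/
theorem frobSqAt_of_level (hM : M = Nat.lcm N 4 ∨ M = Nat.lcm N 9) (q : ℕ)
    (A : ValuationSubring Qb) {m : ℕ} (hm : 0 < m)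
    {CondN : FF Qb N → Prop} {CondM : FF Qb M → Prop}
    (hmono : ∀ w : FF Qb N, CondN w → CondM (Incl.incl (dvd_of_eq_lcm_or hM) w))
    (h : FrobSqAt M q A m CondM) : FrobSqAt N q A m CondN := by
  intro w hw hdiv hcond φ hφ
  have hNM : N ∣ M := dvd_of_eq_lcm_or hM
  set gN := arithmeticGalois (modularFunctionFieldFull N) φ with hgN
  set gM := arithmeticGalois (modularFunctionFieldFull M) φ with hgM
  -- transport to level `M`
  have hw' : Incl.incl hNM w ≠ 0 := by
    intro h0
    exact hw ((Incl.incl hNM).toRingHom.injective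
      (by rw [AlgHom.toRingHom_eq_coe, RingHom.coe_coe, h0, map_zero]))
  have hdiv' : ∀ P : Place Qb (FF Qb M), (m : ℤ) ∣ P.ord (Incl.incl hNM w) := by
    intro P
    rw [Place.ord_restrictAlong (Incl.incl hNM) (Incl.isIntegral_incl hNM).isIntegral P w]
    exact Dvd.dvd.mul_left (hdiv _) _
  obtain ⟨c, v, hcv⟩ := h (Incl.incl hNM w) hw' hdiv' (hmono w hcond) φ hφ
  -- the function at level `N`
  set u : FF Qb N := (gN • gN • w) / w ^ (q ^ 2) with hu
  have hu0 : u ≠ 0 := by
    have h1 : gN • gN • w ≠ 0 := by simpa using hw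
    exact div_ne_zero h1 (pow_ne_zero _ hw)
  have hincl : Incl.incl hNM u = (gM • gM • Incl.incl hNM w) / (Incl.incl hNM w) ^ (q ^ 2) := by
    rw [hu, map_div₀, map_pow, incl_arithmeticGalois_smul, incl_arithmeticGalois_smul]
  have hc : c ≠ 0 := by
    rintro rfl
    have : Incl.incl hNM u = 0 := by rw [hincl, hcv, map_zero, zero_mul]
    exact hu0 ((Incl.incl hNM).toRingHom.injective
      (by rw [AlgHom.toRingHom_eq_coe, RingHom.coe_coe, this, map_zero]))
  obtain ⟨c', v', -, hcv'⟩ := kummer_descent hM m hm u hu0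
    (dvd_ord_smul_smul_div_pow gN hw hdiv (q ^ 2)) ⟨c, v, hc, by rw [hincl, hcv]⟩
  exact ⟨c', v', hcv'⟩

end Level

end Fermat.Agent.S35x.LevelGlueFrob
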