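import Fermat.Agent.S35x.Degeneracy.Kummer
import Fermat.Agent.S35x.LevelGlueFrob

/-!
# P-S34 phase 2 (S35), (E9): the Steinberg relation on the `q`-new torsion of `J₀(N q)`

`TorsionSteinberg N q`: for `m` prime to `q`, a Frobenius lift `φ` at a place over `q` and an
`m`-torsion class `x ∈ J₀(N q)` killed by both degeneracy push-forwards
`degAlpha N q, degBeta N q : J₀(N q) → J₀(N)`, one has `(φ² - q²)(φ² - 1) x = 0`, i.e.
`φ⁴ x - (q² + 1) φ² x + q² x = 0`.

`torsionSteinberg_of`: the assembly (G2) + (G3) ⇒ (E9):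
* (G2) `KummerNewAt N q A m Cond`: for `x` as above, `(φ² - 1) x` has a Kummer representative `w`
  satisfying `Cond` ("constant nonzero reductions at both places");
* (G3) `LevelGlueFrob.FrobSqAt (N * q) q A m Cond`: for such `w`, `φ²(w) / w^(q²)` is a constant
  times an `m`-th power.
The proof is the formal Kummer calculus of `Gateway/Kummer/Basic.lean`
(as in `Kummer/Final.inertia_smul_eq_of_torsion`).
-/

set_option autoImplicit false
set_option linter.dupNamespace false

noncomputable section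

namespace Fermat.Agent.S35x.TorsionSteinberg

open ModularCurve AlgebraicCurve Fermat.Agent.Gateway.Kummer Fermat.Agent.S35x.Degeneracy
  Fermat.Agent.S35x.LevelGlueFrob

local notation "Qb" => AlgebraicClosure ℚ
local notation "Γℚ" => (AlgebraicClosure ℚ ≃ₐ[ℚ] AlgebraicClosure ℚ)

/-! ### The formal Kummer calculus -/

section General

variable {K F : Type*} [Field K] [Field F] [Algebra K F]

/-- If `w` is a Kummer representative of `y` and `g²(w) / w^Q` is a constant times an `m`-th
power, then `(g² - Q) y = 0`. -/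
theorem smul_smul_sub_nsmul_eq_zero (g : SemilinearAut K F) {m : ℕ} (hm : m ≠ 0) (Q : ℕ)
    {y : Pic0 K F} {w : F} (hw : IsKummerRep m y w) {c : K} {v : F}
    (hcv : (g • g • w) / w ^ Q = algebraMap K F c * v ^ m) :
    g • g • y - Q • y = 0 :=
  (((hw.smul g).smul g).div (hw.pow Q)).eq_zero_of_eq_const_mul_pow hm hcv

/-- The quartic form: if `w` is a Kummer representative of `(g² - 1) x` and `g²(w) / w^Q` is a
constant times an `m`-th power, then `g⁴ x - (Q + 1) g² x + Q x = 0`. -/
theorem quartic_of_isKummerRep (g : SemilinearAut K F) {m : ℕ} (hm : m ≠ 0) (Q : ℕ)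
    {x : Pic0 K F} {w : F} (hw : IsKummerRep m (g • g • x - x) w) {c : K} {v : F}
    (hcv : (g • g • w) / w ^ Q = algebraMap K F c * v ^ m) :
    g • g • g • g • x - (Q + 1) • (g • g • x) + Q • x = 0 := by
  have h := smul_smul_sub_nsmul_eq_zero g hm Q hw hcv
  rw [smul_sub, smul_sub, nsmul_sub] at h
  rw [add_nsmul, one_nsmul, ← h]
  abel

end General

/-! ### The modular statement -/

section Modular

variable (N q : ℕ) [NeZero N] [NeZero q]

/-- (E9) the Steinberg relation `(φ² - q²)(φ² - 1) = 0` on the part of the prime-to-`q` torsion of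
`J₀(N q)` killed by both degeneracy push-forwards to `J₀(N)`. -/
def TorsionSteinberg : Prop :=
  ∀ m : ℕ, ¬ q ∣ m → ∀ A : ValuationSubring Qb, A.LiesOverPrime q →
    ∀ φ : Γℚ, A.IsFrobeniusAt φ q → ∀ x : JZero (N * q), m • x = 0 →
      degAlpha N q x = 0 → degBeta N q x = 0 →
        φ • φ • φ • φ • x - (q ^ 2 + 1) • (φ • φ • x) + q ^ 2 • x = 0

/-- Output shape of (G2): for an `m`-torsion class `x` killed by both degeneracy push-forwards
and a Frobenius lift `φ` at `(A, q)`, the class `(φ² - 1) x` has a Kummer representative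
satisfying `Cond`. -/
def KummerNewAt (A : ValuationSubring Qb) (m : ℕ) (Cond : FF Qb (N * q) → Prop) : Prop :=
  ∀ φ : Γℚ, A.IsFrobeniusAt φ q → ∀ x : JZero (N * q), m • x = 0 →
    degAlpha N q x = 0 → degBeta N q x = 0 →
      ∃ w : FF Qb (N * q), IsKummerRep m (φ • φ • x - x) w ∧ Cond w

variable {N q}

/-- One prime-to-`q` exponent, one place: (G2) + (G3) ⇒ the Steinberg relation. -/
theorem quartic_of_kummerNewAt_of_frobSqAt {A : ValuationSubring Qb} {m : ℕ} (hm : m ≠ 0)
    {Cond : FF Qb (N * q) → Prop} (hG2 : KummerNewAt N q A m Cond)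
    (hG3 : FrobSqAt (N * q) q A m Cond) {φ : Γℚ} (hφ : A.IsFrobeniusAt φ q)
    {x : JZero (N * q)} (hx : m • x = 0) (hα : degAlpha N q x = 0) (hβ : degBeta N q x = 0) :
    φ • φ • φ • φ • x - (q ^ 2 + 1) • (φ • φ • x) + q ^ 2 • x = 0 := by
  obtain ⟨w, hw, hcond⟩ := hG2 φ hφ x hx hα hβ
  obtain ⟨c, v, hcv⟩ := hG3 w hw.ne_zero (fun P => hw.dvd_ord P) hcond φ hφ
  exact quartic_of_isKummerRep (arithmeticGalois (modularFunctionFieldFull (N * q)) φ) hm (q ^ 2)
    hw hcv

/-- **(E9) from (G2) + (G3).** -/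
theorem torsionSteinberg_of
    (Cond : ℕ → ValuationSubring Qb → FF Qb (N * q) → Prop)
    (hG2 : ∀ m : ℕ, ¬ q ∣ m → ∀ A : ValuationSubring Qb, A.LiesOverPrime q →
      KummerNewAt N q A m (Cond m A))
    (hG3 : ∀ m : ℕ, ¬ q ∣ m → ∀ A : ValuationSubring Qb, A.LiesOverPrime q →
      FrobSqAt (N * q) q A m (Cond m A)) :
    TorsionSteinberg N q := by
  intro m hqm A hA φ hφ x hx hα hβ
  have hm : m ≠ 0 := by
    rintro rfl
    exact hqm (dvd_zero q)
  exact quartic_of_kummerNewAt_of_frobSqAt hm (hG2 m hqm A hA) (hG3 m hqm A hA) hφ hx hα hβ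

end Modular

end Fermat.Agent.S35x.TorsionSteinberg
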