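import Fermat.Agent.Gateway.Export.C0Good
import Fermat.Agent.S35x.Assemble
import Fermat.Agent.S35x.Producer
import Fermat.Agent.S35x.KillChar
import Fermat.Agent.S35x.TorsionSteinberg

/-!
# S35 from the Steinberg relation on the `q`-new torsion

`s35_of_torsionSteinberg`: the frozen statement S35 (the `λ`-adic representation of a newform of
level `M` has the Steinberg Frobenius characteristic polynomials `X² ∓ (q + 1) X + q` at the
primes `q ≠ λ` exactly dividing `M`) follows from the single remaining input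
`TorsionSteinberg N q` (for all `N` and all primes `q ∤ N`).

All other inputs are theorems: S30 and the export contract (E2)–(E7) (`Gateway/Export`), S22,
Frobenius density, strong multiplicity one for newforms (`S34x/Phase2/StrongMult`), the level
lowering homomorphism of Hecke rings (`LevelHom`), the occurrence of characters of the Hecke ring
(`CharEigenvector`), the compatibility of the degeneracy push-forwards with the Hecke actions
(`Degeneracy/HeckeES`), and the consumer (`Consumer`, `Assemble`).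
-/

set_option autoImplicit false

namespace Fermat.Agent.S35x.Final

open Polynomial
open Fermat.Agent.Gateway Fermat.Agent.Gateway.S31Red Fermat.Agent.Gateway.Assembly

/-- The frozen statement S35 from the Steinberg relation on the `q`-new torsion. -/
theorem s35_of_torsionSteinberg
    (hTS : ∀ (N q : ℕ) [NeZero N] [NeZero q], q.Prime → ¬ q ∣ N →
      Fermat.Agent.S35x.TorsionSteinberg.TorsionSteinberg N q)
    {M : ℕ} [NeZero M] {g : CuspForm (CongruenceSubgroup.Gamma0 M) 2} (hg : g.IsNewform)
    (lam : ℕ) [Fact lam.Prime]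
    (S : Finset ℕ)
    (O' : Type) [CommRing O'] [IsDomain O'] [IsDiscreteValuationRing O']
    [IsAdicComplete (IsLocalRing.maximalIdeal O') O'] [Finite (IsLocalRing.ResidueField O')]
    [CharZero O'] (hlamO' : (lam : O') ∈ IsLocalRing.maximalIdeal O')
    (chig : CuspForm.heckeAlgebra M 2 (↑S : Set ℕ) →+* ℂ)
    (hchig : ∀ (ℓ : ℕ) (hℓ : ℓ.Prime) (hℓM : ¬ ℓ ∣ M) (hℓS : ℓ ∉ (↑S : Set ℕ)),
      chig (CuspForm.heckeAlgebra.T hℓ hℓM hℓS) = ModularFormClass.qCoeff g ℓ)
    (iota : chig.range →+* O')
    (hlamS : lam ∈ S) (hMS : ∀ q : ℕ, q.Prime → q ∣ M → q ∈ S) :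
    ∃ (O'' : Type) (_ : CommRing O'') (_ : IsDomain O'') (_ : IsDiscreteValuationRing O'')
      (_ : IsAdicComplete (IsLocalRing.maximalIdeal O'') O'')
      (_ : Finite (IsLocalRing.ResidueField O''))
      (_ : CharZero O'') (_ : Algebra O' O'') (_ : Module.Finite O' O'')
      (_ : IsLocalHom (algebraMap O' O'')),
      Function.Injective (algebraMap O' O'') ∧
      ∃ ρ : GaloisRepAdic O'',
        (∀ (ℓ : ℕ) (hℓ : ℓ.Prime) (hℓM : ¬ ℓ ∣ M) (hℓS : ℓ ∉ (↑S : Set ℕ)),
          ∀ A : ValuationSubring (AlgebraicClosure ℚ), A.LiesOverPrime ℓ →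
            ∀ σ : AlgebraicClosure ℚ ≃ₐ[ℚ] AlgebraicClosure ℚ, A.IsFrobeniusAt σ ℓ →
              LinearMap.charpoly (ρ.ρ σ) =
                X ^ 2 - C (algebraMap O' O'' ((iota.comp chig.rangeRestrict)
                  (CuspForm.heckeAlgebra.T hℓ hℓM hℓS))) * X
                  + C ((ℓ : O''))) ∧
        (∀ q : ℕ, q.Prime → q ≠ lam → q ∣ M → ¬ q ^ 2 ∣ M →
          ∀ A : ValuationSubring (AlgebraicClosure ℚ), A.LiesOverPrime q →
            ∀ σ : AlgebraicClosure ℚ ≃ₐ[ℚ] AlgebraicClosure ℚ, A.IsFrobeniusAt σ q →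
              LinearMap.charpoly (ρ.ρ σ) = X ^ 2 - C ((q : O'') + 1) * X + C ((q : O'')) ∨
              LinearMap.charpoly (ρ.ρ σ) = X ^ 2 + C ((q : O'') + 1) * X + C ((q : O''))) := by
  have hlam : lam.Prime := Fact.out
  have h30 : S30Statement := Export.s30Statement_final
  have h22 : S22Statement := s22Statement
  have hF : FrobPowerDense :=
    frobPowerDense_of_lib Fermat.Agent.Lib.FrobDensity.frobPowerDense
  refine s35_of_data h30 h22 hF lam S O' hlamO' chig iota hlamS hMS
    ⟨torsionHeckeDataOfExport hlam hlamS hMS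
      (Export.heckeTorsionAction M (Export.coreInputs' M) S hMS) (galoisHeckeComm M)
      (Export.torsionEichlerShimura (Export.partCInputs Export.c0Good M))
      (Export.torsionGalLevel M), ?_⟩
  intro q hq hqlam hqM hq2
  obtain ⟨N, rfl⟩ := exists_eq_mul_left_of_dvd hqM
  have : NeZero q := ⟨hq.ne_zero⟩
  have : NeZero N := ⟨left_ne_zero_of_mul (NeZero.ne (N * q))⟩
  have hqN : ¬ q ∣ N := fun h => hq2 (by
    rw [pow_two]
    exact mul_dvd_mul h (dvd_refl q))
  have hS : ∀ p : ℕ, p.Prime → p ∣ N * q → p ∈ (↑S : Set ℕ) := fun p hp h =>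
    Finset.mem_coe.mpr (hMS p hp h)
  have hNS : ∀ p : ℕ, p.Prime → p ∣ N → p ∈ S := fun p hp h =>
    hMS p hp (Dvd.dvd.mul_right h q)
  obtain ⟨y, hy0, hy⟩ := Fermat.Agent.S35x.KillChar.exists_levelHom_eq_zero_of_isNewform h22 h30
    hq.ne_one S hS hg chig hchig
  refine ⟨y, hy, ?_⟩
  exact Fermat.Agent.S35x.Producer.steinbergRelation_of_levelHom_eq_zero hlam hlamS hq hqlam hS
    (Export.heckeTorsionAction (N * q) (Export.coreInputs' (N * q)) S hMS)
    (Export.heckeTorsionAction N (Export.coreInputs' N) S hNS)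
    (galoisHeckeComm (N * q))
    (Export.torsionEichlerShimura (Export.partCInputs Export.c0Good (N * q)))
    (Export.torsionEichlerShimura (Export.partCInputs Export.c0Good N))
    (Export.torsionGalLevel (N * q))
    (hTS N q hq hqN) y hy0

end Fermat.Agent.S35x.Final
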