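/-
helper44 (P-S35 phase 2, (F2)): the normalisation step (N) of `FrobSteps.frobSqAt_of_steps` for the
concrete condition `LevelGlueSS.CondSS` at `k := ResidueField A`, `π := residue A`:

* `constRed_of_condSS` : `CondSS M q hdeg hq hqM A z → StepsAbs.ConstRed R_∞ R_0 z`
  (the Gauss-ring form of "both reductions are nonzero constants" is literally the `RedSetup` form);
* `hN_condSS`          : `z ≠ 0 → CondSS z → ∃ f ≠ 0, OneRed (z * f ^ m)`  (= `FinalStepsN.hN`).
-/
import Fermat.Agent.S34x.Inst.FinalStepsN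
import Fermat.Agent.S34x.LevelGlueSS

set_option autoImplicit false
set_option linter.style.haveILetI false
set_option linter.unusedSectionVars false

noncomputable section

namespace Fermat.Agent.S35x.FrobNormStep

open ModularCurve AlgebraicCurve IntermediateField IsLocalRing
open Fermat.Agent.Gateway.Hecke Fermat.Agent.Gateway.ESC
open Fermat.Agent.Gateway.Red Fermat.Agent.Gateway.GoodRed
open Fermat.Agent.S34x Fermat.Agent.S34x.Inst
open Fermat.Agent.S34x.TwoVal Fermat.Agent.S34x.C0two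
open Fermat.Agent.S34x.Inst.RedSetupInst

attribute [-instance] IsScalarTower.of_algHom

variable {L : Type} [Field L] [Algebra ℚ L] [IsAlgClosed L] {A : ValuationSubring L}
  [IsAlgClosed (ResidueField A)]
variable {M q : ℕ} [NeZero M] [NeZero q] [Fact q.Prime] [CharP (ResidueField A) q]
variable {hdeg : finrankAlong L (heckeAlphaBar L M q) = q + 1} {hq : q.Prime} {hqM : ¬ q ∣ M}
variable {hrk : ∀ x ∈ maximalIdeal A, ∀ c : A, c ≠ 0 → ∃ j : ℕ, c ∣ x ^ j}
  {hπ : Function.Surjective (residue A)}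
variable (H : ResidueFacts A (residue A) M q hdeg hq hqM hrk hπ) (hA : A.LiesOverPrime q)

/-- the Gauss-ring form `CondSS` of "both reductions of `z` are nonzero constants" is the
`RedSetup` form `ConstRed` for the two concrete `RedSetup`s at level `M q`. -/
theorem constRed_of_condSS {z : FL L (M * q)}
    (hz : LevelGlueSS.CondSS M q hdeg hq hqM A z) :
    StepsAbs.ConstRed (redSetupInfty H hA) (redSetupZero H hA) z := by
  obtain ⟨⟨c₁, hc₁, hz₁, hr₁⟩, ⟨c₂, hc₂, hz₂, hr₂⟩⟩ := hz
  refine ⟨⟨c₁, hc₁, hz₁, ?_⟩, ⟨c₂, hc₂, hz₂, ?_⟩⟩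
  · apply Subtype.ext
    rw [coe_algebraMap_Fk]
    exact hr₁
  · apply Subtype.ext
    rw [coe_algebraMap_Fk]
    exact hr₂

/-- **step (N) for `CondSS`**: the hypothesis `hN` of `FrobSteps.frobSqAt_of_steps` with
`Cond := CondSS M q hdeg hq hqM A` and `Red1 := OneRed R_∞ R_0 rfl`. -/
theorem hN_condSS {m : ℕ} (hm : 0 < m) :
    ∀ z : FL L (M * q), z ≠ 0 → LevelGlueSS.CondSS M q hdeg hq hqM A z →
      ∃ f : FL L (M * q), f ≠ 0 ∧
        StepsAbs.OneRed (redSetupInfty H hA) (redSetupZero H hA) rfl (z * f ^ m) :=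
  fun z hz0 hz => FinalStepsN.hN H hA hm z hz0 (constRed_of_condSS H hA hz)

end Fermat.Agent.S35x.FrobNormStep
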