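/-
P-S34 phase 2 (S35), helper73: the Frobenius twin of `S34x/Target.kummerSemistable_of_steps`.

`frobSqAt_of_steps`: the Frobenius-square Kummer statement `LevelGlueFrob.FrobSqAt N q A m Cond`
from
* (N) the normalisation step: every `z ≠ 0` with `Cond z` becomes `Red1` after multiplication by an
  `m`-th power;
* (B') Theorem B' for `Red1`-normalised functions: `φ²(z) / z^(q²) = c v^m`.

Pure algebra: `φ²(w f^m) / (w f^m)^(q²) = (φ²(w) / w^(q²)) (φ²(f) / f^(q²))^m`.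
-/
import Fermat.Agent.S35x.LevelGlueFrob

set_option autoImplicit false

noncomputable section

namespace Fermat.Agent.S35x.FrobSteps

open ModularCurve AlgebraicCurve Fermat.Agent.Gateway.Kummer Fermat.Agent.S35x.LevelGlueFrob

local notation "Qb" => AlgebraicClosure ℚ

/-- the field identity behind the step -/
theorem frob_steps_aux {K : Type*} [Field K] (W w F f c v : K) (m Q : ℕ) (hw : w ≠ 0) (hf : f ≠ 0)
    (hF : F ≠ 0) (h : W * F ^ m / (w * f ^ m) ^ Q = c * v ^ m) :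
    W / w ^ Q = c * (v * (f ^ Q / F)) ^ m := by
  have hfQ : f ^ Q ≠ 0 := pow_ne_zero _ hf
  have hwQ : w ^ Q ≠ 0 := pow_ne_zero _ hw
  have e : W / w ^ Q = (W * F ^ m / (w * f ^ m) ^ Q) * (f ^ Q / F) ^ m := by
    rw [mul_pow, ← pow_mul, div_pow, ← pow_mul, mul_comm m Q]
    have hfQm : f ^ (Q * m) ≠ 0 := pow_ne_zero _ hf
    have hFm : F ^ m ≠ 0 := pow_ne_zero _ hF
    field_simp
  rw [e, h, mul_pow, mul_assoc]

variable {N : ℕ} [NeZero N] {q : ℕ} {A : ValuationSubring Qb} {m : ℕ}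

/-- **Frobenius twin of `Target.kummerSemistable_of_steps`.** -/
theorem frobSqAt_of_steps (Cond Red1 : FF Qb N → Prop)
    (hN : ∀ z : FF Qb N, z ≠ 0 → Cond z → ∃ f : FF Qb N, f ≠ 0 ∧ Red1 (z * f ^ m))
    (hB : ∀ φ : Qb ≃ₐ[ℚ] Qb, A.IsFrobeniusAt φ q → ∀ z : FF Qb N, z ≠ 0 →
      (∀ P : Place Qb (FF Qb N), (m : ℤ) ∣ P.ord z) → Red1 z →
      ∃ (c : Qb) (v : FF Qb N),
        (arithmeticGalois (modularFunctionFieldFull N) φ •
            arithmeticGalois (modularFunctionFieldFull N) φ • z) / z ^ (q ^ 2)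
          = algebraMap Qb (FF Qb N) c * v ^ m) :
    FrobSqAt N q A m Cond := by
  intro w hw hdiv hcond φ hφ
  set g := arithmeticGalois (modularFunctionFieldFull N) φ with hg
  obtain ⟨f, hf, hred⟩ := hN w hw hcond
  have hz0 : w * f ^ m ≠ 0 := mul_ne_zero hw (pow_ne_zero _ hf)
  have hdiv' : ∀ P : Place Qb (FF Qb N), (m : ℤ) ∣ P.ord (w * f ^ m) := by
    intro P
    rw [P.ord_mul hw (pow_ne_zero _ hf), ← zpow_natCast, P.ord_zpow]
    exact dvd_add (hdiv P) (Dvd.intro _ rfl)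
  obtain ⟨c, v, hcv⟩ := hB φ hφ _ hz0 hdiv' hred
  have hggf : g • g • f ≠ 0 := by simpa using hf
  have hsm : g • g • (w * f ^ m) = (g • g • w) * (g • g • f) ^ m := by
    simp only [SemilinearAut.smul_def]
    rw [map_mul (SemilinearAut.toRingAut g), map_pow (SemilinearAut.toRingAut g),
      map_mul (SemilinearAut.toRingAut g), map_pow (SemilinearAut.toRingAut g)]
  rw [hsm] at hcv
  exact ⟨c, v * (f ^ (q ^ 2) / (g • g • f)), frob_steps_aux _ _ _ _ _ _ m (q ^ 2) hw hf hggf hcv⟩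

end Fermat.Agent.S35x.FrobSteps
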