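/-
helper13 (P-S34 phase 2 = S35, (G3) instance glue, abstract half): SEMILINEAR ENDOMORPHISMS AND CHART
COORDINATES.

Setting: `R : RedSetup2 A S k (κ₁ × κ₂)`, `σ : F →+* F` a ring endomorphism of the function field which
is semilinear over `K`, preserves `S.O` and acts on the residue ring componentwise through bijective
`θ`-semilinear ring endomorphisms `φ₁`, `φ₂` (`θ : k ≃+* k`): the data `SemiData R σ`.
(Phase 2: `σ` = the square of a Frobenius lift, `θ = Frob²`, `φᵢ` = coefficientwise `Frob²`;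
phase 1: `σ` = an inertia element, `θ = id`, `φᵢ = id`.)

For ANY chart coordinate `C : ChartCoord R` fixed by `σ` (so the results apply verbatim to `C` and to
`C.swap`) we construct `D.φ : κ₁ × κ₂ →+* κ₁ × κ₂` and `D.φV C : C.B₁ × C.B₂ →+* C.B₁ × C.B₂` and prove
EXACTLY the hypotheses `hφsmul hφVsurj hφVsmul hjφ hφBbar` (and `hσres`, `hσLN` in `twoPole` form) of
`SigmaNbar.exists_lifts_sigma` / `exists_const_mul_pow_of_twistFam`.
-/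
import Fermat.Agent.S34x.Lattice2.L2
import Fermat.Agent.S34x.Lattice2.Swap

set_option autoImplicit false
set_option linter.unusedSectionVars false

noncomputable section

namespace Fermat.Agent.S35x.SemilinearChart

open Fermat.Agent.S34x.C0two Fermat.Agent.S34x.Lattice2

/-! ### Semilinear ring homomorphisms and integrality over `k[T]` -/

section Integral

variable {k k' κ κ' : Type*} [CommRing k] [CommRing k'] [CommRing κ] [CommRing κ'] [Algebra k κ]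
  [Algebra k' κ'] (θ : k →+* k') (ρ : κ →+* κ')
  (hρ : ∀ c : k, ρ (algebraMap k κ c) = algebraMap k' κ' (θ c))
include hρ

/-- a semilinear ring homomorphism with `ρ T = T'` maps `k[T]` into `k'[T']` -/
theorem map_mem_adjoin {T : κ} {T' : κ'} (hT : ρ T = T') {x : κ}
    (hx : x ∈ Algebra.adjoin k {T}) : ρ x ∈ Algebra.adjoin k' {T'} := by
  induction hx using Algebra.adjoin_induction with
  | mem x hx =>
    rw [Set.mem_singleton_iff] at hx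
    rw [hx, hT]
    exact Algebra.self_mem_adjoin_singleton k' T'
  | algebraMap c =>
    rw [hρ]
    exact Subalgebra.algebraMap_mem _ _
  | add x y _ _ hx hy =>
    rw [map_add]
    exact Subalgebra.add_mem _ hx hy
  | mul x y _ _ hx hy =>
    rw [map_mul]
    exact Subalgebra.mul_mem _ hx hy

/-- a semilinear ring homomorphism with `ρ T = T'` maps elements integral over `k[T]` to elements
integral over `k'[T']` -/
theorem isIntegral_map {T : κ} {T' : κ'} (hT : ρ T = T') {x : κ}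
    (hx : IsIntegral (Algebra.adjoin k {T}) x) : IsIntegral (Algebra.adjoin k' {T'}) (ρ x) := by
  let φ : Algebra.adjoin k {T} →+* Algebra.adjoin k' {T'} :=
    ρ.restrict (Algebra.adjoin k {T}) (Algebra.adjoin k' {T'})
      (fun y hy => map_mem_adjoin θ ρ hρ hT hy)
  exact IsIntegral.map_of_comp_eq φ ρ (RingHom.ext fun y => rfl) hx

end Integral

/-! ### The semilinear data -/

section Data

variable {K : Type*} [Field K] {A : ValuationSubring K} {F : Type*} [Field F] [Algebra K F]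
  {S : SmallRing F} {k κ₁ κ₂ : Type*} [Field k] [CommRing κ₁] [CommRing κ₂] [Algebra k κ₁]
  [Algebra k κ₂]

/-- A ring endomorphism `σ` of `F`, semilinear over `K`, preserving `S.O` and acting on the residue
ring `κ₁ × κ₂` componentwise through bijective `θ`-semilinear ring endomorphisms. -/
structure SemiData (R : RedSetup2 A S k (κ₁ × κ₂)) (σ : F →+* F) where
  /-- the action on the constants of characteristic zero -/
  θK : K →+* K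
  σ_algebraMap : ∀ c : K, σ (algebraMap K F c) = algebraMap K F (θK c)
  /-- the action on the residual constants -/
  θ : k ≃+* k
  /-- the action on the first residue ring -/
  φ₁ : κ₁ →+* κ₁
  /-- the action on the second residue ring -/
  φ₂ : κ₂ →+* κ₂
  φ₁_algebraMap : ∀ c : k, φ₁ (algebraMap k κ₁ c) = algebraMap k κ₁ (θ c)
  φ₂_algebraMap : ∀ c : k, φ₂ (algebraMap k κ₂ c) = algebraMap k κ₂ (θ c)
  φ₁_bij : Function.Bijective φ₁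
  φ₂_bij : Function.Bijective φ₂
  σ_mem : ∀ x ∈ S.O, σ x ∈ S.O
  res_σ : ∀ (f : F) (hf : f ∈ S.O),
    R.res ⟨σ f, σ_mem f hf⟩ = (φ₁ (R.res ⟨f, hf⟩).1, φ₂ (R.res ⟨f, hf⟩).2)

namespace SemiData

variable {R : RedSetup2 A S k (κ₁ × κ₂)} {σ : F →+* F} (D : SemiData R σ)

/-- the action on the residue ring `κ₁ × κ₂` -/
def φ : (κ₁ × κ₂) →+* (κ₁ × κ₂) := RingHom.prodMap D.φ₁ D.φ₂

theorem φ_apply (y : κ₁ × κ₂) : D.φ y = (D.φ₁ y.1, D.φ₂ y.2) := rfl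

/-- `hσres` of `SigmaNbar.exists_lifts_sigma` -/
theorem res_σ' (f : F) (hf : f ∈ S.O) :
    R.res ⟨σ f, D.σ_mem f hf⟩ = D.φ (R.res ⟨f, hf⟩) := D.res_σ f hf

theorem φ₁_smul (c : k) (y : κ₁) : D.φ₁ (c • y) = D.θ c • D.φ₁ y := by
  rw [Algebra.smul_def, Algebra.smul_def, map_mul, D.φ₁_algebraMap]

theorem φ₂_smul (c : k) (y : κ₂) : D.φ₂ (c • y) = D.θ c • D.φ₂ y := by
  rw [Algebra.smul_def, Algebra.smul_def, map_mul, D.φ₂_algebraMap]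

/-- `hφsmul` of `SigmaNbar.exists_lifts_sigma` -/
theorem φ_smul (c : k) (y : κ₁ × κ₂) : D.φ (c • y) = D.θ c • D.φ y := by
  rw [φ_apply, φ_apply, Prod.smul_fst, Prod.smul_snd, D.φ₁_smul, D.φ₂_smul]
  rfl

theorem σ_smul (c : K) (x : F) : σ (c • x) = D.θK c • σ x := by
  rw [Algebra.smul_def, Algebra.smul_def, map_mul, D.σ_algebraMap]

/-- the inverse of `φ₁` -/
def ψ₁ : κ₁ →+* κ₁ := ((RingEquiv.ofBijective D.φ₁ D.φ₁_bij).symm : κ₁ ≃+* κ₁)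

/-- the inverse of `φ₂` -/
def ψ₂ : κ₂ →+* κ₂ := ((RingEquiv.ofBijective D.φ₂ D.φ₂_bij).symm : κ₂ ≃+* κ₂)

theorem φ₁_ψ₁ (y : κ₁) : D.φ₁ (D.ψ₁ y) = y :=
  (RingEquiv.ofBijective D.φ₁ D.φ₁_bij).apply_symm_apply y

theorem ψ₁_φ₁ (y : κ₁) : D.ψ₁ (D.φ₁ y) = y :=
  (RingEquiv.ofBijective D.φ₁ D.φ₁_bij).symm_apply_apply y

theorem φ₂_ψ₂ (y : κ₂) : D.φ₂ (D.ψ₂ y) = y :=
  (RingEquiv.ofBijective D.φ₂ D.φ₂_bij).apply_symm_apply y

theorem ψ₂_φ₂ (y : κ₂) : D.ψ₂ (D.φ₂ y) = y :=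
  (RingEquiv.ofBijective D.φ₂ D.φ₂_bij).symm_apply_apply y

theorem ψ₁_algebraMap (c : k) : D.ψ₁ (algebraMap k κ₁ c) = algebraMap k κ₁ (D.θ.symm c) := by
  apply D.φ₁_bij.1
  rw [D.φ₁_ψ₁, D.φ₁_algebraMap, RingEquiv.apply_symm_apply]

theorem ψ₂_algebraMap (c : k) : D.ψ₂ (algebraMap k κ₂ c) = algebraMap k κ₂ (D.θ.symm c) := by
  apply D.φ₂_bij.1
  rw [D.φ₂_ψ₂, D.φ₂_algebraMap, RingEquiv.apply_symm_apply]

/-! ### The Kummer quotient `σ w / w ^ Q` -/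

include D in
/-- `huO` of `TheoremB.exists_const_mul_pow_of_sigma` -/
theorem div_pow_mem {w : F} (hwO : w ∈ S.O) (hwiO : w⁻¹ ∈ S.O) (Q : ℕ) :
    σ w / w ^ Q ∈ S.O := by
  rw [div_eq_mul_inv, ← inv_pow]
  exact S.O.mul_mem (D.σ_mem w hwO) (S.O.pow_mem hwiO Q)

/-- `hu1` of `TheoremB.exists_const_mul_pow_of_sigma` -/
theorem res_div_pow {w : F} (hwO : w ∈ S.O) (hwiO : w⁻¹ ∈ S.O) (hw1 : R.res ⟨w, hwO⟩ = 1)
    (Q : ℕ) : R.res ⟨σ w / w ^ Q, D.div_pow_mem hwO hwiO Q⟩ = 1 := by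
  rcases eq_or_ne w 0 with rfl | hw0
  · have h0 : R.res ⟨(0 : F), hwO⟩ = 0 := map_zero R.res
    rw [h0] at hw1
    exact eq_of_zero_eq_one hw1 _ _
  have hwi1 : R.res ⟨w⁻¹, hwiO⟩ = 1 := by
    have h1 : (⟨w, hwO⟩ : S.O) * ⟨w⁻¹, hwiO⟩ = 1 := Subtype.ext (mul_inv_cancel₀ hw0)
    have h2 := congrArg R.res h1
    rw [map_mul, map_one, hw1, one_mul] at h2
    exact h2
  have h3 : (⟨σ w / w ^ Q, D.div_pow_mem hwO hwiO Q⟩ : S.O) =
      ⟨σ w, D.σ_mem w hwO⟩ * ⟨w⁻¹, hwiO⟩ ^ Q :=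
    Subtype.ext (by
      show σ w / w ^ Q = σ w * (w⁻¹) ^ Q
      rw [div_eq_mul_inv, inv_pow])
  rw [h3, map_mul, map_pow, hwi1, one_pow, mul_one, D.res_σ' w hwO, hw1, map_one]

/-! ### A chart coordinate fixed by `σ` -/

variable (C : ChartCoord R) (hσt : σ C.t = C.t)
include hσt

theorem σ_tinv : σ C.t⁻¹ = C.t⁻¹ := by rw [map_inv₀, hσt]

/-- `φ` fixes the reduction of the chart coordinate -/
theorem φ_T : D.φ C.T = C.T := by
  rw [ChartCoord.T, ← D.res_σ']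
  exact res_congr R hσt _ _

/-- `φ` fixes the reduction of the inverse of the chart coordinate -/
theorem φ_Ti : D.φ C.Ti = C.Ti := by
  rw [ChartCoord.Ti, ← D.res_σ']
  exact res_congr R (σ_tinv C hσt) _ _

theorem φ₁_T : D.φ₁ C.T.1 = C.T.1 := congrArg Prod.fst (D.φ_T C hσt)

theorem φ₂_T : D.φ₂ C.T.2 = C.T.2 := congrArg Prod.snd (D.φ_T C hσt)

theorem ψ₁_T : D.ψ₁ C.T.1 = C.T.1 := by
  apply D.φ₁_bij.1
  rw [D.φ₁_ψ₁, D.φ₁_T C hσt]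

theorem ψ₂_T : D.ψ₂ C.T.2 = C.T.2 := by
  apply D.φ₂_bij.1
  rw [D.φ₂_ψ₂, D.φ₂_T C hσt]

include D in
/-- `hσLN` in the place-free form: `σ` preserves `L(a C₀ + b C∞)` -/
theorem σ_mem_LN {a b : ℕ} {x : F} (hx : x ∈ C.LN a b) : σ x ∈ C.LN a b := by
  obtain ⟨h1, h2⟩ := hx
  refine ⟨?_, ?_⟩
  · have := isIntegral_map D.θK σ D.σ_algebraMap hσt h1
    rwa [map_mul, map_pow, hσt] at this
  · have := isIntegral_map D.θK σ D.σ_algebraMap (σ_tinv C hσt) h2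
    rwa [map_mul, map_pow, σ_tinv C hσt] at this

/-- `hφBbar` of `SigmaNbar.exists_lifts_sigma`: `φ` preserves the reduced chart ring -/
theorem φ_mem_Bbar {y : κ₁ × κ₂} (hy : y ∈ C.Bbar) : D.φ y ∈ C.Bbar := by
  obtain ⟨b, x, hx, hxL, rfl⟩ := hy
  exact ⟨b, σ x, D.σ_mem x hx, D.σ_mem_LN C hσt hxL, D.res_σ' x hx⟩

theorem φ₁_mem_B₁ {f : κ₁} (hf : f ∈ C.B₁) : D.φ₁ f ∈ C.B₁ :=
  isIntegral_map (D.θ : k →+* k) D.φ₁ D.φ₁_algebraMap (D.φ₁_T C hσt) hf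

theorem φ₂_mem_B₂ {g : κ₂} (hg : g ∈ C.B₂) : D.φ₂ g ∈ C.B₂ :=
  isIntegral_map (D.θ : k →+* k) D.φ₂ D.φ₂_algebraMap (D.φ₂_T C hσt) hg

theorem ψ₁_mem_B₁ {f : κ₁} (hf : f ∈ C.B₁) : D.ψ₁ f ∈ C.B₁ :=
  isIntegral_map (D.θ.symm : k →+* k) D.ψ₁ D.ψ₁_algebraMap (D.ψ₁_T C hσt) hf

theorem ψ₂_mem_B₂ {g : κ₂} (hg : g ∈ C.B₂) : D.ψ₂ g ∈ C.B₂ :=
  isIntegral_map (D.θ.symm : k →+* k) D.ψ₂ D.ψ₂_algebraMap (D.ψ₂_T C hσt) hg

/-- the action on `B̃ = B₁ × B₂` -/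
def φV : (C.B₁ × C.B₂) →+* (C.B₁ × C.B₂) :=
  RingHom.prodMap (D.φ₁.restrict C.B₁ C.B₁ fun _ hf => D.φ₁_mem_B₁ C hσt hf)
    (D.φ₂.restrict C.B₂ C.B₂ fun _ hg => D.φ₂_mem_B₂ C hσt hg)

theorem coe_φV_fst (v : C.B₁ × C.B₂) : ((D.φV C hσt v).1 : κ₁) = D.φ₁ (v.1 : κ₁) := rfl

theorem coe_φV_snd (v : C.B₁ × C.B₂) : ((D.φV C hσt v).2 : κ₂) = D.φ₂ (v.2 : κ₂) := rfl

/-- `hjφ` of `SigmaNbar.exists_lifts_sigma` -/
theorem incl_φV (v : C.B₁ × C.B₂) : C.incl (D.φV C hσt v) = D.φ (C.incl v) := rfl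

/-- `hφVsurj` of `SigmaNbar.exists_lifts_sigma` -/
theorem φV_surjective : Function.Surjective (D.φV C hσt) := by
  rintro ⟨⟨f, hf⟩, ⟨g, hg⟩⟩
  refine ⟨(⟨D.ψ₁ f, D.ψ₁_mem_B₁ C hσt hf⟩, ⟨D.ψ₂ g, D.ψ₂_mem_B₂ C hσt hg⟩), ?_⟩
  refine Prod.ext (Subtype.ext ?_) (Subtype.ext ?_)
  · rw [coe_φV_fst]
    exact D.φ₁_ψ₁ f
  · rw [coe_φV_snd]
    exact D.φ₂_ψ₂ g

/-- `hφVsmul` of `SigmaNbar.exists_lifts_sigma` -/
theorem φV_smul (c : k) (v : C.B₁ × C.B₂) : D.φV C hσt (c • v) = D.θ c • D.φV C hσt v := by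
  apply C.incl_injective
  rw [incl_φV, map_smul, D.φ_smul, ← incl_φV D C hσt, map_smul]

/-- the (CONG) hypothesis of `SigmaNbar.exists_lifts_sigma` from its componentwise form in
`κ₁ × κ₂` -/
theorem cong_of_components {Q : ℕ}
    (h : ∀ z : C.B₁ × C.B₂,
      ((D.φ₁ (z.1 : κ₁) - (z.1 : κ₁) ^ Q, (0 : κ₂)) : κ₁ × κ₂) ∈ C.Bbar ∧
      (((0 : κ₁), D.φ₂ (z.2 : κ₂) - (z.2 : κ₂) ^ Q) : κ₁ × κ₂) ∈ C.Bbar)
    (z : C.B₁ × C.B₂) :
    ((D.φV C hσt z - z ^ Q).1, (0 : C.B₂)) ∈ C.BbarT ∧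
      ((0 : C.B₁), (D.φV C hσt z - z ^ Q).2) ∈ C.BbarT := by
  refine ⟨?_, ?_⟩
  · rw [ChartCoord.mem_BbarT_iff]
    exact (h z).1
  · rw [ChartCoord.mem_BbarT_iff]
    exact (h z).2

end SemiData

end Data

end Fermat.Agent.S35x.SemilinearChart
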