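/-
helper13 (P-S34 phase 2 = S35, (G3) instance glue, concrete half): THE FROBENIUS TWIN of
`S34x/Inst/GaloisInst` / `S34x/Inst/SigmaGlue`.

Level `M ℓ` (`ℓ ∤ M` prime), helper44's two Gauss rings `Ov_∞`, `Ov0` and reductions `redV`, `red0`,
an abstract `R : RedSetup2 A S k (Fk k M × Fk k M)` with helper44's `Bridge`
(`S.O = Ov_∞ ∩ Ov0`, `R.res = (redV, red0)`).

For `σ₀ : L ≃ₐ[ℚ] L` compatible with `A` and inducing `τb : k ≃+* k` on the residue field
(`ResCompat A π σ₀ τb`, helper60's `TwoVal/GaloisRed`), the ring automorphism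
`sigmaHom (M ℓ) σ₀ : x ↦ arithmeticGalois σ₀ • x` of `F_{Mℓ}` carries a
`SemilinearChart.SemiData R _` with `θ = τb`, `φ₁ = φ₂ =` the coefficientwise action of `τb` on `Fk k M`.
Specialisations: `σ₀ = φ * φ` for a Frobenius lift `φ` (`A.IsFrobeniusAt φ ℓ`), `τb = Frob²`
(`semiDataFrobSq`); inertia elements, `τb = id` (`semiDataInertia`).
Also: `σ` preserves `(TwoCharts.ofDivisor Dt).LN a b` for a chart function fixed by `σ₀`
(`hσLN` of `TheoremBSigma`), and the divisibility `hdiv`.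
-/
import Fermat.Agent.S35x.SemilinearChart
import Fermat.Agent.S34x.Inst.IsL2Inst
import Fermat.Agent.S34x.Inst.SigmaGlue
import Fermat.Agent.S34x.TwoVal.GaloisRed
import Fermat.Agent.Gateway.ES.CoeffAut
import Fermat.Prelude.Def_EllipticCurve_FrobeniusTrace

set_option autoImplicit false
set_option linter.style.haveILetI false
set_option linter.unusedSectionVars false

noncomputable section

namespace Fermat.Agent.S35x.FrobSqInst

open Polynomial ModularCurve AlgebraicCurve IntermediateField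
open Fermat.Agent.Gateway.Hecke Fermat.Agent.Gateway.ESC Fermat.Agent.Gateway.ES
open Fermat.Agent.Gateway.Red Fermat.Agent.Gateway.GoodRed
open Fermat.Agent.Gateway.GoodRed.ConjFamily Fermat.Agent.Gateway.C0
open Fermat.Agent.S34x.TwoVal Fermat.Agent.S34x.C0two Fermat.Agent.S34x.Lattice2
open Fermat.Agent.S34x.Inst.IsL2Inst Fermat.Agent.S35x.SemilinearChart

/-! ### `ResCompat`: composition, Frobenius lifts -/

section ResCompat

variable {L : Type*} [Field L] {A : ValuationSubring L} {k : Type*} [Field k] {π : A →+* k}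

/-- composition of compatible endomorphisms -/
theorem resCompat_comp {τ₁ τ₂ : L →+* L} {τb₁ τb₂ : k →+* k} (h₁ : ResCompat A π τ₁ τb₁)
    (h₂ : ResCompat A π τ₂ τb₂) : ResCompat A π (τ₁.comp τ₂) (τb₁.comp τb₂) := by
  intro a
  obtain ⟨h2, e2⟩ := h₂ a
  obtain ⟨h1, e1⟩ := h₁ ⟨τ₂ (a : L), h2⟩
  exact ⟨h1, e1.trans (congrArg τb₁ e2)⟩

end ResCompat

section Frobenius

variable {L : Type*} [Field L] [Algebra ℚ L] (A : ValuationSubring L) {k : Type*} [Field k]
  (π : A →+* k)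

/-- a Frobenius lift at `(A, q)` induces the `q`-power Frobenius on the residue field (for any
surjective `π : A → k` onto a field of characteristic exponent `q`) -/
theorem resCompat_of_isFrobeniusAt (hπ : Function.Surjective π) {q : ℕ} [ExpChar k q]
    {φ : L ≃ₐ[ℚ] L} (hφ : A.IsFrobeniusAt φ q) :
    ResCompat A π ((φ : L ≃ₐ[ℚ] L) : L →+* L) (frobenius k q) := by
  intro a
  set τ : A.decompositionSubgroup ℚ := ⟨φ, hφ.mem_decompositionSubgroup⟩ with hτ
  refine ⟨(τ • a).2, ?_⟩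
  have h2 : τ • (IsLocalRing.residue A a) = IsLocalRing.residue A a ^ q :=
    hφ.smul_residue_eq _
  have h3 : IsLocalRing.residue A (τ • a) = IsLocalRing.residue A (a ^ q) := by
    rw [map_pow, ← h2]
    rfl
  have h4 : τ • a - a ^ q ∈ IsLocalRing.maximalIdeal A := by
    rw [← IsLocalRing.residue_eq_zero_iff, map_sub, h3, sub_self]
  have h5 : π (τ • a - a ^ q) = 0 := (GaussRing.pi_eq_zero_iff hπ _).mpr h4
  rw [map_sub, sub_eq_zero, map_pow] at h5
  rw [frobenius_def]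
  exact h5

/-- the square of the Frobenius of a perfect field, as a ring automorphism -/
def frobSq (k : Type*) [Field k] (q : ℕ) [ExpChar k q] [PerfectRing k q] : k ≃+* k :=
  (frobeniusEquiv k q).trans (frobeniusEquiv k q)

theorem frobSq_apply (q : ℕ) [ExpChar k q] [PerfectRing k q] (x : k) :
    frobSq k q x = x ^ (q ^ 2) := by
  show frobeniusEquiv k q (frobeniusEquiv k q x) = _
  rw [frobeniusEquiv_apply, frobeniusEquiv_apply, frobenius_def, frobenius_def, ← pow_mul, sq]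

/-- the square of a Frobenius lift induces the square of the Frobenius -/
theorem resCompat_frobSq (hπ : Function.Surjective π) {q : ℕ} [ExpChar k q] [PerfectRing k q]
    {φ : L ≃ₐ[ℚ] L} (hφ : A.IsFrobeniusAt φ q) :
    ResCompat A π (((φ * φ : L ≃ₐ[ℚ] L) : L ≃ₐ[ℚ] L) : L →+* L)
      ((frobSq k q : k ≃+* k) : k →+* k) :=
  resCompat_comp (resCompat_of_isFrobeniusAt A π hπ hφ) (resCompat_of_isFrobeniusAt A π hπ hφ)

end Frobenius

/-! ### Divisors of `g`-fixed functions (general `Dt` with `Dt v = v.ord t`) -/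

section Divisor

variable {K F : Type*} [Field K] [Field F] [Algebra K F] (g : SemilinearAut K F)

/-- `g` fixes the divisor of a `g`-fixed function -/
theorem smul_divisor_eq {t : F} (ht : g • t = t) {Dt : Divisor K F}
    (hDt : ∀ v : Place K F, Dt v = v.ord t) : g • Dt = Dt := by
  ext v
  rw [SemilinearAut.divisor_smul_apply, hDt, hDt, ← Fermat.Agent.S34x.Inst.SigmaGlue.ord_smul',
    ht]

/-- `hσLN` of `TheoremB.exists_const_mul_pow_of_sigma`: `g` preserves `L(a C₀ + b C∞)` for the two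
charts of a `g`-fixed function -/
theorem smul_mem_LN_ofDivisor {t : F} (ht : g • t = t) {Dt : Divisor K F}
    (hDt : ∀ v : Place K F, Dt v = v.ord t) {a b : ℕ} {x : F}
    (hx : x ∈ (TwoCharts.ofDivisor Dt).LN a b) : g • x ∈ (TwoCharts.ofDivisor Dt).LN a b := by
  have hD := smul_divisor_eq g ht hDt
  refine Fermat.Agent.S34x.Inst.SigmaGlue.smul_mem_LN g ?_ ?_ hx
  · show g • (Dt ⊔ 0) = Dt ⊔ 0
    rw [Fermat.Agent.S34x.Inst.SigmaGlue.smul_sup_zero, hD]
  · show g • ((-Dt) ⊔ 0) = (-Dt) ⊔ 0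
    rw [Fermat.Agent.S34x.Inst.SigmaGlue.smul_sup_zero, smul_neg, hD]

/-- `hdiv` of `TheoremB.exists_const_mul_pow_of_sigma` -/
theorem dvd_ord_smul {m : ℤ} {w : F} (hdiv : ∀ P : Place K F, m ∣ P.ord w) (P : Place K F) :
    m ∣ P.ord (g • w) := by
  rw [Fermat.Agent.S34x.Inst.SigmaGlue.ord_smul']
  exact hdiv _

end Divisor

/-! ### The semilinear data at level `M ℓ` -/

section Level

variable {L : Type} [Field L] [Algebra ℚ L] [IsAlgClosed L] (A : ValuationSubring L)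
  {k : Type} [Field k] (π : A →+* k) (M : ℕ) [NeZero M] (ℓ : ℕ) [NeZero ℓ]
variable (hdeg : finrankAlong L (heckeAlphaBar L M ℓ) = ℓ + 1) (hℓ : ℓ.Prime) (hℓM : ¬ ℓ ∣ M)
variable {S : SmallRing (FL L (M * ℓ))}

omit [IsAlgClosed L] in
/-- the ring endomorphism `x ↦ arithmeticGalois σ₀ • x` of `F_N` -/
def sigmaHom (N : ℕ) [NeZero N] (σ₀ : L ≃ₐ[ℚ] L) : FL L N →+* FL L N :=
  ((SemilinearAut.toRingAut (arithmeticGalois (modularFunctionFieldFull N) σ₀) :
    FL L N ≃+* FL L N) : FL L N →+* FL L N)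

omit [IsAlgClosed L] in
theorem sigmaHom_apply (N : ℕ) [NeZero N] (σ₀ : L ≃ₐ[ℚ] L) (x : FL L N) :
    sigmaHom N σ₀ x = arithmeticGalois (modularFunctionFieldFull N) σ₀ • x := rfl

omit [IsAlgClosed L] in
theorem sigmaHom_mul_apply (N : ℕ) [NeZero N] (σ₀ τ₀ : L ≃ₐ[ℚ] L) (x : FL L N) :
    sigmaHom N (σ₀ * τ₀) x = arithmeticGalois (modularFunctionFieldFull N) σ₀ •
      arithmeticGalois (modularFunctionFieldFull N) τ₀ • x := by
  rw [sigmaHom_apply, map_mul, mul_smul]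

omit [IsAlgClosed L] in
theorem sigmaHom_algebraMap (N : ℕ) [NeZero N] (σ₀ : L ≃ₐ[ℚ] L) (c : L) :
    sigmaHom N σ₀ (algebraMap L (FL L N) c) = algebraMap L (FL L N) (σ₀ c) :=
  arithmeticRingAut_algebraMap (modularFunctionFieldFull N) σ₀ c

variable {A π M ℓ hdeg hℓ hℓM}
variable {R : RedSetup2 A S k (Fk k M × Fk k M)}

/-- **The semilinear data of a decomposition-type automorphism** `σ₀` inducing `τb` on `k`:
`σ = sigmaHom (M ℓ) σ₀`, `θ = τb`, `φ₁ = φ₂ =` the coefficientwise action of `τb` on `Fk k M`. -/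
def semiData (hB : Bridge A π M ℓ hdeg hℓ hℓM R) (σ₀ : L ≃ₐ[ℚ] L) (τb : k ≃+* k)
    (hc : ResCompat A π ((σ₀ : L ≃ₐ[ℚ] L) : L →+* L) ((τb : k ≃+* k) : k →+* k)) :
    SemiData R (sigmaHom (M * ℓ) σ₀) where
  θK := ((σ₀ : L ≃ₐ[ℚ] L) : L →+* L)
  σ_algebraMap c := sigmaHom_algebraMap (M * ℓ) σ₀ c
  θ := τb
  φ₁ := ((coeffRingAutC k M τb : Fk k M ≃+* Fk k M) : Fk k M →+* Fk k M)
  φ₂ := ((coeffRingAutC k M τb : Fk k M ≃+* Fk k M) : Fk k M →+* Fk k M)
  φ₁_algebraMap c := coeffRingAutC_algebraMap k M τb c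
  φ₂_algebraMap c := coeffRingAutC_algebraMap k M τb c
  φ₁_bij := (coeffRingAutC k M τb).bijective
  φ₂_bij := (coeffRingAutC k M τb).bijective
  σ_mem x hx := by
    obtain ⟨h1, h2⟩ := (hB.mem_iff x).mp hx
    exact (hB.mem_iff _).mpr ⟨smul_mem_Ov A π (M * ℓ) σ₀ hc h1,
      smul_mem_Ov0 A π M ℓ hdeg hℓ hℓM σ₀ hc h2⟩
  res_σ f hf := by
    obtain ⟨h1, h2⟩ := (hB.mem_iff f).mp hf
    have h1' : sigmaHom (M * ℓ) σ₀ f ∈ Ov A π (FBar L (M * ℓ)) :=
      smul_mem_Ov A π (M * ℓ) σ₀ hc h1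
    have h2' : sigmaHom (M * ℓ) σ₀ f ∈ Ov0 A π M ℓ hdeg hℓ hℓM :=
      smul_mem_Ov0 A π M ℓ hdeg hℓ hℓM σ₀ hc h2
    refine Prod.ext (Subtype.ext ?_) (Subtype.ext ?_)
    · refine (hB.res_fst (sigmaHom (M * ℓ) σ₀ f) _ h1').trans ?_
      refine (redV_smul A π (M * ℓ) σ₀ hc h1).trans ?_
      rw [← hB.res_fst f hf h1]
      rfl
    · refine (hB.res_snd (sigmaHom (M * ℓ) σ₀ f) _ h2').trans ?_
      refine (red0_smul A π M ℓ hdeg hℓ hℓM σ₀ hc h2).trans ?_
      rw [← hB.res_snd f hf h2]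
      rfl

/-- the residual action of `semiData` is the coefficientwise action of `τb` (first component) -/
theorem coe_semiData_φ₁ (hB : Bridge A π M ℓ hdeg hℓ hℓM R) (σ₀ : L ≃ₐ[ℚ] L) (τb : k ≃+* k)
    (hc : ResCompat A π ((σ₀ : L ≃ₐ[ℚ] L) : L →+* L) ((τb : k ≃+* k) : k →+* k)) (y : Fk k M) :
    (((semiData hB σ₀ τb hc).φ₁ y : Fk k M) : LaurentSeries k) =
      coeffMap ((τb : k ≃+* k) : k →+* k) (y : LaurentSeries k) := rfl

/-- the residual action of `semiData` is the coefficientwise action of `τb` (second component) -/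
theorem coe_semiData_φ₂ (hB : Bridge A π M ℓ hdeg hℓ hℓM R) (σ₀ : L ≃ₐ[ℚ] L) (τb : k ≃+* k)
    (hc : ResCompat A π ((σ₀ : L ≃ₐ[ℚ] L) : L →+* L) ((τb : k ≃+* k) : k →+* k)) (y : Fk k M) :
    (((semiData hB σ₀ τb hc).φ₂ y : Fk k M) : LaurentSeries k) =
      coeffMap ((τb : k ≃+* k) : k →+* k) (y : LaurentSeries k) := rfl

theorem semiData_θ (hB : Bridge A π M ℓ hdeg hℓ hℓM R) (σ₀ : L ≃ₐ[ℚ] L) (τb : k ≃+* k)
    (hc : ResCompat A π ((σ₀ : L ≃ₐ[ℚ] L) : L →+* L) ((τb : k ≃+* k) : k →+* k)) :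
    (semiData hB σ₀ τb hc).θ = τb := rfl

/-- **Phase 2**: the semilinear data of the square of a Frobenius lift: `θ = Frob²`,
`φ₁ = φ₂ =` coefficientwise `Frob²`. -/
def semiDataFrobSq [ExpChar k ℓ] [PerfectRing k ℓ] (hB : Bridge A π M ℓ hdeg hℓ hℓM R)
    (hπ : Function.Surjective π) {φ : L ≃ₐ[ℚ] L} (hφ : A.IsFrobeniusAt φ ℓ) :
    SemiData R (sigmaHom (M * ℓ) (φ * φ)) :=
  semiData hB (φ * φ) (frobSq k ℓ) (resCompat_frobSq A π hπ hφ)

/-- **Phase 1**: the semilinear data of an inertia element: `θ = id`, `φ₁ = φ₂ = id`. -/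
def semiDataInertia (hB : Bridge A π M ℓ hdeg hℓ hℓM R) (hπ : Function.Surjective π)
    {τ : L ≃ₐ[ℚ] L} (hτ : τ ∈ A.inertiaSubgroupIn ℚ) : SemiData R (sigmaHom (M * ℓ) τ) :=
  semiData hB τ (RingEquiv.refl k) (resCompat_of_mem_inertia A π hπ hτ)

omit [IsAlgClosed L] in
/-- the chart function is fixed when its `q`-expansion has rational coefficients -/
theorem sigmaHom_eq_self (N : ℕ) [NeZero N] (σ₀ : L ≃ₐ[ℚ] L) (t : FL L N)
    (t₀ : LaurentSeries ℚ) (ht : (t : LaurentSeries L) = coeffMap (algebraMap ℚ L) t₀) :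
    sigmaHom N σ₀ t = t :=
  Fermat.Agent.S34x.Inst.SigmaGlue.arithmeticGalois_smul_eq_self (modularFunctionFieldFull N) σ₀ t
    t₀ ht

end Level

end Fermat.Agent.S35x.FrobSqInst
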