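/-
helper13 (P-S34 phase 2 = S35, (CONG) instance): the congruence `Frob² z ≡ z ^ (ℓ ^ 2)` modulo the
conductor, componentwise on a chart, in the exact shape of the hypotheses `hcong`, `hcong₀` of
`SemilinearFinal.exists_const_mul_pow` / `FrobSqPackaged.exists_const_mul_pow_frobSq`
(`θ = coeffRingAutC k M (frobSq k ℓ)` = coefficientwise `Frob²` on `Fk k M`).

Source: helper46's `Inst/HpthInst.exists_pair_zero_mem` / `exists_zero_pair_mem` (explicit witness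
`Φ² g`, `Φ = frobInvLS ℓ`), applied to `g := Frob² z`, for which `Φ² g = z`.  Inputs = exactly those
of `HpthInst` with `FrobStable` replaced by `hfix : Φ xb = xb`.
-/
import Fermat.Agent.S34x.Inst.HpthInst
import Fermat.Agent.S35x.FrobSqInst

set_option autoImplicit false
set_option linter.style.haveILetI false
set_option linter.unusedSectionVars false

noncomputable section

namespace Fermat.Agent.S35x.CongInst

open Polynomial ModularCurve AlgebraicCurve IntermediateField Module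
open Fermat.Agent.Gateway.Hecke Fermat.Agent.Gateway.ESC Fermat.Agent.Gateway.ES
open Fermat.Agent.Gateway.Red Fermat.Agent.Gateway.GoodRed
open Fermat.Agent.Gateway.GoodRed.ConjFamily
open Fermat.Agent.S34x.TwoVal Fermat.Agent.S34x.C0two Fermat.Agent.S34x.Lattice2
open Fermat.Agent.S34x.Inst Fermat.Agent.S34x.Inst.L2 Fermat.Agent.S34x.Inst.HpthInst
open Fermat.Agent.S35x.FrobSqInst Fermat.Agent.S35x.SemilinearChart

/-! ### Coefficientwise `Frob²` on `Fk k M` versus `Φ = frobInvLS ℓ` -/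

section Coeff

variable {k : Type} [Field k] (M : ℕ) [NeZero M] (ℓ : ℕ) [Fact ℓ.Prime] [CharP k ℓ]
  [PerfectRing k ℓ]

/-- `Φ² (Frob² y) = y` on Laurent series -/
theorem frobInvLS_sq_frobSq (y : Fk k M) :
    frobInvLS ℓ (frobInvLS ℓ
      ((coeffRingAutC k M (frobSq k ℓ) y : Fk k M) : LaurentSeries k)) =
      ((y : Fk k M) : LaurentSeries k) := by
  rw [coe_coeffRingAutC_apply, frobInvLS, coeffMap_coeffMap, coeffMap_coeffMap,
    coeffMap_congr (g := RingHom.id k) (RingHom.ext fun a => ?_) _, coeffMap_id]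
  simp only [RingHom.comp_apply, RingHom.coe_coe, RingHom.id_apply]
  show (frobeniusEquiv k ℓ).symm ((frobeniusEquiv k ℓ).symm
    (frobeniusEquiv k ℓ (frobeniusEquiv k ℓ a))) = a
  rw [RingEquiv.symm_apply_apply, RingEquiv.symm_apply_apply]

/-- `Frob²` fixes a `Φ`-fixed element -/
theorem frobSq_fix (xb : Fk k M)
    (hfix : frobInvLS ℓ ((xb : Fk k M) : LaurentSeries k) = xb) :
    coeffRingAutC k M (frobSq k ℓ) xb = xb := by
  apply Subtype.ext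
  have h := frobInvLS_sq_frobSq M ℓ xb
  have e : ∀ f g : LaurentSeries k, frobInvLS ℓ f = frobInvLS ℓ g → f = g := by
    intro f g hfg
    have := congrArg (coeffMap (frobenius k ℓ)) hfg
    rwa [coeffMap_frobenius_frobInvLS, coeffMap_frobenius_frobInvLS] at this
  refine e _ _ (e _ _ ?_)
  rw [h, hfix, hfix]

/-- `Frob²` preserves integrality over `k[xb]` for `Φ`-fixed `xb` -/
theorem isIntegral_frobSq (xb : Fk k M)
    (hfix : frobInvLS ℓ ((xb : Fk k M) : LaurentSeries k) = xb) {y : Fk k M}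
    (hy : IsIntegral (Algebra.adjoin k {xb}) y) :
    IsIntegral (Algebra.adjoin k {xb}) (coeffRingAutC k M (frobSq k ℓ) y) :=
  isIntegral_map ((frobSq k ℓ : k ≃+* k) : k →+* k)
    ((coeffRingAutC k M (frobSq k ℓ) : Fk k M ≃+* Fk k M) : Fk k M →+* Fk k M)
    (fun c => coeffRingAutC_algebraMap k M (frobSq k ℓ) c) (frobSq_fix M ℓ xb hfix) hy

end Coeff

/-! ### (CONG) on a chart -/

section Main

variable {L : Type} [Field L] [Algebra ℚ L] [IsAlgClosed L] (A : ValuationSubring L)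
  {k : Type} [Field k] (π : A →+* k) [IsAlgClosed k] (M : ℕ) [NeZero M]
  (ℓ : ℕ) [NeZero ℓ] [Fact ℓ.Prime] [CharP k ℓ] [PerfectRing k ℓ]
variable (hdeg : finrankAlong L (heckeAlphaBar L M ℓ) = ℓ + 1) (hℓ : ℓ.Prime)
variable (hπ : Function.Surjective π) (hℓM : ¬ ℓ ∣ M)

variable {S : SmallRing (FL L (M * ℓ))} {R : RedSetup2 A S k (Fk k M × Fk k M)}
  (hR : IsL2Inst.Bridge A π M ℓ hdeg hℓ hℓM R) (C : ChartCoord R) (x : FL L M) (xb : Fk k M)

include hR in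
/-- **(CONG), first component**: `(Frob² f - f ^ (ℓ²), 0) ∈ B̄` for `f ∈ B₁`. -/
theorem cong_fst (hCt : C.t = heckeAlphaBar L M ℓ x) (hT1 : C.T.1 = xb)
    (hEQ : LiftsIntegral A π M ℓ hπ hℓM x xb)
    (hY3 : IsIntegral (Algebra.adjoin L {heckeAlphaBar L M ℓ x}) (heckeBetaBar L M ℓ x))
    (hfix : frobInvLS ℓ ((xb : Fk k M) : LaurentSeries k) = xb) (f : C.B₁) :
    ((coeffRingAutC k M (frobSq k ℓ) (f : Fk k M) - (f : Fk k M) ^ (ℓ ^ 2), (0 : Fk k M)) :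
      Fk k M × Fk k M) ∈ C.Bbar := by
  have hfx : IsIntegral (Algebra.adjoin k {C.T.1}) (f : Fk k M) := f.2
  have hθf : coeffRingAutC k M (frobSq k ℓ) (f : Fk k M) ∈ C.B₁ := by
    rw [ChartCoord.mem_B₁_iff, hT1]
    rw [hT1] at hfx
    exact isIntegral_frobSq M ℓ xb hfix hfx
  obtain ⟨f', hf', hmem⟩ := exists_pair_zero_mem A π M ℓ hdeg hℓ hπ hℓM hR C x xb hCt hT1 hEQ hY3
    (frobStable_of_fix M ℓ xb hfix) ⟨_, hθf⟩
  have hff' : f' = f := by
    apply Subtype.ext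
    apply Subtype.ext
    rw [hf']
    exact frobInvLS_sq_frobSq M ℓ (f : Fk k M)
  rw [hff', ChartCoord.mem_BbarT_iff] at hmem
  exact hmem

include hR in
/-- **(CONG), second component**: `(0, Frob² g - g ^ (ℓ²)) ∈ B̄` for `g ∈ B₂`. -/
theorem cong_snd (hCt : C.t = heckeAlphaBar L M ℓ x) (hT2 : C.T.2 = xb ^ ℓ)
    (hEQ : LiftsIntegral A π M ℓ hπ hℓM x xb)
    (hY3 : IsIntegral (Algebra.adjoin L {heckeAlphaBar L M ℓ x}) (heckeBetaBar L M ℓ x))
    (hfix : frobInvLS ℓ ((xb : Fk k M) : LaurentSeries k) = xb) (g : C.B₂) :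
    (((0 : Fk k M), coeffRingAutC k M (frobSq k ℓ) (g : Fk k M) - (g : Fk k M) ^ (ℓ ^ 2)) :
      Fk k M × Fk k M) ∈ C.Bbar := by
  have hgx : IsIntegral (Algebra.adjoin k {C.T.2}) (g : Fk k M) := g.2
  have hfixℓ : coeffRingAutC k M (frobSq k ℓ) (xb ^ ℓ) = xb ^ ℓ := by
    rw [map_pow, frobSq_fix M ℓ xb hfix]
  have hθg : coeffRingAutC k M (frobSq k ℓ) (g : Fk k M) ∈ C.B₂ := by
    rw [ChartCoord.mem_B₂_iff, hT2]
    rw [hT2] at hgx
    exact isIntegral_map ((frobSq k ℓ : k ≃+* k) : k →+* k)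
      ((coeffRingAutC k M (frobSq k ℓ) : Fk k M ≃+* Fk k M) : Fk k M →+* Fk k M)
      (fun c => coeffRingAutC_algebraMap k M (frobSq k ℓ) c) hfixℓ hgx
  obtain ⟨g', hg', hmem⟩ := exists_zero_pair_mem A π M ℓ hdeg hℓ hπ hℓM hR C x xb hCt hT2 hEQ hY3
    (frobStable_of_fix M ℓ xb hfix) ⟨_, hθg⟩
  have hgg' : g' = g := by
    apply Subtype.ext
    apply Subtype.ext
    rw [hg']
    exact frobInvLS_sq_frobSq M ℓ (g : Fk k M)
  rw [hgg', ChartCoord.mem_BbarT_iff] at hmem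
  exact hmem

include hR in
/-- **(CONG) on the chart `C`**, in the shape of `hcong` of
`FrobSqPackaged.exists_const_mul_pow_frobSq`. -/
theorem cong (hCt : C.t = heckeAlphaBar L M ℓ x) (hT1 : C.T.1 = xb) (hT2 : C.T.2 = xb ^ ℓ)
    (hEQ : LiftsIntegral A π M ℓ hπ hℓM x xb)
    (hY3 : IsIntegral (Algebra.adjoin L {heckeAlphaBar L M ℓ x}) (heckeBetaBar L M ℓ x))
    (hfix : frobInvLS ℓ ((xb : Fk k M) : LaurentSeries k) = xb) :
    ∀ z : C.B₁ × C.B₂,
      ((coeffRingAutC k M (frobSq k ℓ) (z.1 : Fk k M) - (z.1 : Fk k M) ^ (ℓ ^ 2), (0 : Fk k M)) :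
        Fk k M × Fk k M) ∈ C.Bbar ∧
      (((0 : Fk k M), coeffRingAutC k M (frobSq k ℓ) (z.2 : Fk k M) - (z.2 : Fk k M) ^ (ℓ ^ 2)) :
        Fk k M × Fk k M) ∈ C.Bbar :=
  fun z => ⟨cong_fst A π M ℓ hdeg hℓ hπ hℓM hR C x xb hCt hT1 hEQ hY3 hfix z.1,
    cong_snd A π M ℓ hdeg hℓ hπ hℓM hR C x xb hCt hT2 hEQ hY3 hfix z.2⟩

include hR in
/-- **(CONG) on the chart `C.swap`** (coordinate `x⁻¹`), in the shape of `hcong₀` of
`FrobSqPackaged.exists_const_mul_pow_frobSq`; inputs as in `HpthInst.hpth_swap`. -/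
theorem cong_swap (hCt : C.t = heckeAlphaBar L M ℓ x) (hT1 : C.T.1 = xb) (hT2 : C.T.2 = xb ^ ℓ)
    (hEQ : LiftsIntegral A π M ℓ hπ hℓM x⁻¹ xb⁻¹)
    (hY3 : IsIntegral (Algebra.adjoin L {(heckeAlphaBar L M ℓ x)⁻¹}) (heckeBetaBar L M ℓ x)⁻¹)
    (hfix : frobInvLS ℓ ((xb : Fk k M) : LaurentSeries k) = xb) :
    ∀ z : C.swap.B₁ × C.swap.B₂,
      ((coeffRingAutC k M (frobSq k ℓ) (z.1 : Fk k M) - (z.1 : Fk k M) ^ (ℓ ^ 2), (0 : Fk k M)) :
        Fk k M × Fk k M) ∈ C.swap.Bbar ∧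
      (((0 : Fk k M), coeffRingAutC k M (frobSq k ℓ) (z.2 : Fk k M) - (z.2 : Fk k M) ^ (ℓ ^ 2)) :
        Fk k M × Fk k M) ∈ C.swap.Bbar := by
  have hY3' : IsIntegral (Algebra.adjoin L {heckeAlphaBar L M ℓ x⁻¹})
      (heckeBetaBar L M ℓ x⁻¹) := by
    rw [map_inv₀, map_inv₀]
    exact hY3
  exact cong A π M ℓ hdeg hℓ hπ hℓM hR C.swap x⁻¹ xb⁻¹ (swap_t_eq A M ℓ C x hCt)
    (swap_T_fst A M ℓ C xb hT1) (swap_T_snd A M ℓ C xb hT2) hEQ hY3' (fix_inv M ℓ xb hfix)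

end Main

end Fermat.Agent.S35x.CongInst
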