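/-
P-S34 phase 2 (S35), (G3) abstract final assembly (helper43): Theorem B' from the raw outputs of the
`Inst/` files + the semilinear data.  Phase-2 twin of `S34x/TheoremBAssemble.exists_const_mul_pow`:
`SigmaNbar.exists_const_mul_pow_of_twistFam` fed with `TwistFam.ofDivisor` and the codimension bounds
`TwistFam.codim_main_of_isL2` for `i = 1` and `i = i'`.

Extra data w.r.t. phase 1: `θ : k ≃+* k`, a `θ`-semilinear ring endomorphism `φ` of `κ₁ × κ₂` with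
`res (σ f) = φ (res f)`; `m e = Q + i'`; on each chart a surjective `θ`-semilinear lift `φV` of `φ` to
`B₁ × B₂` with `φ B̄ ⊆ B̄` and (CONG) `φV z - z ^ Q ∈ I₁ × I₂`.  Conclusion: `σ w / w ^ Q = c v ^ m`.
-/
import Fermat.Agent.S35x.SigmaNbar
import Fermat.Agent.S34x.Lattice2.OfDivisor
import Fermat.Agent.S34x.Lattice2.UBBridge

set_option autoImplicit false
set_option linter.unusedSectionVars false

noncomputable section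

namespace Fermat.Agent.S35x.TheoremBFrobAssemble

open Module AlgebraicCurve IntermediateField
open Fermat.Agent.Gateway.C0 Fermat.Agent.S34x Fermat.Agent.S34x.C0two Fermat.Agent.S34x.Lattice2

variable {K : Type*} [Field K] [IsAlgClosed K] [CharZero K] {A : ValuationSubring K}
  {F : Type*} [Field F] [Algebra K F] {S : SmallRing F}
  {k κ₁ κ₂ : Type*} [Field k] [IsAlgClosed k] [CommRing κ₁] [CommRing κ₂] [Algebra k κ₁]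
  [Algebra k κ₂] [Nontrivial (κ₁ × κ₂)]
  {R : RedSetup2 A S k (κ₁ × κ₂)} (C : ChartCoord R)
  (ht : Transcendental K C.t) [FiniteDimensional K⟮C.t⟯ F] [Algebra.IsSeparable K⟮C.t⟯ F]
  {Dt : Divisor K F} (hDt : ∀ v : Place K F, Dt v = v.ord C.t)
  (hcart : ∀ V : Submodule K F, FiniteDimensional K V → (R.lat V).FG)
  (hPfin : ∀ b, Module.Finite k (C.Pk 0 b)) (b₀ : ℕ)
  (hP : ∀ b, b₀ ≤ b → ∀ p ∈ C.Pk 0 (b + 1), ∃ p₁ ∈ C.Pk 0 b, ∃ p₂ ∈ C.Pk 0 b,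
    p = p₁ + C.T * p₂)
  {m : ℕ} (hmA : IsUnit ((m : ℕ) : A))
  {σ : F →+* F}
  (hσLN : ∀ (a b : ℕ) (x : F), x ∈ (TwoCharts.ofDivisor Dt).LN a b →
    σ x ∈ (TwoCharts.ofDivisor Dt).LN a b)
  (hσO : ∀ x ∈ S.O, σ x ∈ S.O)
  (θ : k ≃+* k) (φ : (κ₁ × κ₂) →+* (κ₁ × κ₂))
  (hφsmul : ∀ (c : k) (y : κ₁ × κ₂), φ (c • y) = θ c • φ y)
  (hσres : ∀ (f : F) (hf : f ∈ S.O), R.res ⟨σ f, hσO f hf⟩ = φ (R.res ⟨f, hf⟩))
  {w : F} (hw0 : w ≠ 0) (hwO : w ∈ S.O) (hwiO : w⁻¹ ∈ S.O) (hw1 : R.res ⟨w, hwO⟩ = 1)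
  {Dw : Divisor K F} (hDw : ∀ v : Place K F, (m : ℤ) * Dw v = v.ord w)
  (hdiv : ∀ v : Place K F, (m : ℤ) ∣ v.ord (σ w))
  {Q e i' : ℕ} (hQ : m * e = Q + i')

include hσres hw0 hwiO hw1 in
/-- `σ w / w ^ Q ∈ O` reduces to `1`. -/
theorem res_sigma_div_pow (Q : ℕ) :
    ∃ huO : σ w / w ^ Q ∈ S.O, R.res ⟨σ w / w ^ Q, huO⟩ = 1 := by
  have hgwO : σ w ∈ S.O := hσO w hwO
  have hiQ : (w⁻¹) ^ Q ∈ S.O := S.O.pow_mem hwiO Q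
  have e0 : σ w / w ^ Q = σ w * (w⁻¹) ^ Q := by rw [inv_pow, div_eq_mul_inv]
  have huO : σ w / w ^ Q ∈ S.O := by
    rw [e0]
    exact S.O.mul_mem hgwO hiQ
  refine ⟨huO, ?_⟩
  have h1 : (⟨σ w / w ^ Q, huO⟩ : S.O) = ⟨σ w, hgwO⟩ * ⟨w⁻¹, hwiO⟩ ^ Q := Subtype.ext e0
  have h2 : (⟨w, hwO⟩ : S.O) * ⟨w⁻¹, hwiO⟩ = 1 := Subtype.ext (mul_inv_cancel₀ hw0)
  have h3 : R.res ⟨w⁻¹, hwiO⟩ = 1 := by
    have := congrArg R.res h2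
    rwa [map_mul, map_one, hw1, one_mul] at this
  rw [h1, map_mul, map_pow, hσres w hwO, hw1, h3, one_pow, mul_one, map_one]

include ht hDt hcart hPfin hP hmA hσLN hφsmul hσres hw0 hwiO hw1 hDw hdiv hQ in
/-- **Theorem B', abstract final assembly (phase 2).** -/
theorem exists_const_mul_pow
    (hL2 : C.IsL2) (hL2' : C.swap.IsL2)
    (he : ∃ c : κ₂, IsIntegral (Algebra.adjoin k {C.T.2}) c ∧ ((1 : κ₁), c * C.T.2) ∈ C.Bbar)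
    (he' : ∃ c : κ₂, IsIntegral (Algebra.adjoin k {C.Ti.2}) c ∧
      ((1 : κ₁), c * C.Ti.2) ∈ C.swap.Bbar)
    {p : ℕ} (hp : 2 ≤ p)
    (hN1 : ∀ g : C.B₂, ∃ g' : C.B₂, ((0 : C.B₁), g - g' ^ p) ∈ C.BbarT)
    {p₀ : ℕ} (hp₀ : 2 ≤ p₀)
    (hN1₀ : ∀ g : C.swap.B₂, ∃ g' : C.swap.B₂, ((0 : C.swap.B₁), g - g' ^ p₀) ∈ C.swap.BbarT)
    (δ b₂ : ℕ)
    (hdimS : ∀ b, b₂ ≤ b → finrank k (C.Pk 0 b) = finrank k (R.redLat (C.LN 0 b)) + δ)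
    (hdimN : ∀ b, b₂ ≤ b → finrank k (C.Pk 0 b) ≤
      finrank k (R.redLat ((TwoCharts.ofDivisor Dt).LM Dw 0 b)) + δ)
    (hdimN' : ∀ b, b₂ ≤ b → finrank k (C.Pk 0 b) ≤
      finrank k (R.redLat ((TwoCharts.ofDivisor Dt).LM (i' • Dw) 0 b)) + δ)
    -- the semilinear lifts on the two charts
    (φV : (C.B₁ × C.B₂) →+* (C.B₁ × C.B₂)) (hφVsurj : Function.Surjective φV)
    (hφVsmul : ∀ (c : k) (v : C.B₁ × C.B₂), φV (c • v) = θ c • φV v)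
    (hjφ : ∀ v, C.incl (φV v) = φ (C.incl v)) (hφBbar : ∀ y ∈ C.Bbar, φ y ∈ C.Bbar)
    (hcong : ∀ z : C.B₁ × C.B₂, ((φV z - z ^ Q).1, (0 : C.B₂)) ∈ C.BbarT ∧
      ((0 : C.B₁), (φV z - z ^ Q).2) ∈ C.BbarT)
    (φV₀ : (C.swap.B₁ × C.swap.B₂) →+* (C.swap.B₁ × C.swap.B₂))
    (hφVsurj₀ : Function.Surjective φV₀)
    (hφVsmul₀ : ∀ (c : k) (v : C.swap.B₁ × C.swap.B₂), φV₀ (c • v) = θ c • φV₀ v)
    (hjφ₀ : ∀ v, C.swap.incl (φV₀ v) = φ (C.swap.incl v))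
    (hφBbar₀ : ∀ y ∈ C.swap.Bbar, φ y ∈ C.swap.Bbar)
    (hcong₀ : ∀ z : C.swap.B₁ × C.swap.B₂,
      ((φV₀ z - z ^ Q).1, (0 : C.swap.B₂)) ∈ C.swap.BbarT ∧
      ((0 : C.swap.B₁), (φV₀ z - z ^ Q).2) ∈ C.swap.BbarT) :
    ∃ (c : K) (v : F), σ w / w ^ Q = algebraMap K F c * v ^ m := by
  have hm : 0 < m := by
    rcases Nat.eq_zero_or_pos m with h | h
    · exfalso
      subst h
      rw [Nat.cast_zero] at hmA
      exact not_isUnit_zero hmA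
    · exact h
  obtain ⟨huO, hu1⟩ := res_sigma_div_pow hσO φ hσres hw0 hwO hwiO hw1 Q
  let W : TwistFam C m := TwistFam.ofDivisor C ht hDt Dw hw0 hwO hwiO hw1 hDw
  have hW1 : ∀ a b, W.L 1 a b = (TwoCharts.ofDivisor Dt).LM Dw a b :=
    fun a b => TwistFam.ofDivisor_L_one C ht hDt Dw hw0 hwO hwiO hw1 hDw a b
  have hWi : ∀ a b, W.L i' a b = (TwoCharts.ofDivisor Dt).LM (i' • Dw) a b :=
    fun a b => rfl
  have hcartLN : ∀ b, (R.lat (C.LN 0 b)).FG := by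
    intro b
    rw [← LN_eq C ht hDt]
    exact hcart _ ((TwoCharts.ofDivisor Dt).LN_finite ht 0 b)
  have hdimN1 : ∀ b, b₂ ≤ b → finrank k (C.Pk 0 b) ≤ finrank k (R.redLat (W.L 1 0 b)) + δ := by
    intro b hb
    rw [hW1]
    exact hdimN b hb
  obtain ⟨⟨hf1, hfB, -, hc1⟩, ⟨hf1', hfB', -, hc1'⟩⟩ := W.codim_main_of_isL2 hm hcartLN hPfin b₀ hP
    hL2 hL2' he he' δ b₂ hdimS 1 hdimN1
  obtain ⟨⟨hf2, -, -, hc2⟩, ⟨hf2', -, -, hc2'⟩⟩ := W.codim_main_of_isL2 hm hcartLN hPfin b₀ hP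
    hL2 hL2' he he' δ b₂ hdimS i' hdimN'
  have : ∀ b, FiniteDimensional k ((fun b => C.Pk 0 b) b) := hPfin
  have hSC : ∀ (b : ℕ) (f : F) (hf : f ∈ S.O), f ∈ (TwoCharts.ofDivisor Dt).LN 0 b →
      R.res ⟨f, hf⟩ ∈ (fun b => C.Pk 0 b) b := by
    intro b f hf hfL
    rw [LN_eq C ht hDt] at hfL
    exact C.SC 0 b f hf hfL
  have hrad : ∀ (b : ℕ) (x : κ₁ × κ₂), x ^ m ∈ (fun b => C.Pk 0 b) (m * b) →
      x ∈ (fun b => C.Pk 0 b) b := by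
    intro b x hx
    refine twoPole_radical hm 0 b x ?_
    rw [Nat.mul_zero]
    exact hx
  exact SigmaNbar.exists_const_mul_pow_of_twistFam R ht hDt C.t_mem C.tinv_mem hcart
    (fun b => C.Pk 0 b) hP hSC hrad hmA hσLN hσO hw0 hwO hw1 hDw hdiv hQ huO hu1 θ φ hφsmul hσres
    hm W hW1 hWi hL2 hp hN1 hc1 hc2 φV hφVsurj hφVsmul hjφ hφBbar hcong
    hL2' hp₀ hN1₀ hc1' hc2' φV₀ hφVsurj₀ hφVsmul₀ hjφ₀ hφBbar₀ hcong₀

end Fermat.Agent.S35x.TheoremBFrobAssemble
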