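/-
helper13 (P-S34 phase 2 = S35, (G3) composite): helper43's abstract final assembly
`TheoremBFrobAssemble.exists_const_mul_pow` with the whole semilinear bundle
`(θ, φ, hφsmul, hσO, hσres, hσLN, φV, φV₀, hφVsurj, hφVsmul, hjφ, hφBbar)` DISCHARGED from a
`SemilinearChart.SemiData R σ` with `σ C.t = C.t`.  What remains are the phase-1 inputs (charts, (L2),
cusp separation, (N1), counts), the count for `i' D_w`, `hdiv`, and (CONG) in componentwise form: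
`φ₁ z₁ - z₁ ^ Q` and `φ₂ z₂ - z₂ ^ Q` lie in the conductor, for `(z₁, z₂) ∈ B₁ × B₂`, on both charts.
-/
import Fermat.Agent.S35x.SemilinearChart
import Fermat.Agent.S35x.TheoremBFrobAssemble

set_option autoImplicit false
set_option linter.unusedSectionVars false

noncomputable section

namespace Fermat.Agent.S35x.SemilinearFinal

open Module AlgebraicCurve IntermediateField
open Fermat.Agent.Gateway.C0 Fermat.Agent.S34x Fermat.Agent.S34x.C0two Fermat.Agent.S34x.Lattice2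
open Fermat.Agent.S35x.SemilinearChart

variable {K : Type*} [Field K] [IsAlgClosed K] [CharZero K] {A : ValuationSubring K}
  {F : Type*} [Field F] [Algebra K F] {S : SmallRing F}
  {k κ₁ κ₂ : Type*} [Field k] [IsAlgClosed k] [CommRing κ₁] [CommRing κ₂] [Algebra k κ₁]
  [Algebra k κ₂] [Nontrivial (κ₁ × κ₂)]
  {R : RedSetup2 A S k (κ₁ × κ₂)} (C : ChartCoord R)
  (ht : Transcendental K C.t) [FiniteDimensional K⟮C.t⟯ F] [Algebra.IsSeparable K⟮C.t⟯ F]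
  {Dt : Divisor K F} (hDt : ∀ v : Place K F, Dt v = v.ord C.t)
  (hcart : ∀ V : Submodule K F, FiniteDimensional K V → (R.lat V).FG)
  (hPfin : ∀ b, Module.Finite k (C.Pk 0 b)) (b₀ : ℕ)
  (hP : ∀ b, b₀ ≤ b → ∀ p ∈ C.Pk 0 (b + 1), ∃ p₁ ∈ C.Pk 0 b, ∃ p₂ ∈ C.Pk 0 b,
    p = p₁ + C.T * p₂)
  {m : ℕ} (hmA : IsUnit ((m : ℕ) : A))
  {σ : F →+* F} (D : SemiData R σ) (hσt : σ C.t = C.t)
  {w : F} (hw0 : w ≠ 0) (hwO : w ∈ S.O) (hwiO : w⁻¹ ∈ S.O) (hw1 : R.res ⟨w, hwO⟩ = 1)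
  {Dw : Divisor K F} (hDw : ∀ v : Place K F, (m : ℤ) * Dw v = v.ord w)
  (hdiv : ∀ v : Place K F, (m : ℤ) ∣ v.ord (σ w))
  {Q e i' : ℕ} (hQ : m * e = Q + i')

include ht hDt D hσt in
/-- `hσLN` of `TheoremB.exists_const_mul_pow_of_sigma` from the semilinear data -/
theorem sigma_mem_LN (a b : ℕ) (x : F) (hx : x ∈ (TwoCharts.ofDivisor Dt).LN a b) :
    σ x ∈ (TwoCharts.ofDivisor Dt).LN a b := by
  rw [LN_eq C ht hDt] at hx ⊢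
  exact D.σ_mem_LN C hσt hx

include ht hDt hcart hPfin hP hmA hσt hw0 hwiO hw1 hDw hdiv hQ in
/-- **Theorem B' (phase 2) from a semilinear datum and the phase-1 inputs.** -/
theorem exists_const_mul_pow
    (hL2 : C.IsL2) (hL2' : C.swap.IsL2)
    (he : ∃ c : κ₂, IsIntegral (Algebra.adjoin k {C.T.2}) c ∧ ((1 : κ₁), c * C.T.2) ∈ C.Bbar)
    (he' : ∃ c : κ₂, IsIntegral (Algebra.adjoin k {C.Ti.2}) c ∧
      ((1 : κ₁), c * C.Ti.2) ∈ C.swap.Bbar)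
    {p : ℕ} (hp : 2 ≤ p)
    (hN1 : ∀ g : C.B₂, ∃ g' : C.B₂, ((0 : C.B₁), g - g' ^ p) ∈ C.BbarT)
    {p₀ : ℕ} (hp₀ : 2 ≤ p₀)
    (hN1₀ : ∀ g : C.swap.B₂, ∃ g' : C.swap.B₂, ((0 : C.swap.B₁), g - g' ^ p₀) ∈ C.swap.BbarT)
    (δ b₂ : ℕ)
    (hdimS : ∀ b, b₂ ≤ b → finrank k (C.Pk 0 b) = finrank k (R.redLat (C.LN 0 b)) + δ)
    (hdimN : ∀ b, b₂ ≤ b → finrank k (C.Pk 0 b) ≤
      finrank k (R.redLat ((TwoCharts.ofDivisor Dt).LM Dw 0 b)) + δ)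
    (hdimN' : ∀ b, b₂ ≤ b → finrank k (C.Pk 0 b) ≤
      finrank k (R.redLat ((TwoCharts.ofDivisor Dt).LM (i' • Dw) 0 b)) + δ)
    (hcong : ∀ z : C.B₁ × C.B₂,
      ((D.φ₁ (z.1 : κ₁) - (z.1 : κ₁) ^ Q, (0 : κ₂)) : κ₁ × κ₂) ∈ C.Bbar ∧
      (((0 : κ₁), D.φ₂ (z.2 : κ₂) - (z.2 : κ₂) ^ Q) : κ₁ × κ₂) ∈ C.Bbar)
    (hcong₀ : ∀ z : C.swap.B₁ × C.swap.B₂,
      ((D.φ₁ (z.1 : κ₁) - (z.1 : κ₁) ^ Q, (0 : κ₂)) : κ₁ × κ₂) ∈ C.swap.Bbar ∧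
      (((0 : κ₁), D.φ₂ (z.2 : κ₂) - (z.2 : κ₂) ^ Q) : κ₁ × κ₂) ∈ C.swap.Bbar) :
    ∃ (c : K) (v : F), σ w / w ^ Q = algebraMap K F c * v ^ m := by
  have hσt₀ : σ C.swap.t = C.swap.t := SemiData.σ_tinv C hσt
  exact TheoremBFrobAssemble.exists_const_mul_pow C ht hDt hcart hPfin b₀ hP hmA
    (sigma_mem_LN C ht hDt D hσt) D.σ_mem D.θ D.φ D.φ_smul D.res_σ' hw0 hwO hwiO hw1 hDw hdiv hQ
    hL2 hL2' he he' hp hN1 hp₀ hN1₀ δ b₂ hdimS hdimN hdimN'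
    (D.φV C hσt) (D.φV_surjective C hσt) (D.φV_smul C hσt) (D.incl_φV C hσt)
    (fun _ hy => D.φ_mem_Bbar C hσt hy) (D.cong_of_components C hσt hcong)
    (D.φV C.swap hσt₀) (D.φV_surjective C.swap hσt₀) (D.φV_smul C.swap hσt₀)
    (D.incl_φV C.swap hσt₀) (fun _ hy => D.φ_mem_Bbar C.swap hσt₀ hy)
    (D.cong_of_components C.swap hσt₀ hcong₀)

end Fermat.Agent.S35x.SemilinearFinal
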