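/-
helper13 (P-S34 phase 2 = S35, (G3) instance, packaged consumer form): **Theorem B' for the square of a
Frobenius lift** at level `M q` — the phase-2 twin of `S34x/Inst/GaloisInst.
exists_const_mul_pow_of_charts_inertia`.

`SemilinearFinal.exists_const_mul_pow` (= helper43's `TheoremBFrobAssemble`) with the semilinear datum
`FrobSqInst.semiDataFrobSq` plugged in and the Galois inputs `hσt`, `hdiv`, `hmA` discharged:
for a Frobenius lift `φ` at `(A, q)`, `g := arithmeticGalois (modularFunctionFieldFull (M q)) φ`,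
and a normalised `w` (`w, w⁻¹ ∈ S.O`, `res w = 1`, `m D_w = div w`):

  `(g • g • w) / w ^ (q ^ 2) = c v ^ m`.

Remaining hypotheses = the phase-1 instance bundle (`C`, `hcart`, `hP`, (L2), cusp separation, (N1),
counts) + the count for `i' D_w` + (CONG) in componentwise form (coefficientwise `Frob²` on `Fk k M`).
-/
import Fermat.Agent.S35x.SemilinearFinal
import Fermat.Agent.S35x.FrobSqInst

set_option autoImplicit false
set_option linter.style.haveILetI false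
set_option linter.unusedSectionVars false
set_option synthInstance.maxHeartbeats 400000
set_option maxHeartbeats 1600000

noncomputable section

namespace Fermat.Agent.S35x.FrobSqPackaged

open Module Polynomial ModularCurve AlgebraicCurve IntermediateField
open Fermat.Agent.Gateway.Hecke Fermat.Agent.Gateway.ESC Fermat.Agent.Gateway.ES
open Fermat.Agent.Gateway.Red Fermat.Agent.Gateway.GoodRed
open Fermat.Agent.Gateway.GoodRed.ConjFamily Fermat.Agent.Gateway.C0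
open Fermat.Agent.S34x.TwoVal Fermat.Agent.S34x.C0two Fermat.Agent.S34x.Lattice2
open Fermat.Agent.S34x.Inst.IsL2Inst Fermat.Agent.S35x.SemilinearChart
open Fermat.Agent.S35x.FrobSqInst

variable {L : Type} [Field L] [Algebra ℚ L] [IsAlgClosed L] {A : ValuationSubring L}
  {k : Type} [Field k] [IsAlgClosed k] {π : A →+* k} {M : ℕ} [NeZero M] {q : ℕ} [NeZero q]
  [ExpChar k q] [PerfectRing k q]
  {hdeg : finrankAlong L (heckeAlphaBar L M q) = q + 1} {hq : q.Prime} {hqM : ¬ q ∣ M}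
  {S : SmallRing (FL L (M * q))} {R : RedSetup2 A S k (Fk k M × Fk k M)}
  (hB : Bridge A π M q hdeg hq hqM R) (hπ : Function.Surjective π)
  {φ : L ≃ₐ[ℚ] L} (hφ : A.IsFrobeniusAt φ q)
  (C : ChartCoord R)
  (hσt : arithmeticGalois (modularFunctionFieldFull (M * q)) φ • C.t = C.t)
  (ht : Transcendental L C.t) [FiniteDimensional L⟮C.t⟯ (FL L (M * q))]
  [Algebra.IsSeparable L⟮C.t⟯ (FL L (M * q))]
  {Dt : Divisor L (FL L (M * q))} (hDt : ∀ v : Place L (FL L (M * q)), Dt v = v.ord C.t)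
  (hcart : ∀ V : Submodule L (FL L (M * q)), FiniteDimensional L V → (R.lat V).FG)
  (hPfin : ∀ b, Module.Finite k (C.Pk 0 b)) (b₀ : ℕ)
  (hP : ∀ b, b₀ ≤ b → ∀ p ∈ C.Pk 0 (b + 1), ∃ p₁ ∈ C.Pk 0 b, ∃ p₂ ∈ C.Pk 0 b,
    p = p₁ + C.T * p₂)
  {m : ℕ} (hmA : IsUnit ((m : ℕ) : A))
  {w : FL L (M * q)} (hw0 : w ≠ 0) (hwO : w ∈ S.O) (hwiO : w⁻¹ ∈ S.O)
  (hw1 : R.res ⟨w, hwO⟩ = 1)
  {Dw : Divisor L (FL L (M * q))}
  (hDw : ∀ v : Place L (FL L (M * q)), (m : ℤ) * Dw v = v.ord w)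
  {e i' : ℕ} (hQ : m * e = q ^ 2 + i')

include hB hπ hφ hσt ht hDt hcart hPfin hP hmA hw0 hwO hwiO hw1 hDw hQ in
/-- **Theorem B' for the square of a Frobenius lift** (packaged consumer form). -/
theorem exists_const_mul_pow_frobSq
    (hL2 : C.IsL2) (hL2' : C.swap.IsL2)
    (he : ∃ c : Fk k M, IsIntegral (Algebra.adjoin k {C.T.2}) c ∧
      ((1 : Fk k M), c * C.T.2) ∈ C.Bbar)
    (he' : ∃ c : Fk k M, IsIntegral (Algebra.adjoin k {C.Ti.2}) c ∧
      ((1 : Fk k M), c * C.Ti.2) ∈ C.swap.Bbar)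
    {p : ℕ} (hp : 2 ≤ p)
    (hN1 : ∀ g : C.B₂, ∃ g' : C.B₂, ((0 : C.B₁), g - g' ^ p) ∈ C.BbarT)
    {p₀ : ℕ} (hp₀ : 2 ≤ p₀)
    (hN1₀ : ∀ g : C.swap.B₂, ∃ g' : C.swap.B₂, ((0 : C.swap.B₁), g - g' ^ p₀) ∈ C.swap.BbarT)
    (δ b₂ : ℕ)
    (hdimS : ∀ b, b₂ ≤ b → finrank k (C.Pk 0 b) = finrank k (R.redLat (C.LN 0 b)) + δ)
    (hdimN : ∀ b, b₂ ≤ b → finrank k (C.Pk 0 b) ≤
      finrank k (R.redLat ((TwoCharts.ofDivisor Dt).LM Dw 0 b)) + δ)
    (hdimN' : ∀ b, b₂ ≤ b → finrank k (C.Pk 0 b) ≤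
      finrank k (R.redLat ((TwoCharts.ofDivisor Dt).LM (i' • Dw) 0 b)) + δ)
    -- (CONG): coefficientwise `Frob² z - z ^ (q²)` lies in the conductor, componentwise, both charts
    (hcong : ∀ z : C.B₁ × C.B₂,
      ((coeffRingAutC k M (frobSq k q) (z.1 : Fk k M) - (z.1 : Fk k M) ^ (q ^ 2), (0 : Fk k M)) :
        Fk k M × Fk k M) ∈ C.Bbar ∧
      (((0 : Fk k M), coeffRingAutC k M (frobSq k q) (z.2 : Fk k M) - (z.2 : Fk k M) ^ (q ^ 2)) :
        Fk k M × Fk k M) ∈ C.Bbar)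
    (hcong₀ : ∀ z : C.swap.B₁ × C.swap.B₂,
      ((coeffRingAutC k M (frobSq k q) (z.1 : Fk k M) - (z.1 : Fk k M) ^ (q ^ 2), (0 : Fk k M)) :
        Fk k M × Fk k M) ∈ C.swap.Bbar ∧
      (((0 : Fk k M), coeffRingAutC k M (frobSq k q) (z.2 : Fk k M) - (z.2 : Fk k M) ^ (q ^ 2)) :
        Fk k M × Fk k M) ∈ C.swap.Bbar) :
    ∃ (c : L) (v : FL L (M * q)),
      (arithmeticGalois (modularFunctionFieldFull (M * q)) φ •
          arithmeticGalois (modularFunctionFieldFull (M * q)) φ • w) / w ^ (q ^ 2) =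
        algebraMap L (FL L (M * q)) c * v ^ m := by
  haveI : CharZero L := algebraRat.charZero L
  haveI : Nontrivial (Fk k M × Fk k M) := inferInstance
  set g := arithmeticGalois (modularFunctionFieldFull (M * q)) φ with hg
  have hσt' : sigmaHom (M * q) (φ * φ) C.t = C.t := by
    rw [sigmaHom_mul_apply, ← hg, hσt, hσt]
  have hdiv : ∀ v : Place L (FL L (M * q)), (m : ℤ) ∣ v.ord (sigmaHom (M * q) (φ * φ) w) := by
    intro v
    rw [sigmaHom_mul_apply]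
    refine dvd_ord_smul _ (dvd_ord_smul _ (fun P => ?_)) v
    exact ⟨Dw P, (hDw P).symm⟩
  obtain ⟨c, v, hcv⟩ := SemilinearFinal.exists_const_mul_pow C ht hDt hcart hPfin b₀ hP hmA
    (semiDataFrobSq hB hπ hφ) hσt' hw0 hwO hwiO hw1 hDw hdiv hQ hL2 hL2' he he' hp hN1 hp₀ hN1₀
    δ b₂ hdimS hdimN hdimN' hcong hcong₀
  refine ⟨c, v, ?_⟩
  rw [← hcv, sigmaHom_mul_apply]

end Fermat.Agent.S35x.FrobSqPackaged
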