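/-
helper45 (P-S34 phase 2 = S35): the Frobenius twin of `S34x/Inst/TheoremBMq.exists_const_mul_pow`,
**Theorem B' at level `M q` for the square of a Frobenius lift** (`exists_const_mul_pow_frob` with
(CONG) as hypotheses for any chart `C` with `C.t = α t'`; `exists_const_mul_pow_chart_frob` for the
concrete chart `TheoremBMq.chart`, (CONG) discharged by helper13's `CongInst`).

For `φ` a Frobenius lift at `(A, q)`, `g := arithmeticGalois (modularFunctionFieldFull (M q)) φ`,
`q ∤ m`, and a normalised pair `(w, D)` (`w, w⁻¹ ∈ O_∞ ⊓ O_0`, both reductions `1`, `m D = div w`):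

  `(g • g • w) / w ^ (q ^ 2) = c v ^ m`

by ONE call of helper13's `FrobSqPackaged.exists_const_mul_pow_frobSq`, all phase-1 inputs taken
from `TheoremBMq` (same chart, generic in the integer series `x`), the counts from
`CountsInst.exists_counts_prod`, `hQ : m q² = q² + (m - 1) q²`.
-/
import Fermat.Agent.S34x.Inst.TheoremBMq
import Fermat.Agent.S35x.FrobSqPackaged
import Fermat.Agent.S35x.CongInst

set_option autoImplicit false
set_option linter.style.haveILetI false
set_option linter.unusedSectionVars false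
set_option synthInstance.maxHeartbeats 400000
set_option maxHeartbeats 1600000

noncomputable section

namespace Fermat.Agent.S35x.TheoremBMqFrob

open ModularCurve AlgebraicCurve IntermediateField IsLocalRing Module
open Fermat.Agent.Gateway.Hecke Fermat.Agent.Gateway.ESC Fermat.Agent.Gateway.ES
open Fermat.Agent.Gateway.Red Fermat.Agent.Gateway.GoodRed
open Fermat.Agent.Gateway.GoodRed.ConjFamily Fermat.Agent.Gateway.C0
open Fermat.Agent.S34x.TwoVal Fermat.Agent.S34x.C0two Fermat.Agent.S34x.Lattice2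
open Fermat.Agent.S34x.Inst Fermat.Agent.S34x.Inst.L2 Fermat.Agent.S34x.Inst.IsL2Inst
open Fermat.Agent.S34x.Inst.RedSetupInst Fermat.Agent.S34x.Inst.ElementYRed
open Fermat.Agent.S34x.Inst.ElementYInt Fermat.Agent.S34x.Inst.Charts
open Fermat.Agent.S34x.Inst.TheoremBMq Fermat.Agent.S35x.FrobSqInst

attribute [-instance] IsScalarTower.of_algHom

variable {L : Type} [Field L] [Algebra ℚ L] [IsAlgClosed L] [Algebra.IsAlgebraic ℚ L]
  {A : ValuationSubring L} {k : Type} [Field k] {π : A →+* k} [IsAlgClosed k]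
variable {M q : ℕ} [NeZero M] [NeZero q] [Fact q.Prime] [CharP k q] [PerfectRing k q]
variable {hdeg : finrankAlong L (heckeAlphaBar L M q) = q + 1} {hq : q.Prime} {hqM : ¬ q ∣ M}
variable {hrk : ∀ x ∈ maximalIdeal A, ∀ c : A, c ≠ 0 → ∃ j : ℕ, c ∣ x ^ j}
  {hπ : Function.Surjective π}
variable (H : ResidueFacts A π M q hdeg hq hqM hrk hπ) (hA : A.LiesOverPrime q)
  (x : LaurentSeries ℤ) (hx : coeffMap (Int.castRingHom L) x ∈ FBar L M)
  (Hx : GoodLevelFactsT A π M q hπ hqM (tInt M x hx))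
  (C : ChartCoord (redSetup2 H hA)) (hCt : C.t = tA M q x hx)

include Hx hCt hA in
/-- **Theorem B' at level `M q`** (square of a Frobenius lift), (CONG) as hypotheses. -/
theorem exists_const_mul_pow_frob (hxk : tbar k x ≠ 0) (hY : YFacts M q x hx)
    {m : ℕ} (hqm : ¬ q ∣ m)
    {φ : L ≃ₐ[ℚ] L} (hφ : A.IsFrobeniusAt φ q)
    (hcong : ∀ z : C.B₁ × C.B₂,
      ((coeffRingAutC k M (frobSq k q) (z.1 : Fk k M) - (z.1 : Fk k M) ^ (q ^ 2), (0 : Fk k M)) :
        Fk k M × Fk k M) ∈ C.Bbar ∧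
      (((0 : Fk k M), coeffRingAutC k M (frobSq k q) (z.2 : Fk k M) - (z.2 : Fk k M) ^ (q ^ 2)) :
        Fk k M × Fk k M) ∈ C.Bbar)
    (hcong₀ : ∀ z : C.swap.B₁ × C.swap.B₂,
      ((coeffRingAutC k M (frobSq k q) (z.1 : Fk k M) - (z.1 : Fk k M) ^ (q ^ 2), (0 : Fk k M)) :
        Fk k M × Fk k M) ∈ C.swap.Bbar ∧
      (((0 : Fk k M), coeffRingAutC k M (frobSq k q) (z.2 : Fk k M) - (z.2 : Fk k M) ^ (q ^ 2)) :
        Fk k M × Fk k M) ∈ C.swap.Bbar)
    {w : FL L (M * q)} (hw0 : w ≠ 0)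
    (hwO : w ∈ (twoVal (valInfty A π M q hrk hπ hqM) (valZero A π M q hdeg hq hqM hrk hπ)).O)
    (hwiO : w⁻¹ ∈ (twoVal (valInfty A π M q hrk hπ hqM) (valZero A π M q hdeg hq hqM hrk hπ)).O)
    (hw1 : (redSetup2 H hA).res ⟨w, hwO⟩ = 1)
    {D : Divisor L (FL L (M * q))}
    (hD : ∀ v : Place L (FL L (M * q)), (m : ℤ) * D v = v.ord w) :
    ∃ (c : L) (v : FL L (M * q)),
      (arithmeticGalois (modularFunctionFieldFull (M * q)) φ •
          arithmeticGalois (modularFunctionFieldFull (M * q)) φ • w) / w ^ (q ^ 2) =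
        algebraMap L (FL L (M * q)) c * v ^ m := by
  haveI : CharZero L := algebraRat.charZero L
  haveI := Hx.finite
  have hqpos : 0 < q := (Fact.out : q.Prime).pos
  have hq2 : 2 ≤ q ^ 2 := by
    have := (Fact.out : q.Prime).two_le
    nlinarith
  have hm0 : 0 < m := by
    rcases Nat.eq_zero_or_pos m with rfl | h0
    · exact absurd (dvd_zero q) hqm
    · exact h0
  have hB := BridgeInst.bridge H hA
  -- the `k`-side coordinate
  have hT1 := T_fst_eq H hA x hx Hx C hCt
  have hxtr : Transcendental k C.T.1 := by rw [hT1]; exact Hx.trans_res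
  haveI hxfin : FiniteDimensional k⟮C.T.1⟯ (Fk k M) := by rw [hT1]; exact Hx.finite_res
  haveI hxsep : Algebra.IsSeparable k⟮C.T.1⟯ (Fk k M) := by rw [hT1]; exact Hx.sep_res
  have hT := T_eq H hA x hx Hx C hCt
  -- the `L`-side coordinate
  have ht : Transcendental L C.t := by
    rw [hCt]; exact Charts.transcendental_tα L M q Hx.trans
  haveI htfin : FiniteDimensional L⟮C.t⟯ (FL L (M * q)) := by
    rw [hCt]; exact finiteDimensional_tA x hx Hx
  haveI htsep : Algebra.IsSeparable L⟮C.t⟯ (FL L (M * q)) :=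
    Charts.isSeparable_adjoin_of_charZero C.t
  -- (L2), cusp separation
  obtain ⟨hL2, hL2₀⟩ := BridgeInst.isL2_both H hA C Hx hCt hY.y3 hY.y3' x rfl
  have he := exists_he C x hx hB hCt hxk hY.y1 hY.y3'
  have he₀ := exists_he' C x hx hB hCt hxk hY.y2 hY.y3
  -- the chart function is Galois-fixed
  have hgt : arithmeticGalois (modularFunctionFieldFull (M * q)) φ • C.t = C.t := by
    rw [hCt]
    exact GaloisInst.gal_smul_alpha_eq_self_int M q φ (tInt M x hx) x rfl
  -- the `k`-side and the counts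
  have hPfin : ∀ b, Module.Finite k (C.Pk 0 b) := fun b =>
    CountsInst.finite_Pk hxtr hqpos C hT 0 b
  obtain ⟨b₀, hgen⟩ := exists_hgen_prod hxtr hqpos C hT
  have hcart : ∀ V : Submodule L (FL L (M * q)), FiniteDimensional L V →
      ((redSetup2 H hA).lat V).FG := fun V hV => cartesian H hA x hx Hx V hV
  obtain ⟨δ, -, b₂, hdimS, hdimN⟩ := CountsInst.exists_counts_prod hxtr hqpos C hT ht
    (Charts.divT_apply ht) (finrank_eq H hA x hx Hx C hCt)
    (fun E' _ b => hcart _ ((TwoCharts.ofDivisor (Charts.divT ht)).LM_finite ht E' 0 b))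
  have hD0 : Divisor.degree D = 0 := degree_eq_zero_of_ord ht hm0 hw0 hD
  have hQ : m * q ^ 2 = q ^ 2 + (m - 1) * q ^ 2 := by
    obtain ⟨m', rfl⟩ : ∃ m', m = m' + 1 := ⟨m - 1, by omega⟩
    rw [Nat.add_sub_cancel]
    ring
  exact FrobSqPackaged.exists_const_mul_pow_frobSq hB hπ hφ C hgt ht (Charts.divT_apply ht) hcart
    hPfin b₀ hgen (GaloisInst.isUnit_natCast A π hπ q hqm) hw0 hwO hwiO hw1 hD hQ hL2 hL2₀ he he₀
    hq2 (hN1 H hA x hx Hx C hCt hY) hq2 (hN1₀ H hA x hx Hx C hCt hY) δ b₂ hdimS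
    (hdimN D hD0) (hdimN (((m - 1) * q ^ 2) • D) (by rw [map_nsmul, hD0, smul_zero]))
    hcong hcong₀

include Hx hA in
/-- **Theorem B' at level `M q`, final form** (literal twin of
`TheoremBMq.exists_const_mul_pow_chart`): for the concrete chart, (CONG) discharged. -/
theorem exists_const_mul_pow_chart_frob (hxk : tbar k x ≠ 0) (hY : YFacts M q x hx)
    {m : ℕ} (hqm : ¬ q ∣ m)
    {φ : L ≃ₐ[ℚ] L} (hφ : A.IsFrobeniusAt φ q)
    {w : FL L (M * q)} (hw0 : w ≠ 0)
    (hwO : w ∈ (twoVal (valInfty A π M q hrk hπ hqM) (valZero A π M q hdeg hq hqM hrk hπ)).O)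
    (hwiO : w⁻¹ ∈ (twoVal (valInfty A π M q hrk hπ hqM) (valZero A π M q hdeg hq hqM hrk hπ)).O)
    (hw1 : (redSetup2 H hA).res ⟨w, hwO⟩ = 1)
    {D : Divisor L (FL L (M * q))}
    (hD : ∀ v : Place L (FL L (M * q)), (m : ℤ) * D v = v.ord w) :
    ∃ (c : L) (v : FL L (M * q)),
      (arithmeticGalois (modularFunctionFieldFull (M * q)) φ •
          arithmeticGalois (modularFunctionFieldFull (M * q)) φ • w) / w ^ (q ^ 2) =
        algebraMap L (FL L (M * q)) c * v ^ m := by
  have hB := BridgeInst.bridge H hA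
  have hCt := chart_t H hA x hx Hx
  have hT1 := T_fst_eq H hA x hx Hx (chart H hA x hx Hx) hCt
  have hT2 : (chart H hA x hx Hx).T.2 = (resFk A π M q hπ hqM ⟨tInt M x hx, Hx.mem⟩) ^ q := by
    rw [BridgeInst.T_snd_eq_pow H hA _ hCt x rfl, hT1]
  have hfix := frobInvLS_resFk x hx Hx
  exact exists_const_mul_pow_frob H hA x hx Hx (chart H hA x hx Hx) hCt hxk hY hqm hφ
    (CongInst.cong A π M q hdeg hq hπ hqM hB _ (tInt M x hx) _ hCt hT1 hT2
      (liftsIntegral_of_facts A π M q hπ hqM hA Hx) hY.y3 hfix)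
    (CongInst.cong_swap A π M q hdeg hq hπ hqM hB _ (tInt M x hx) _ hCt hT1 hT2
      (liftsIntegral_inv_of_facts A π M q hπ hqM hA Hx) hY.y3' hfix)
    hw0 hwO hwiO hw1 hD

end Fermat.Agent.S35x.TheoremBMqFrob
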