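/-
P-S34 phase 2 (S35), helper73: the top of the phase-2 chain.

`TorsionSteinberg N q` for EVERY level `N`, `q ∤ N` prime, from
* `KummerNewAtAllLevels` (G2): at every level `N q` the class `(φ² - 1) x` of a `q`-new torsion
  point has a Kummer representative with nonzero constant reductions at both cusps
  (`LevelGlueSS.CondSS`);
* `FrobSqAtGoodLevels` (G3): the Frobenius-square Kummer statement at the good levels `M₀ q`
  (`4 ∣ M₀` for odd `q`, `9 ∣ M₀` for `q = 2`) for functions satisfying `CondSS`.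

Glue: `LevelGlueFrob.frobSqAt_of_level` with `CondSS.inclusion` (descent from `lcm N 4` resp.
`lcm N 9` to `N`) and `TorsionSteinberg.torsionSteinberg_of`.
-/
import Fermat.Agent.S35x.TorsionSteinberg
import Fermat.Agent.S35x.LevelGlueFrob
import Fermat.Agent.S34x.LevelGlueSS
import Fermat.Agent.Gateway.Descent.HeckeSq

set_option autoImplicit false
set_option linter.unusedSectionVars false
set_option linter.style.haveILetI false

noncomputable section

namespace Fermat.Agent.S35x.TorsionSteinbergFinal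

open ModularCurve AlgebraicCurve
open Fermat.Agent.Gateway.Descent Fermat.Agent.Gateway.Kummer Fermat.Agent.Gateway.Hecke
open Fermat.Agent.Gateway.ESC
open Fermat.Agent.S34x.LevelGlueSS Fermat.Agent.S35x.LevelGlueFrob
open Fermat.Agent.S35x.TorsionSteinberg

local notation "Qb" => AlgebraicClosure ℚ

/-- `[F_{N q} : α F_N] = q + 1` over `ℚ̄`. -/
theorem hdeg_qbar (N q : ℕ) [NeZero N] [NeZero q] (hq : q.Prime) (hqN : ¬ q ∣ N) :
    finrankAlong Qb (heckeAlphaBar Qb N q) = q + 1 :=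
  HeckeSq.finrank_mul_prime N q hq hqN

/-- **(G3) descends from the good level** `M q`, `M = lcm N 4` or `lcm N 9`, to level `N q`
(Frobenius twin of `LevelGlueSS.inertiaTrivialAt_condSS_of_level`). -/
theorem frobSqAt_condSS_of_level {N M q : ℕ} [NeZero N] [NeZero M] [NeZero q]
    (hM : M = Nat.lcm N 4 ∨ M = Nat.lcm N 9) (hq : q.Prime) (hqN : ¬ q ∣ N) (hqM : ¬ q ∣ M)
    (hdegN : finrankAlong Qb (heckeAlphaBar Qb N q) = q + 1)
    (hdegM : finrankAlong Qb (heckeAlphaBar Qb M q) = q + 1)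
    (A : ValuationSubring Qb) {m : ℕ} (hm : 0 < m)
    (h : FrobSqAt (M * q) q A m (CondSS M q hdegM hq hqM A)) :
    FrobSqAt (N * q) q A m (CondSS N q hdegN hq hqN A) := by
  refine frobSqAt_of_level (mul_eq_lcm_or hq hqM hM) q A hm (fun w hw => ?_) h
  exact hw.inclusion hdegN hq hqN A (dvd_of_eq_lcm_or hM) hdegM hqM

/-- **(G2) at all levels.** -/
def KummerNewAtAllLevels : Prop :=
  ∀ (N q m : ℕ) [NeZero N] [NeZero q], 0 < m → ∀ (hq : q.Prime), ¬ q ∣ m → ∀ (hqN : ¬ q ∣ N)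
    (hdeg : finrankAlong Qb (heckeAlphaBar Qb N q) = q + 1)
    (A : ValuationSubring Qb), A.LiesOverPrime q →
      KummerNewAt N q A m (CondSS N q hdeg hq hqN A)

/-- **(G3) at the good levels** `M₀ q`, `q ∤ M₀`, `4 ∣ M₀` for odd `q`, `9 ∣ M₀` for `q = 2`
(same shape as `S34x/Target.KummerSemistableAtGoodLevels`). -/
def FrobSqAtGoodLevels : Prop :=
  ∀ (M₀ q m : ℕ) [NeZero M₀] [NeZero q], 0 < m → ∀ (hq : q.Prime), ¬ q ∣ m →
    ∀ (hqM : ¬ q ∣ M₀), ((q ≠ 2 ∧ 4 ∣ M₀) ∨ (q = 2 ∧ 9 ∣ M₀)) →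
    ∀ (hdeg : finrankAlong Qb (heckeAlphaBar Qb M₀ q) = q + 1)
    (A : ValuationSubring Qb), A.LiesOverPrime q →
      FrobSqAt (M₀ * q) q A m (CondSS M₀ q hdeg hq hqM A)

theorem not_dvd_lcm {N q r : ℕ} (hq : q.Prime) (hqN : ¬ q ∣ N) (hqr : ¬ q ∣ r) :
    ¬ q ∣ Nat.lcm N r := by
  intro h
  rcases (Nat.Prime.dvd_mul hq).mp (h.trans (Nat.lcm_dvd_mul N r)) with h' | h'
  · exact hqN h'
  · exact hqr h'

/-- (G3) at every level from (G3) at the good levels. -/
theorem frobSqAt_of_goodLevels (h3 : FrobSqAtGoodLevels) (N q : ℕ) [NeZero N] [NeZero q]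
    (hq : q.Prime) (hqN : ¬ q ∣ N) (hdeg : finrankAlong Qb (heckeAlphaBar Qb N q) = q + 1)
    {m : ℕ} (hm : 0 < m) (hqm : ¬ q ∣ m) (A : ValuationSubring Qb) (hA : A.LiesOverPrime q) :
    FrobSqAt (N * q) q A m (CondSS N q hdeg hq hqN A) := by
  by_cases h2 : q = 2
  · have hq9 : ¬ q ∣ 9 := by
      rw [h2]
      decide
    have hqM : ¬ q ∣ Nat.lcm N 9 := not_dvd_lcm hq hqN hq9
    haveI : NeZero (Nat.lcm N 9) := ⟨Nat.lcm_ne_zero (NeZero.ne N) (by norm_num)⟩
    have hdegM := hdeg_qbar (Nat.lcm N 9) q hq hqM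
    exact frobSqAt_condSS_of_level (Or.inr rfl) hq hqN hqM hdeg hdegM A hm
      (h3 (Nat.lcm N 9) q m hm hq hqm hqM (Or.inr ⟨h2, Nat.dvd_lcm_right N 9⟩) hdegM A hA)
  · have hq4 : ¬ q ∣ 4 := by
      intro h
      have h' : q ∣ 2 ^ 2 := by simpa using h
      exact h2 ((Nat.prime_dvd_prime_iff_eq hq Nat.prime_two).mp (hq.dvd_of_dvd_pow h'))
    have hqM : ¬ q ∣ Nat.lcm N 4 := not_dvd_lcm hq hqN hq4
    haveI : NeZero (Nat.lcm N 4) := ⟨Nat.lcm_ne_zero (NeZero.ne N) (by norm_num)⟩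
    have hdegM := hdeg_qbar (Nat.lcm N 4) q hq hqM
    exact frobSqAt_condSS_of_level (Or.inl rfl) hq hqN hqM hdeg hdegM A hm
      (h3 (Nat.lcm N 4) q m hm hq hqm hqM (Or.inl ⟨h2, Nat.dvd_lcm_right N 4⟩) hdegM A hA)

/-- **`TorsionSteinberg N q` at every level** from (G2) at all levels and (G3) at the good
levels: the single input of `S35x/Final.s35_of_torsionSteinberg`. -/
theorem torsionSteinberg_of_goodLevels (h2 : KummerNewAtAllLevels) (h3 : FrobSqAtGoodLevels)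
    (N q : ℕ) [NeZero N] [NeZero q] (hq : q.Prime) (hqN : ¬ q ∣ N) : TorsionSteinberg N q := by
  have hdeg := hdeg_qbar N q hq hqN
  have hpos : ∀ m : ℕ, ¬ q ∣ m → 0 < m := by
    intro m hqm
    rcases Nat.eq_zero_or_pos m with rfl | h0
    · exact absurd (dvd_zero q) hqm
    · exact h0
  exact torsionSteinberg_of (fun _ A => CondSS N q hdeg hq hqN A)
    (fun m hqm A hA => h2 N q m (hpos m hqm) hq hqm hqN hdeg A hA)
    (fun m hqm A hA => frobSqAt_of_goodLevels h3 N q hq hqN hdeg (hpos m hqm) hqm A hA)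

end Fermat.Agent.S35x.TorsionSteinbergFinal
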