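/-
helper45 (P-S34 phase 2 = S35, BACKUP of (F3)): **the Frobenius-square Kummer statement at the good
levels**, `TorsionSteinbergFinal.FrobSqAtGoodLevels`, unconditionally.

Literal twin of `S34x/Inst/TheoremBHaupt` + `S34x/Inst/FinalMq`:
`FrobSteps.frobSqAt_of_steps` with
* `Cond := LevelGlueSS.CondSS M₀ q hdeg hq hqM A`,
  `Red1 := StepsAbs.OneRed (redSetupInfty H hA) (redSetupZero H hA) rfl`,
* (N) `FrobNormStep.hN_condSS` (helper44),
* (B') `TheoremBMqFrob.exists_const_mul_pow_chart_frob` with the integer series `x₄` (`q` odd,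
  `4 ∣ M₀`) resp. `z₉` (`q = 2`, `9 ∣ M₀`), the divisor from `FinalBase.exists_divisor_of_dvd_ord`.
-/
import Fermat.Agent.S35x.TheoremBMqFrob
import Fermat.Agent.S35x.FrobSteps
import Fermat.Agent.S35x.FrobNormStep
import Fermat.Agent.S35x.TorsionSteinbergFinal
import Fermat.Agent.S34x.Inst.TheoremBHaupt
import Fermat.Agent.S34x.Inst.FinalBase
import Fermat.Agent.S34x.TwoVal.ResidueInst

set_option autoImplicit false
set_option linter.style.haveILetI false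
set_option linter.unusedSectionVars false

noncomputable section

namespace Fermat.Agent.S35x.FinalMqFrobAlt

open ModularCurve AlgebraicCurve IntermediateField IsLocalRing Module
open Fermat.Agent.Gateway.Hecke Fermat.Agent.Gateway.ESC Fermat.Agent.Gateway.Kummer
open Fermat.Agent.Gateway.Red Fermat.Agent.Gateway.GoodRed Fermat.Agent.Gateway.AuxLevel
open Fermat.Agent.Gateway.GoodRed.ConjFamily Fermat.Agent.S24.Setup
open Fermat.Agent.S34x Fermat.Agent.S34x.Inst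
open Fermat.Agent.S34x.TwoVal Fermat.Agent.S34x.C0two Fermat.Agent.S34x.Lattice2
open Fermat.Agent.S34x.Inst.L2 Fermat.Agent.S34x.Inst.IsL2Inst
open Fermat.Agent.S34x.Inst.RedSetupInst Fermat.Agent.S34x.Inst.ElementYRed
open Fermat.Agent.S34x.Inst.ElementYInt Fermat.Agent.S34x.Inst.ElementYInt9
open Fermat.Agent.S34x.Inst.TheoremBMq
open Fermat.Agent.S35x.LevelGlueFrob Fermat.Agent.S35x.TorsionSteinbergFinal

attribute [-instance] IsScalarTower.of_algHom

variable {A : ValuationSubring Kbar} {k : Type} [Field k] {π : A →+* k} [IsAlgClosed k]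
variable {M : ℕ} [NeZero M]

section Four

variable {q : ℕ} [NeZero q] [Fact q.Prime] [CharP k q] [PerfectRing k q]
variable {hdeg : finrankAlong Kbar (heckeAlphaBar Kbar M q) = q + 1} {hq : q.Prime}
  {hqM : ¬ q ∣ M}
variable {hrk : ∀ x ∈ maximalIdeal A, ∀ c : A, c ≠ 0 → ∃ j : ℕ, c ∣ x ^ j}
  {hπ : Function.Surjective π}

/-- **Theorem B' (Frobenius square) at level `M q`, `4 ∣ M`, `q` odd.** -/
theorem exists_const_mul_pow_frob_x4 (h4 : 4 ∣ M) (hq2 : q ≠ 2)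
    (H : ResidueFacts A π M q hdeg hq hqM hrk hπ) (hA : A.LiesOverPrime q)
    {m : ℕ} (hqm : ¬ q ∣ m)
    {φ : Kbar ≃ₐ[ℚ] Kbar} (hφ : A.IsFrobeniusAt φ q)
    {w : FL Kbar (M * q)} (hw0 : w ≠ 0)
    (hwO : w ∈ (twoVal (valInfty A π M q hrk hπ hqM) (valZero A π M q hdeg hq hqM hrk hπ)).O)
    (hwiO : w⁻¹ ∈ (twoVal (valInfty A π M q hrk hπ hqM) (valZero A π M q hdeg hq hqM hrk hπ)).O)
    (hw1 : (redSetup2 H hA).res ⟨w, hwO⟩ = 1)
    {D : Divisor Kbar (FL Kbar (M * q))}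
    (hD : ∀ v : Place Kbar (FL Kbar (M * q)), (m : ℤ) * D v = v.ord w) :
    ∃ (c : Kbar) (v : FL Kbar (M * q)),
      (arithmeticGalois (modularFunctionFieldFull (M * q)) φ •
          arithmeticGalois (modularFunctionFieldFull (M * q)) φ • w) / w ^ (q ^ 2) =
        algebraMap Kbar (FL Kbar (M * q)) c * v ^ m := by
  haveI : Algebra.IsAlgebraic ℚ Kbar := AlgebraicClosure.isAlgebraic ℚ
  have hx : coeffMap (Int.castRingHom Kbar) L4.x4 ∈ FBar Kbar M := x4_mem_FBar M h4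
  have Hx : GoodLevelFactsT A π M q hπ hqM (tInt M L4.x4 hx) :=
    LevelFactsTHaupt.l2Facts_x4 A π M q hπ hqM h4
  have hY : YFacts M q L4.x4 hx :=
    ⟨isIntegral_elY_x4 hx h4 hq hq2, isIntegral_elY_inv_x4 hx h4 hq hq2,
      isIntegral_tB_x4 hx h4 hq hq2, isIntegral_tB_inv_x4 hx h4 hq hq2⟩
  exact TheoremBMqFrob.exists_const_mul_pow_chart_frob H hA L4.x4 hx Hx (L4.x4k_ne_zero k) hY hqm
    hφ hw0 hwO hwiO hw1 hD

end Four

section Nine

variable [CharP k 2] [PerfectRing k 2]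
variable {hdeg : finrankAlong Kbar (heckeAlphaBar Kbar M 2) = 2 + 1} {hq : Nat.Prime 2}
  {hqM : ¬ 2 ∣ M}
variable {hrk : ∀ x ∈ maximalIdeal A, ∀ c : A, c ≠ 0 → ∃ j : ℕ, c ∣ x ^ j}
  {hπ : Function.Surjective π}

/-- **Theorem B' (Frobenius square) at level `M 2`, `9 ∣ M`.** -/
theorem exists_const_mul_pow_frob_z9 (h9 : 9 ∣ M)
    (H : ResidueFacts A π M 2 hdeg hq hqM hrk hπ) (hA : A.LiesOverPrime 2)
    {m : ℕ} (hqm : ¬ 2 ∣ m)
    {φ : Kbar ≃ₐ[ℚ] Kbar} (hφ : A.IsFrobeniusAt φ 2)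
    {w : FL Kbar (M * 2)} (hw0 : w ≠ 0)
    (hwO : w ∈ (twoVal (valInfty A π M 2 hrk hπ hqM) (valZero A π M 2 hdeg hq hqM hrk hπ)).O)
    (hwiO : w⁻¹ ∈ (twoVal (valInfty A π M 2 hrk hπ hqM) (valZero A π M 2 hdeg hq hqM hrk hπ)).O)
    (hw1 : (redSetup2 H hA).res ⟨w, hwO⟩ = 1)
    {D : Divisor Kbar (FL Kbar (M * 2))}
    (hD : ∀ v : Place Kbar (FL Kbar (M * 2)), (m : ℤ) * D v = v.ord w) :
    ∃ (c : Kbar) (v : FL Kbar (M * 2)),
      (arithmeticGalois (modularFunctionFieldFull (M * 2)) φ •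
          arithmeticGalois (modularFunctionFieldFull (M * 2)) φ • w) / w ^ (2 ^ 2) =
        algebraMap Kbar (FL Kbar (M * 2)) c * v ^ m := by
  haveI : Algebra.IsAlgebraic ℚ Kbar := AlgebraicClosure.isAlgebraic ℚ
  have hx : coeffMap (Int.castRingHom Kbar) L9.z9 ∈ FBar Kbar M := z9_mem_FBar h9
  have Hx : GoodLevelFactsT A π M 2 hπ hqM (tInt M L9.z9 hx) := by
    have h := LevelFactsTHaupt.l2Facts_z9 A π M 2 hπ hqM h9
    rw [← HauptRed.z9F_eq] at h
    exact h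
  have hY : YFacts M 2 L9.z9 hx :=
    ⟨isIntegral_elY_z9 hx h9, isIntegral_elY_inv_z9 hx h9, isIntegral_tB_z9 hx h9,
      isIntegral_tB_inv_z9 hx h9⟩
  exact TheoremBMqFrob.exists_const_mul_pow_chart_frob H hA L9.z9 hx Hx (L9.z9k_ne_zero k) hY hqm
    hφ hw0 hwO hwiO hw1 hD

end Nine

local notation "Qb" => AlgebraicClosure ℚ

/-- **The Frobenius-square Kummer statement at a good level `M₀ q`.** -/
theorem frobSqAt_good (M₀ q m : ℕ) [NeZero M₀] [NeZero q] (hm : 0 < m) (hq : q.Prime)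
    (hqm : ¬ q ∣ m) (hqM : ¬ q ∣ M₀) (hgood : (q ≠ 2 ∧ 4 ∣ M₀) ∨ (q = 2 ∧ 9 ∣ M₀))
    (hdeg : finrankAlong Qb (heckeAlphaBar Qb M₀ q) = q + 1)
    (A : ValuationSubring Qb) (hA : A.LiesOverPrime q) :
    FrobSqAt (M₀ * q) q A m (LevelGlueSS.CondSS M₀ q hdeg hq hqM A) := by
  haveI : Algebra.IsAlgebraic ℚ Qb := AlgebraicClosure.isAlgebraic ℚ
  haveI : Fact q.Prime := ⟨hq⟩
  haveI : IsAlgClosed (ResidueField A) := FinalBase.isAlgClosed_residueField A
  haveI : CharP (ResidueField A) q := FinalBase.charP_residueField A hA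
  haveI : PerfectRing (ResidueField A) q := inferInstance
  have hπ : Function.Surjective (residue A) := FinalBase.residue_surjective A
  have hrk := FinalBase.rank_one A hq hA
  have H : ResidueFacts A (residue A) M₀ q hdeg hq hqM hrk hπ :=
    ResidueInst.residueFacts A (residue A) M₀ q hdeg hq hqM hrk hπ
  refine FrobSteps.frobSqAt_of_steps (LevelGlueSS.CondSS M₀ q hdeg hq hqM A)
    (StepsAbs.OneRed (redSetupInfty H hA) (redSetupZero H hA) rfl)
    (FrobNormStep.hN_condSS H hA hm) ?_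
  rintro φ hφ w hw0 hdiv ⟨hwO, hwiO, hw1⟩
  obtain ⟨D, hD⟩ := FinalBase.exists_divisor_of_dvd_ord hdiv hw0 hm
  rcases hgood with ⟨hq2, h4⟩ | ⟨hq2, h9⟩
  · exact exists_const_mul_pow_frob_x4 h4 hq2 H hA hqm hφ hw0 hwO hwiO hw1 hD
  · subst hq2
    exact exists_const_mul_pow_frob_z9 h9 H hA hqm hφ hw0 hwO hwiO hw1 hD

/-- **The single remaining input of S35 clause 2 is a theorem.** -/
theorem frobSqAtGoodLevels : FrobSqAtGoodLevels :=
  fun M₀ q m _ _ hm hq hqm hqM hgood hdeg A hA =>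
    frobSqAt_good M₀ q m hm hq hqm hqM hgood hdeg A hA

end Fermat.Agent.S35x.FinalMqFrobAlt
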