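import Fermat.Agent.S35x.KummerNewFinal
import Fermat.Agent.S35x.TorsionSteinbergFinal

/-!
# P-S34 phase 2 (S35), (F4): (G2) at all levels

`kummerNewAtAllLevels : TorsionSteinbergFinal.KummerNewAtAllLevels`, unconditional, and the
resulting reduction of the Steinberg relation at every level to (G3) at the good levels:
`torsionSteinberg_of_frobSqAtGoodLevels`.
-/

set_option autoImplicit false

noncomputable section

namespace Fermat.Agent.S35x.KummerNewAll

open Fermat.Agent.S35x.TorsionSteinberg Fermat.Agent.S35x.TorsionSteinbergFinal

/-- **(F4)** (G2) holds at all levels. -/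
theorem kummerNewAtAllLevels : KummerNewAtAllLevels := by
  intro N q m _ _ hm hq _ hqN hdeg A hA
  exact Fermat.Agent.S35x.KummerNewFinal.kummerNewAt_condSS_uncond hq hqN hdeg A hA hm

/-- The Steinberg relation (E9) at every level `N q`, `q ∤ N` prime, from (G3) at the good
levels: the only open input of S35 clause 2. -/
theorem torsionSteinberg_of_frobSqAtGoodLevels (h3 : FrobSqAtGoodLevels) (N q : ℕ) [NeZero N]
    [NeZero q] (hq : q.Prime) (hqN : ¬ q ∣ N) : TorsionSteinberg N q :=
  torsionSteinberg_of_goodLevels kummerNewAtAllLevels h3 N q hq hqN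

end Fermat.Agent.S35x.KummerNewAll
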