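/-
P-S34 phase 2 (S35 clause 2), helper73: reduction through an embedding, as a relation.

`L` a field, `A` a valuation subring of `L`, `π : A →+* k`.  For a ring homomorphism
`e : R →+* L((t))` (an "expansion"), `GRed A π e x x̄` says that `e x` lies in the Gauss ring
`gaussRing A π` of `L((t))` and reduces to `x̄ ∈ k((t))`.  Since `gaussRed` is a ring homomorphism
the relation is compatible with `+`, `*`, and (for a field `R`) with inverses of elements with
nonzero reduction; it is functional (`GRed.unique`).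

Further:
* constants (`GRed.of_const`): if `e c = C c'` reduces to `s̄ ≠ 0` then `c'` is a unit of `A` and
  `s̄ = C (π c')`;
* coefficientwise automorphisms (`GRed.map`): if `e (g x) = coeffMap τ (e x)` for a ring
  endomorphism `τ` of `L` preserving `A` and inducing `τb` on `k`, then `g x` reduces to
  `coeffMap τb x̄`;
* `t ↦ t^n` (`GRed.qExpand`).
-/
import Fermat.Agent.Gateway.GoodRed.GaussRing
import Fermat.Agent.Gateway.Kummer.RedRel

set_option autoImplicit false
set_option linter.unusedSectionVars false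

noncomputable section

namespace Fermat.Agent.S35x.GRedNS

open ModularCurve HahnSeries
open Fermat.Agent.Gateway.Red Fermat.Agent.Gateway.GoodRed Fermat.Agent.Gateway.GoodRed.GaussRing

section GaussRingMap

variable {L : Type*} [Field L] (A : ValuationSubring L) {k : Type*} [Field k] (π : A →+* k)

/-- coefficientwise ring endomorphisms preserving `A` preserve the Gauss ring -/
theorem coeffMap_mem_gaussRing (τ : L →+* L) (τA : A →+* A) (τb : k →+* k)
    (hτA : ∀ a : A, ((τA a : A) : L) = τ (a : L)) (hτb : ∀ a : A, π (τA a) = τb (π a))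
    {y : LaurentSeries L} (hy : y ∈ gaussRing A π) : coeffMap τ y ∈ gaussRing A π := by
  obtain ⟨a, b, hb, h⟩ := hy
  have hsub : ∀ z : LaurentSeries A, embA A (coeffMap τA z) = coeffMap τ (embA A z) := by
    intro z
    ext n
    simp only [embA_coeff, coeffMap_coeff]
    exact hτA _
  have hpi : ∀ z : LaurentSeries A, redA A π (coeffMap τA z) = coeffMap τb (redA A π z) := by
    intro z
    ext n
    simp only [redA_coeff, coeffMap_coeff]
    exact hτb _
  refine ⟨coeffMap τA a, coeffMap τA b, ?_, ?_⟩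
  · rw [hpi]
    exact Fermat.Agent.Gateway.Kummer.coeffMap_ne_zero τb.injective hb
  · rw [hsub, hsub, ← map_mul, h]

/-- and the reduction is compatible -/
theorem gaussRed_coeffMap (τ : L →+* L) (τA : A →+* A) (τb : k →+* k)
    (hτA : ∀ a : A, ((τA a : A) : L) = τ (a : L)) (hτb : ∀ a : A, π (τA a) = τb (π a))
    {y : LaurentSeries L} (hy : y ∈ gaussRing A π) :
    gaussRed A π ⟨coeffMap τ y, coeffMap_mem_gaussRing A π τ τA τb hτA hτb hy⟩ =
      coeffMap τb (gaussRed A π ⟨y, hy⟩) := by
  obtain ⟨a, b, hb, h⟩ := hy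
  have hsub : ∀ z : LaurentSeries A, embA A (coeffMap τA z) = coeffMap τ (embA A z) := by
    intro z
    ext n
    simp only [embA_coeff, coeffMap_coeff]
    exact hτA _
  have hpi : ∀ z : LaurentSeries A, redA A π (coeffMap τA z) = coeffMap τb (redA A π z) := by
    intro z
    ext n
    simp only [redA_coeff, coeffMap_coeff]
    exact hτb _
  have hb' : redA A π (coeffMap τA b) ≠ 0 := by
    rw [hpi]
    exact Fermat.Agent.Gateway.Kummer.coeffMap_ne_zero τb.injective hb
  have h' : coeffMap τ y * embA A (coeffMap τA b) = embA A (coeffMap τA a) := by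
    rw [hsub, hsub, ← map_mul, h]
  rw [gaussRed_eq_div A π ⟨coeffMap τ y, _⟩ hb' h', gaussRed_eq_div A π ⟨y, _⟩ hb h, hpi, hpi,
    map_div₀]

end GaussRingMap

section Rel

variable {L : Type*} [Field L] (A : ValuationSubring L) {k : Type*} [Field k] (π : A →+* k)
variable {R : Type*} [CommRing R] (e : R →+* LaurentSeries L)

/-- `e x` lies in the Gauss ring and reduces to `x̄` -/
def GRed (x : R) (xb : LaurentSeries k) : Prop :=
  ∃ h : e x ∈ gaussRing A π, gaussRed A π ⟨e x, h⟩ = xb

variable {A π e}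

theorem GRed.mem {x : R} {xb : LaurentSeries k} (h : GRed A π e x xb) : e x ∈ gaussRing A π :=
  h.1

theorem GRed.unique {x : R} {xb xb' : LaurentSeries k} (h : GRed A π e x xb)
    (h' : GRed A π e x xb') : xb = xb' := by
  obtain ⟨h1, rfl⟩ := h
  obtain ⟨h2, rfl⟩ := h'
  rfl

theorem gRed_of_mem {x : R} (h : e x ∈ gaussRing A π) : GRed A π e x (gaussRed A π ⟨e x, h⟩) :=
  ⟨h, rfl⟩

theorem gRed_zero : GRed A π e 0 0 := by
  have h : e 0 ∈ gaussRing A π := by rw [map_zero]; exact (gaussRing A π).zero_mem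
  refine ⟨h, ?_⟩
  have : (⟨e 0, h⟩ : gaussRing A π) = 0 := Subtype.ext (map_zero e)
  rw [this, map_zero]

theorem gRed_one : GRed A π e 1 1 := by
  have h : e 1 ∈ gaussRing A π := by rw [map_one]; exact (gaussRing A π).one_mem
  refine ⟨h, ?_⟩
  have : (⟨e 1, h⟩ : gaussRing A π) = 1 := Subtype.ext (map_one e)
  rw [this, map_one]

theorem GRed.add {x y : R} {xb yb : LaurentSeries k} (hx : GRed A π e x xb)
    (hy : GRed A π e y yb) : GRed A π e (x + y) (xb + yb) := by
  obtain ⟨h1, rfl⟩ := hx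
  obtain ⟨h2, rfl⟩ := hy
  have h : e (x + y) ∈ gaussRing A π := by rw [map_add]; exact (gaussRing A π).add_mem h1 h2
  refine ⟨h, ?_⟩
  have : (⟨e (x + y), h⟩ : gaussRing A π) = ⟨e x, h1⟩ + ⟨e y, h2⟩ := Subtype.ext (map_add e x y)
  rw [this, map_add]

theorem GRed.mul {x y : R} {xb yb : LaurentSeries k} (hx : GRed A π e x xb)
    (hy : GRed A π e y yb) : GRed A π e (x * y) (xb * yb) := by
  obtain ⟨h1, rfl⟩ := hx
  obtain ⟨h2, rfl⟩ := hy
  have h : e (x * y) ∈ gaussRing A π := by rw [map_mul]; exact (gaussRing A π).mul_mem h1 h2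
  refine ⟨h, ?_⟩
  have : (⟨e (x * y), h⟩ : gaussRing A π) = ⟨e x, h1⟩ * ⟨e y, h2⟩ := Subtype.ext (map_mul e x y)
  rw [this, map_mul]

theorem GRed.neg {x : R} {xb : LaurentSeries k} (hx : GRed A π e x xb) :
    GRed A π e (-x) (-xb) := by
  obtain ⟨h1, rfl⟩ := hx
  have h : e (-x) ∈ gaussRing A π := by rw [map_neg]; exact (gaussRing A π).neg_mem h1
  refine ⟨h, ?_⟩
  have : (⟨e (-x), h⟩ : gaussRing A π) = -⟨e x, h1⟩ := Subtype.ext (map_neg e x)
  rw [this, map_neg]

theorem GRed.sub {x y : R} {xb yb : LaurentSeries k} (hx : GRed A π e x xb)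
    (hy : GRed A π e y yb) : GRed A π e (x - y) (xb - yb) := by
  rw [sub_eq_add_neg, sub_eq_add_neg]
  exact hx.add hy.neg

theorem GRed.pow {x : R} {xb : LaurentSeries k} (hx : GRed A π e x xb) (n : ℕ) :
    GRed A π e (x ^ n) (xb ^ n) := by
  induction n with
  | zero => simpa using gRed_one
  | succ n ih => rw [pow_succ, pow_succ]; exact ih.mul hx

theorem GRed.congr {x y : R} {xb yb : LaurentSeries k} (hx : GRed A π e x xb) (hxy : x = y)
    (hb : xb = yb) : GRed A π e y yb := by
  subst hxy hb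
  exact hx

/-- transport along another expansion with the same values -/
theorem GRed.of_eq {R' : Type*} [CommRing R'] {e' : R' →+* LaurentSeries L} {x : R} {x' : R'}
    {xb : LaurentSeries k} (hx : GRed A π e x xb) (h : e' x' = e x) : GRed A π e' x' xb := by
  obtain ⟨h1, rfl⟩ := hx
  have h2 : e' x' ∈ gaussRing A π := by rw [h]; exact h1
  refine ⟨h2, ?_⟩
  congr 1
  exact Subtype.ext h

/-- `t ↦ t^n` -/
theorem GRed.qExpand {x y : R} {xb : LaurentSeries k} (n : ℕ) [NeZero n]
    (hx : GRed A π e x xb) (hy : e y = qExpand L n (e x)) :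
    GRed A π e y (qExpand k n xb) := by
  obtain ⟨h1, rfl⟩ := hx
  have h2 : e y ∈ gaussRing A π := by
    rw [hy]; exact GaussRing.qExpand_mem_gaussRing A π n h1
  refine ⟨h2, ?_⟩
  rw [← GaussRing.gaussRed_qExpand A π n h1]
  congr 1
  exact Subtype.ext hy

/-- coefficientwise semilinear maps -/
theorem GRed.map {x y : R} {xb : LaurentSeries k} (hx : GRed A π e x xb)
    (τ : L →+* L) (τA : A →+* A) (τb : k →+* k)
    (hτA : ∀ a : A, ((τA a : A) : L) = τ (a : L)) (hτb : ∀ a : A, π (τA a) = τb (π a))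
    (hy : e y = coeffMap τ (e x)) : GRed A π e y (coeffMap τb xb) := by
  obtain ⟨h1, rfl⟩ := hx
  have h2 : e y ∈ gaussRing A π := by
    rw [hy]; exact coeffMap_mem_gaussRing A π τ τA τb hτA hτb h1
  refine ⟨h2, ?_⟩
  rw [← gaussRed_coeffMap A π τ τA τb hτA hτb h1]
  congr 1
  exact Subtype.ext hy

end Rel

section Field

variable {L : Type*} [Field L] {A : ValuationSubring L} {k : Type*} [Field k] {π : A →+* k}
variable {R : Type*} [Field R] {e : R →+* LaurentSeries L}

theorem GRed.ne_zero {x : R} {xb : LaurentSeries k} (hx : GRed A π e x xb) (hb : xb ≠ 0) :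
    x ≠ 0 := by
  rintro rfl
  exact hb (hx.unique gRed_zero)

theorem GRed.inv {x : R} {xb : LaurentSeries k} (hx : GRed A π e x xb) (hb : xb ≠ 0) :
    GRed A π e x⁻¹ xb⁻¹ := by
  have hx0 : x ≠ 0 := hx.ne_zero hb
  obtain ⟨h1, rfl⟩ := hx
  have h2 : (e x)⁻¹ ∈ gaussRing A π := inv_mem_gaussRing A π h1 hb
  have h3 : e x⁻¹ ∈ gaussRing A π := by rw [map_inv₀]; exact h2
  refine ⟨h3, ?_⟩
  have hex0 : e x ≠ 0 := (map_ne_zero e).mpr hx0
  rw [← gaussRed_inv A π h1 h2 hex0]
  congr 1
  exact Subtype.ext (map_inv₀ e x)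

theorem GRed.div {x y : R} {xb yb : LaurentSeries k} (hx : GRed A π e x xb)
    (hy : GRed A π e y yb) (hb : yb ≠ 0) : GRed A π e (x / y) (xb / yb) := by
  rw [div_eq_mul_inv, div_eq_mul_inv]
  exact hx.mul (hy.inv hb)

/-- cancel a factor with nonzero reduction -/
theorem GRed.of_mul_left {x y : R} {xb zb : LaurentSeries k} (hx : GRed A π e x xb)
    (hb : xb ≠ 0) (hxy : GRed A π e (x * y) zb) : GRed A π e y (zb / xb) := by
  have hx0 := hx.ne_zero hb
  have := hxy.div hx hb
  rwa [mul_div_assoc, mul_comm, div_mul_cancel₀ _ hx0] at this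

end Field

section Const

variable {L : Type*} [Field L] {A : ValuationSubring L} {k : Type*} [Field k] {π : A →+* k}
variable {R : Type*} [CommRing R] {e : R →+* LaurentSeries L}

/-- constants in `A` -/
theorem gRed_const {c : R} (a : A) (hc : e c = HahnSeries.C (a : L)) :
    GRed A π e c (HahnSeries.C (π a)) := by
  have h : e c ∈ gaussRing A π := by rw [hc]; exact C_mem_gaussRing_of_mem A π a.2
  refine ⟨h, ?_⟩
  rw [← gaussRed_C A π a]
  congr 1
  exact Subtype.ext hc

/-- a constant with nonzero reduction is a unit of `A` and its reduction is a constant -/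
theorem GRed.of_const (hπ : Function.Surjective π) {c : R} {c' : L} (hc : e c = HahnSeries.C c')
    {sb : LaurentSeries k} (h : GRed A π e c sb) (hsb : sb ≠ 0) :
    ∃ a : A, (a : L) = c' ∧ π a ≠ 0 ∧ sb = HahnSeries.C (π a) := by
  have hmem : HahnSeries.C c' ∈ gaussRing A π := by rw [← hc]; exact h.mem
  have hc'A : c' ∈ A := (C_mem_gaussRing_iff A π hπ c').mp hmem
  have h2 : GRed A π e c (HahnSeries.C (π ⟨c', hc'A⟩)) := gRed_const ⟨c', hc'A⟩ hc
  have h3 := h.unique h2
  refine ⟨⟨c', hc'A⟩, rfl, ?_, h3⟩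
  intro h0
  apply hsb
  rw [h3, h0, map_zero]

end Const

end Fermat.Agent.S35x.GRedNS
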