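/-
P-S34 phase 2 (S35 clause 2), helper73: (G2) the `q`-new part of the torsion of `J₀(Nq)` becomes
toric after applying `φ² - 1` (Kummer form).

Setting (helper44's `S34x/TwoVal`): `L` algebraically closed of characteristic `0`, `A` a valuation
subring of `L` with residue map `π : A → k`, `k` algebraically closed of characteristic `q`,
`q ∤ N` prime.  The field `F_{Nq}` has two expansions, the natural one (`∞`) and `ι₀` (`0`), and
hence two reduction relations `RI`, `RZ` (`GRed`); `F_N` has the natural one, `RN`.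

Let `x ∈ Pic⁰(F_{Nq})` have the Kummer representative `u` (`div u = m D`, `[D] = x`) and assume
that the two norms of `u` to `F_N` are `m`-th powers up to constants (i.e. the two degeneracy
push-forwards of `x` vanish).  Using the reductions of the two norm formulas at the level prime
(`NormRedAlpha`, `NormRedBeta`:  `red (N_α u) = ū_∞ · Fr ū_0`,  `red (N_β u) = ū_0 · Fr ū_∞`)
we show that for a Frobenius lift `φ` the class `(φ² - 1) x` has a Kummer representative whose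
reductions at BOTH places are nonzero constants (`exists_kummerRep_constRed`), i.e. `(φ² - 1) x`
lies in the toric part.
-/
import Fermat.Agent.S35x.GRed
import Fermat.Agent.S34x.TwoVal.Separating
import Fermat.Agent.Gateway.Kummer.Basic
import Fermat.Agent.Gateway.Hecke.Galois
import Fermat.Agent.Gateway.HK1.Modular

set_option autoImplicit false
set_option linter.style.haveILetI false
set_option linter.unusedSectionVars false

noncomputable section

namespace Fermat.Agent.S35x.KummerNew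

open ModularCurve AlgebraicCurve HahnSeries
open Fermat.Agent.Gateway.Hecke Fermat.Agent.Gateway.Red Fermat.Agent.Gateway.GoodRed
open Fermat.Agent.Gateway.Kummer
open Fermat.Agent.S34x.TwoVal Fermat.Agent.S35x.GRedNS

/-! ### A field identity -/

section FieldId

variable {K : Type*} [Field K]

/-- from `a · Fr b = κ₁ g₁^m` and `b · Fr a = κ₂ g₂^m`:
`Fr² a / a = (Fr κ₂ / κ₁) (Fr g₂ / g₁)^m`. -/
theorem frob_sq_div (Fr : K →+* K) {a b g₁ g₂ κ₁ κ₂ : K} (m : ℕ) (ha : a ≠ 0) (hb : b ≠ 0)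
    (hg₁ : g₁ ≠ 0) (hκ₁ : κ₁ ≠ 0)
    (h1 : a * Fr b = κ₁ * g₁ ^ m) (h2 : b * Fr a = κ₂ * g₂ ^ m) :
    Fr (Fr a) / a = (Fr κ₂ / κ₁) * (Fr g₂ / g₁) ^ m := by
  have hFb : Fr b ≠ 0 := (map_ne_zero Fr).mpr hb
  have h3 : Fr b * Fr (Fr a) = Fr κ₂ * (Fr g₂) ^ m := by
    rw [← map_mul, h2, map_mul, map_pow]
  rw [div_pow, div_mul_div_comm, div_eq_div_iff ha (mul_ne_zero hκ₁ (pow_ne_zero _ hg₁))]
  have : Fr b * (Fr (Fr a) * (κ₁ * g₁ ^ m)) = Fr b * (Fr κ₂ * Fr g₂ ^ m * a) := by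
    rw [← h1]
    linear_combination (a * Fr b) * h3
  exact mul_left_cancel₀ hFb this

end FieldId

/-! ### Kummer representatives of the zero class -/

section KummerZero

variable {K F : Type*} [Field K] [Field F] [Algebra K F] [HasPrincipalDivisors K F]

/-- `e^m` is a Kummer representative of the zero class -/
theorem isKummerRep_zero_pow (m : ℕ) {e : F} (he : e ≠ 0) :
    IsKummerRep m (0 : Pic0 K F) (e ^ m) := by
  obtain ⟨D, hD, hdeg⟩ := HasPrincipalDivisors.exists_divisor (K := K) e he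
  refine ⟨pow_ne_zero m he, ⟨D, hdeg⟩, ?_, fun P => ?_⟩
  · rw [mk_eq_zero_iff]
    exact ⟨e, he, hD⟩
  · show (m : ℤ) * D P = P.ord (e ^ m)
    rw [hD P, ← zpow_natCast, P.ord_zpow]

theorem IsKummerRep.div_pow {m : ℕ} {x : Pic0 K F} {u : F} (hx : IsKummerRep m x u) {e : F}
    (he : e ≠ 0) : IsKummerRep m x (u / e ^ m) := by
  have := hx.div (isKummerRep_zero_pow (K := K) m he)
  rwa [sub_zero] at this

end KummerZero

/-! ### The setting -/

section Setting

variable {L : Type} [Field L] [Algebra ℚ L] [IsAlgClosed L] (A : ValuationSubring L)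
  {k : Type} [Field k] (π : A →+* k)
variable (N q : ℕ) [NeZero N] [NeZero q]
variable (hdeg : finrankAlong L (heckeAlphaBar L N q) = q + 1) (hq : q.Prime) (hqN : ¬ q ∣ N)

/-- the natural expansion of the level-`M` field -/
abbrev eNat (L : Type) [Field L] [Algebra ℚ L] (M : ℕ) [NeZero M] :
    FL L M →+* LaurentSeries L := algebraMap (FL L M) (LaurentSeries L)

/-- reduction at level `N` -/
abbrev RN (h : FL L N) (hb : LaurentSeries k) : Prop := GRed A π (eNat L N) h hb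

/-- reduction at level `N q`, place `∞` -/
abbrev RI (u : FL L (N * q)) (ub : LaurentSeries k) : Prop := GRed A π (eNat L (N * q)) u ub

/-- reduction at level `N q`, place `0` -/
abbrev RZ (u : FL L (N * q)) (ub : LaurentSeries k) : Prop :=
  GRed A π (iota0 L N q hdeg hq hqN) u ub

/-! ### (K1) in relational form -/

theorem RI_alpha {h : FL L N} {hb : LaurentSeries k} (hh : RN A π N h hb) :
    RI A π N q (heckeAlphaBar L N q h) hb :=
  GRed.of_eq hh (coe_heckeAlphaBar N q h)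

theorem RZ_beta {h : FL L N} {hb : LaurentSeries k} (hh : RN A π N h hb) :
    RZ A π N q hdeg hq hqN (heckeBetaBar L N q h) hb :=
  GRed.of_eq hh (iota0_beta hdeg hq hqN h)

theorem RI_beta {h : FL L N} {hb : LaurentSeries k} (hh : RN A π N h hb) :
    ∃ hb' : LaurentSeries k, RI A π N q (heckeBetaBar L N q h) hb' := by
  obtain ⟨h1, rfl⟩ := hh
  have h2 : eNat L (N * q) (heckeBetaBar L N q h) ∈ gaussRing A π := by
    show ((heckeBetaBar L N q h : FL L (N * q)) : LaurentSeries L) ∈ gaussRing A π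
    rw [coe_heckeBetaBar]
    exact GaussRing.qExpand_mem_gaussRing A π q h1
  exact ⟨_, gRed_of_mem h2⟩

theorem RZ_alpha {h : FL L N} {hb : LaurentSeries k} (hh : RN A π N h hb) :
    ∃ hb' : LaurentSeries k, RZ A π N q hdeg hq hqN (heckeAlphaBar L N q h) hb' := by
  obtain ⟨h1, rfl⟩ := hh
  have h2 : iota0 L N q hdeg hq hqN (heckeAlphaBar L N q h) ∈ gaussRing A π := by
    rw [iota0_alpha]
    exact GaussRing.qExpand_mem_gaussRing A π q h1
  exact ⟨_, gRed_of_mem h2⟩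

/-! ### Galois action -/

variable (σ : L ≃ₐ[ℚ] L) (τA : A →+* A) (τb : k →+* k)
  (hτA : ∀ a : A, ((τA a : A) : L) = σ (a : L)) (hτb : ∀ a : A, π (τA a) = τb (π a))

include hτA hτb in
theorem RN_smul {h : FL L N} {hb : LaurentSeries k} (hh : RN A π N h hb) :
    RN A π N (arithmeticGalois (modularFunctionFieldFull N) σ • h) (coeffMap τb hb) :=
  GRed.map hh (σ : L →+* L) τA τb hτA hτb rfl

include hτA hτb in
theorem RI_smul {u : FL L (N * q)} {ub : LaurentSeries k} (hu : RI A π N q u ub) :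
    RI A π N q (arithmeticGalois (modularFunctionFieldFull (N * q)) σ • u) (coeffMap τb ub) :=
  GRed.map hu (σ : L →+* L) τA τb hτA hτb rfl

include hτA hτb in
theorem RZ_smul {u : FL L (N * q)} {ub : LaurentSeries k} (hu : RZ A π N q hdeg hq hqN u ub) :
    RZ A π N q hdeg hq hqN (arithmeticGalois (modularFunctionFieldFull (N * q)) σ • u)
      (coeffMap τb ub) :=
  GRed.map hu (σ : L →+* L) τA τb hτA hτb (iota0_galois hdeg hq hqN σ u)

/-! ### Constants -/

theorem eNat_algebraMap (M : ℕ) [NeZero M] (c : L) :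
    eNat L M (algebraMap L (FL L M) c) = HahnSeries.C c :=
  algebraMap_laurentSeries_eq_single L c

theorem RN_const (a : A) : RN A π N (algebraMap L (FL L N) (a : L)) (HahnSeries.C (π a)) :=
  gRed_const a (eNat_algebraMap N (a : L))

theorem RI_const (a : A) :
    RI A π N q (algebraMap L (FL L (N * q)) (a : L)) (HahnSeries.C (π a)) :=
  gRed_const a (eNat_algebraMap (N * q) (a : L))

theorem RZ_const (a : A) :
    RZ A π N q hdeg hq hqN (algebraMap L (FL L (N * q)) (a : L)) (HahnSeries.C (π a)) :=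
  gRed_const a (iota0_algebraMap hdeg hq hqN (a : L))

end Setting

/-! ### The hypotheses -/

section Hyps

variable {L : Type} [Field L] [Algebra ℚ L] [IsAlgClosed L] (A : ValuationSubring L)
  {k : Type} [Field k] (π : A →+* k)
variable (N q : ℕ) [NeZero N] [NeZero q]
variable (hdeg : finrankAlong L (heckeAlphaBar L N q) = q + 1) (hq : q.Prime) (hqN : ¬ q ∣ N)

/-- (Hnorm) at level `N`, relational form: every nonzero function has a nonzero reduction after
scaling by a constant. -/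
def NormalisableN : Prop :=
  ∀ g : FL L N, g ≠ 0 → ∃ d : L, d ≠ 0 ∧ ∃ gb : LaurentSeries k, gb ≠ 0 ∧
    RN A π N (algebraMap L (FL L N) d * g) gb

/-- reduction of the norm formula for `α` at the level prime:
`red (c₀^q N_α u) = ū_∞ · Fr (c₀ u)‾_0`. -/
def NormRedAlpha [Fact q.Prime] [CharP k q] : Prop :=
  ∀ (u : FL L (N * q)) (c₀ : L) (a b : LaurentSeries k),
    RI A π N q u a → RZ A π N q hdeg hq hqN (algebraMap L (FL L (N * q)) c₀ * u) b →
    RN A π N (algebraMap L (FL L N) (c₀ ^ q) * normAlong (heckeAlphaBar L N q) u)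
      (a * coeffMap (frobenius k q) b)

/-- reduction of the norm formula for `β` at the level prime:
`red (c₀ N_β u) = (c₀ u)‾_0 · Fr ū_∞`. -/
def NormRedBeta [Fact q.Prime] [CharP k q] : Prop :=
  ∀ (u : FL L (N * q)) (c₀ : L) (a b : LaurentSeries k),
    RI A π N q u a → RZ A π N q hdeg hq hqN (algebraMap L (FL L (N * q)) c₀ * u) b →
    RN A π N (algebraMap L (FL L N) c₀ * normAlong (heckeBetaBar L N q) u)
      (b * coeffMap (frobenius k q) a)

end Hyps

/-! ### The main theorem -/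

section Main

variable {L : Type} [Field L] [Algebra ℚ L] [IsAlgClosed L] (A : ValuationSubring L)
  {k : Type} [Field k] (π : A →+* k) [IsAlgClosed k]
variable (N q : ℕ) [NeZero N] [NeZero q] [Fact q.Prime] [CharP k q]
variable (hdeg : finrankAlong L (heckeAlphaBar L N q) = q + 1) (hq : q.Prime) (hqN : ¬ q ∣ N)

/-- from `red (E • G^m) = s̄ ≠ 0` and `red G = ḡ ≠ 0`: `s̄ = C κ · ḡ^m`, `κ ≠ 0` -/
theorem exists_const_of_RN (hπ : Function.Surjective π) {E : L} {G : FL L N} {m : ℕ}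
    {sb gb : LaurentSeries k} (hgb : gb ≠ 0) (hsb : sb ≠ 0) (hG : RN A π N G gb)
    (hs : RN A π N (algebraMap L (FL L N) E * G ^ m) sb) :
    ∃ κ : k, κ ≠ 0 ∧ sb = HahnSeries.C κ * gb ^ m := by
  have hGm : RN A π N (G ^ m) (gb ^ m) := hG.pow m
  have hgm : gb ^ m ≠ 0 := pow_ne_zero m hgb
  have h1 : RN A π N (algebraMap L (FL L N) E) (sb / gb ^ m) := by
    have := hs.div hGm hgm
    have hG0 : G ^ m ≠ 0 := hGm.ne_zero hgm
    rwa [mul_div_assoc, div_self hG0, mul_one] at this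
  obtain ⟨a, -, ha, hsa⟩ := h1.of_const hπ (eNat_algebraMap N E) (div_ne_zero hsb hgm)
  refine ⟨π a, ha, ?_⟩
  rw [← hsa, div_mul_cancel₀ _ hgm]

variable (σ : L ≃ₐ[ℚ] L) (τA : A →+* A)
  (hτA : ∀ a : A, ((τA a : A) : L) = σ (a : L))
  (hτb : ∀ a : A, π (τA a) = frobenius k q (π a))
  (hσunit : ∀ c : L, c ≠ 0 → ∃ a : A, (a : L) = σ c / c ∧ π a ≠ 0)

include hτA hτb hσunit in
/-- **(G2).**  If both norms of the Kummer representative `u` of `x` are `m`-th powers up to
constants, then `(φ² - 1) x` has a Kummer representative with constant nonzero reductions at both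
places. -/
theorem exists_kummerRep_constRed (hπ : Function.Surjective π)
    (hnormN : NormalisableN A π N)
    (hredα : NormRedAlpha A π N q hdeg hq hqN) (hredβ : NormRedBeta A π N q hdeg hq hqN)
    {m : ℕ} (hm : 0 < m) {x : Pic0 L (FL L (N * q))} {u : FL L (N * q)}
    (hu : IsKummerRep m x u)
    {c₀ : L} (hc₀ : c₀ ≠ 0) {a b : LaurentSeries k} (ha : a ≠ 0) (hb : b ≠ 0)
    (hua : RI A π N q u a)
    (hub : RZ A π N q hdeg hq hqN (algebraMap L (FL L (N * q)) c₀ * u) b)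
    (hα : ∃ (c : L) (g₁ : FL L N),
      normAlong (heckeAlphaBar L N q) u = algebraMap L (FL L N) c * g₁ ^ m)
    (hβ : ∃ (c : L) (g₂ : FL L N),
      normAlong (heckeBetaBar L N q) u = algebraMap L (FL L N) c * g₂ ^ m) :
    ∃ w' : FL L (N * q),
      IsKummerRep m
        (arithmeticGalois (modularFunctionFieldFull (N * q)) σ •
          arithmeticGalois (modularFunctionFieldFull (N * q)) σ • x - x) w' ∧
      (∃ c₁ : k, c₁ ≠ 0 ∧ RI A π N q w' (HahnSeries.C c₁)) ∧
      (∃ c₂ : k, c₂ ≠ 0 ∧ RZ A π N q hdeg hq hqN w' (HahnSeries.C c₂)) := by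
  classical
  haveI : CharZero L := algebraRat.charZero L
  haveI : HasPrincipalDivisors L (FL L (N * q)) :=
    Fermat.Agent.Gateway.HK1.hasPrincipalDivisors_FL L (N * q)
  set Fr : LaurentSeries k →+* LaurentSeries k := coeffMap (frobenius k q) with hFr
  have hFr_ne : ∀ {y : LaurentSeries k}, y ≠ 0 → Fr y ≠ 0 := fun hy =>
    coeffMap_ne_zero (frobenius k q).injective hy
  set g := arithmeticGalois (modularFunctionFieldFull (N * q)) σ with hg
  set gN := arithmeticGalois (modularFunctionFieldFull N) σ with hgN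
  have hm0 : m ≠ 0 := hm.ne'
  -- Step A: the norm along `α`
  obtain ⟨c₁, g₁, hNα⟩ := hα
  have hA1 := hredα u c₀ a b hua hub
  have hab : a * Fr b ≠ 0 := mul_ne_zero ha (hFr_ne hb)
  have hg₁ : g₁ ≠ 0 := by
    rintro rfl
    have h0 := hA1.ne_zero hab
    rw [hNα, zero_pow hm0, mul_zero, mul_zero] at h0
    exact h0 rfl
  obtain ⟨d₁, hd₁, gb₁, hgb₁, hG₁⟩ := hnormN g₁ hg₁
  set G₁ : FL L N := algebraMap L (FL L N) d₁ * g₁ with hG₁def
  have hA2 : algebraMap L (FL L N) (c₀ ^ q) * normAlong (heckeAlphaBar L N q) u =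
      algebraMap L (FL L N) (c₀ ^ q * c₁ / d₁ ^ m) * G₁ ^ m := by
    rw [hNα, hG₁def, mul_pow, ← map_pow, ← mul_assoc, ← mul_assoc, ← map_mul, ← map_mul,
      div_mul_cancel₀ _ (pow_ne_zero m hd₁)]
  rw [hA2] at hA1
  obtain ⟨κ₁, hκ₁, hrel1⟩ := exists_const_of_RN A π N hπ hgb₁ hab hG₁ hA1
  -- Step B: the norm along `β`
  obtain ⟨c₂, g₂, hNβ⟩ := hβ
  have hB1 := hredβ u c₀ a b hua hub
  have hba : b * Fr a ≠ 0 := mul_ne_zero hb (hFr_ne ha)
  have hg₂ : g₂ ≠ 0 := by
    rintro rfl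
    have h0 := hB1.ne_zero hba
    rw [hNβ, zero_pow hm0, mul_zero, mul_zero] at h0
    exact h0 rfl
  obtain ⟨d₂, hd₂, gb₂, hgb₂, hG₂⟩ := hnormN g₂ hg₂
  set G₂ : FL L N := algebraMap L (FL L N) d₂ * g₂ with hG₂def
  have hB2 : algebraMap L (FL L N) c₀ * normAlong (heckeBetaBar L N q) u =
      algebraMap L (FL L N) (c₀ * c₂ / d₂ ^ m) * G₂ ^ m := by
    rw [hNβ, hG₂def, mul_pow, ← map_pow, ← mul_assoc, ← mul_assoc, ← map_mul, ← map_mul,
      div_mul_cancel₀ _ (pow_ne_zero m hd₂)]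
  rw [hB2] at hB1
  obtain ⟨κ₂, hκ₂, hrel2⟩ := exists_const_of_RN A π N hπ hgb₂ hba hG₂ hB1
  -- Step C: the two ratios
  have hCκ₁ : (HahnSeries.C κ₁ : LaurentSeries k) ≠ 0 := by
    rw [Ne, map_eq_zero]; exact hκ₁
  have hCκ₂ : (HahnSeries.C κ₂ : LaurentSeries k) ≠ 0 := by
    rw [Ne, map_eq_zero]; exact hκ₂
  have hratioI : Fr (Fr a) / a =
      (Fr (HahnSeries.C κ₂) / HahnSeries.C κ₁) * (Fr gb₂ / gb₁) ^ m :=
    frob_sq_div Fr m ha hb hgb₁ hCκ₁ hrel1 hrel2
  have hratioZ : Fr (Fr b) / b =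
      (Fr (HahnSeries.C κ₁) / HahnSeries.C κ₂) * (Fr gb₁ / gb₂) ^ m :=
    frob_sq_div Fr m hb ha hgb₂ hCκ₂ hrel2 hrel1
  have hFrC : ∀ κ : k, Fr (HahnSeries.C κ) = HahnSeries.C (frobenius k q κ) := by
    intro κ
    rw [hFr]
    exact coeffMap_single (frobenius k q) 0 κ
  -- Step D: reductions of `w := φ² u / u`
  have hI1 : RI A π N q (g • u) (Fr a) := RI_smul A π N q σ τA (frobenius k q) hτA hτb hua
  have hI2 : RI A π N q (g • g • u) (Fr (Fr a)) :=
    RI_smul A π N q σ τA (frobenius k q) hτA hτb hI1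
  have hIw : RI A π N q ((g • g • u) / u) (Fr (Fr a) / a) := hI2.div hua ha
  have hZ1 : RZ A π N q hdeg hq hqN (g • (algebraMap L (FL L (N * q)) c₀ * u)) (Fr b) :=
    RZ_smul A π N q hdeg hq hqN σ τA (frobenius k q) hτA hτb hub
  have hZ2 : RZ A π N q hdeg hq hqN (g • g • (algebraMap L (FL L (N * q)) c₀ * u))
      (Fr (Fr b)) :=
    RZ_smul A π N q hdeg hq hqN σ τA (frobenius k q) hτA hτb hZ1
  have hu0 : u ≠ 0 := hu.ne_zero
  have hbase : ∀ c : L, g • algebraMap L (FL L (N * q)) c = algebraMap L (FL L (N * q)) (σ c) := by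
    intro c
    rw [SemilinearAut.smul_algebraMap, hg, baseAut_arithmeticGalois]
    rfl
  have hZ3 : g • g • (algebraMap L (FL L (N * q)) c₀ * u) =
      algebraMap L (FL L (N * q)) (σ (σ c₀)) * (g • g • u) := by
    rw [smul_mul', smul_mul', hbase, hbase]
  -- the unit `γ = σ² c₀ / c₀`
  obtain ⟨a₁, ha₁, hπa₁⟩ := hσunit c₀ hc₀
  have hσc₀ : σ c₀ ≠ 0 := (map_ne_zero σ).mpr hc₀
  obtain ⟨a₂, ha₂, hπa₂⟩ := hσunit (σ c₀) hσc₀
  have hγ : ((a₂ * a₁ : A) : L) = σ (σ c₀) / c₀ := by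
    push_cast
    rw [ha₁, ha₂, div_mul_div_cancel₀ hσc₀]
  have hπγ : π (a₂ * a₁) ≠ 0 := by
    rw [map_mul]; exact mul_ne_zero hπa₂ hπa₁
  have hZγ : RZ A π N q hdeg hq hqN (algebraMap L (FL L (N * q)) (σ (σ c₀) / c₀))
      (HahnSeries.C (π (a₂ * a₁))) := by
    rw [← hγ]
    exact RZ_const A π N q hdeg hq hqN (a₂ * a₁)
  have hCγ : (HahnSeries.C (π (a₂ * a₁)) : LaurentSeries k) ≠ 0 := by
    rw [Ne, map_eq_zero]; exact hπγ
  have hZw : RZ A π N q hdeg hq hqN ((g • g • u) / u)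
      (Fr (Fr b) / b / HahnSeries.C (π (a₂ * a₁))) := by
    have h1 := (hZ2.div hub hb).div hZγ hCγ
    refine h1.congr ?_ rfl
    rw [hZ3]
    have hc₀' : algebraMap L (FL L (N * q)) c₀ ≠ 0 := (map_ne_zero _).mpr hc₀
    have hσσ' : algebraMap L (FL L (N * q)) (σ (σ c₀)) ≠ 0 :=
      (map_ne_zero _).mpr ((map_ne_zero σ).mpr hσc₀)
    rw [map_div₀]
    field_simp
  -- Step E: the element `e`
  have hGN1 : RN A π N (gN • G₁) (Fr gb₁) := RN_smul A π N σ τA (frobenius k q) hτA hτb hG₁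
  have hGN2 : RN A π N (gN • G₂) (Fr gb₂) := RN_smul A π N σ τA (frobenius k q) hτA hτb hG₂
  have hh₁ : RN A π N ((gN • G₂) / G₁) (Fr gb₂ / gb₁) := hGN2.div hG₁ hgb₁
  have hh₂ : RN A π N ((gN • G₁) / G₂) (Fr gb₁ / gb₂) := hGN1.div hG₂ hgb₂
  obtain ⟨s, hs, hs0, hsI, hsZ⟩ := exists_separating A π N q hdeg hq hqN hπ
  have hsI' : RI A π N q s 0 := ⟨hs, hsI⟩
  have hsZ' : RZ A π N q hdeg hq hqN s 1 := ⟨hs0, hsZ⟩
  have h1sI : RI A π N q (1 - s) 1 := by
    have := (gRed_one (A := A) (π := π) (e := eNat L (N * q))).sub hsI'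
    rwa [sub_zero] at this
  have h1sZ : RZ A π N q hdeg hq hqN (1 - s) 0 := by
    have := (gRed_one (A := A) (π := π) (e := iota0 L N q hdeg hq hqN)).sub hsZ'
    rwa [sub_self] at this
  set h₁ : FL L N := (gN • G₂) / G₁ with hh₁def
  set h₂ : FL L N := (gN • G₁) / G₂ with hh₂def
  obtain ⟨y₁, hy₁⟩ := RI_beta A π N q hh₂
  obtain ⟨y₂, hy₂⟩ := RZ_alpha A π N q hdeg hq hqN hh₁
  set e : FL L (N * q) := (1 - s) * heckeAlphaBar L N q h₁ + s * heckeBetaBar L N q h₂ with he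
  have heI : RI A π N q e (Fr gb₂ / gb₁) := by
    have := (h1sI.mul (RI_alpha A π N q hh₁)).add (hsI'.mul hy₁)
    rwa [one_mul, zero_mul, add_zero] at this
  have heZ : RZ A π N q hdeg hq hqN e (Fr gb₁ / gb₂) := by
    have := (h1sZ.mul hy₂).add (hsZ'.mul (RZ_beta A π N q hdeg hq hqN hh₂))
    rwa [zero_mul, one_mul, zero_add] at this
  have heI_ne : Fr gb₂ / gb₁ ≠ 0 := div_ne_zero (hFr_ne hgb₂) hgb₁
  have heZ_ne : Fr gb₁ / gb₂ ≠ 0 := div_ne_zero (hFr_ne hgb₁) hgb₂
  have he0 : e ≠ 0 := heI.ne_zero heI_ne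
  -- Step F: `w' := w / e^m`
  refine ⟨(g • g • u) / u / e ^ m, ?_, ?_, ?_⟩
  · exact IsKummerRep.div_pow (((hu.smul g).smul g).div hu) he0
  · refine ⟨frobenius k q κ₂ / κ₁, div_ne_zero ((map_ne_zero _).mpr hκ₂) hκ₁, ?_⟩
    have h1 := hIw.div (heI.pow m) (pow_ne_zero m heI_ne)
    refine h1.congr rfl ?_
    rw [hratioI, mul_div_assoc, div_self (pow_ne_zero m heI_ne), mul_one, hFrC, ← map_div₀]
  · refine ⟨frobenius k q κ₁ / κ₂ / π (a₂ * a₁),
      div_ne_zero (div_ne_zero ((map_ne_zero _).mpr hκ₁) hκ₂) hπγ, ?_⟩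
    have h1 := hZw.div (heZ.pow m) (pow_ne_zero m heZ_ne)
    refine h1.congr rfl ?_
    rw [hratioZ, hFrC, map_div₀, map_div₀]
    have hp : (Fr gb₁ / gb₂) ^ m ≠ 0 := pow_ne_zero m heZ_ne
    field_simp

end Main

end Fermat.Agent.S35x.KummerNew
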