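/-
P-S34 phase 2 (S35 clause 2), helper60: the normalisability inputs of the (G2) wrapper
(`S35x/KummerNewInst`: `NormalisableInf`, `NormalisableZero`) at EVERY level `N q`, `q ∤ N`
(no passage through a good level is needed), from `S34x/TwoVal/Normalise2`.

For `A` a valuation subring of `L` (algebraically closed, algebraic over `ℚ`) over the prime `q`,
with `π = IsLocalRing.residue A`:

* `normalisableInf` : every `u ≠ 0` of `F_{Nq}` has a constant multiple `c u` (`c ≠ 0`) whose natural
  expansion lies in the Gauss ring and reduces to some `a ≠ 0` (`KummerNew.RI`);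
* `normalisableZero` : the same for the expansion `ι₀` at the cusp `0` (`KummerNew.RZ`).
-/
import Fermat.Agent.S35x.KummerNew
import Fermat.Agent.S34x.TwoVal.Normalise2

set_option autoImplicit false
set_option linter.unusedSectionVars false

noncomputable section

namespace Fermat.Agent.S35x.NormalisableInst

open ModularCurve AlgebraicCurve HahnSeries
open Fermat.Agent.Gateway.Hecke Fermat.Agent.Gateway.Red Fermat.Agent.Gateway.GoodRed
open Fermat.Agent.S34x.TwoVal Fermat.Agent.S35x.GRedNS Fermat.Agent.S35x.KummerNew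

variable {L : Type} [Field L] [Algebra ℚ L] [IsAlgClosed L] [Algebra.IsAlgebraic ℚ L]
  (A : ValuationSubring L)
variable (N q : ℕ) [NeZero N] [NeZero q]
variable (hdeg : finrankAlong L (heckeAlphaBar L N q) = q + 1) (hq : q.Prime) (hqN : ¬ q ∣ N)
  (hA : A.LiesOverPrime q)

include hdeg hq hqN hA in
/-- normalisability at `∞` in the `GRed` form (`= KummerNewInst.NormalisableInf N q A`, unfolded) -/
theorem normalisableInf (u : FL L (N * q)) (hu : u ≠ 0) :
    ∃ c : L, c ≠ 0 ∧ ∃ a : LaurentSeries (IsLocalRing.ResidueField A), a ≠ 0 ∧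
      RI A (IsLocalRing.residue A) N q (algebraMap L (FL L (N * q)) c * u) a := by
  have : Fact q.Prime := ⟨hq⟩
  obtain ⟨c, hc, h, hne⟩ := exists_normalise_infty_residue A N q hdeg hq hqN hA u hu
  exact ⟨c, hc, _, hne, h, rfl⟩

include hA in
/-- normalisability at `0` in the `GRed` form
(`= KummerNewInst.NormalisableZero N q hdeg hq hqN A`, unfolded) -/
theorem normalisableZero (u : FL L (N * q)) (hu : u ≠ 0) :
    ∃ c₀ : L, c₀ ≠ 0 ∧ ∃ b : LaurentSeries (IsLocalRing.ResidueField A), b ≠ 0 ∧
      RZ A (IsLocalRing.residue A) N q hdeg hq hqN (algebraMap L (FL L (N * q)) c₀ * u) b := by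
  have : Fact q.Prime := ⟨hq⟩
  obtain ⟨c, hc, h, hne⟩ := exists_normalise_zero_residue A N q hdeg hq hqN hA u hu
  exact ⟨c, hc, _, hne, h, rfl⟩

/-! ### `L = AlgebraicClosure ℚ` -/

section Qbar

local notation "Qb" => AlgebraicClosure ℚ

variable (B : ValuationSubring Qb)
  (hdegQ : finrankAlong Qb (heckeAlphaBar Qb N q) = q + 1) (hB : B.LiesOverPrime q)

include hdegQ hq hqN hB in
/-- `KummerNewInst.NormalisableInf N q B`, unfolded, at every level `N q` with `q ∤ N` -/
theorem normalisableInf_Qbar :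
    ∀ u : FL Qb (N * q), u ≠ 0 → ∃ c : Qb, c ≠ 0 ∧
      ∃ a : LaurentSeries (IsLocalRing.ResidueField B), a ≠ 0 ∧
        RI B (IsLocalRing.residue B) N q (algebraMap Qb (FL Qb (N * q)) c * u) a := by
  have : Algebra.IsAlgebraic ℚ Qb := AlgebraicClosure.isAlgebraic ℚ
  exact normalisableInf B N q hdegQ hq hqN hB

include hB in
/-- `KummerNewInst.NormalisableZero N q hdeg hq hqN B`, unfolded, at every level `N q`, `q ∤ N` -/
theorem normalisableZero_Qbar :
    ∀ u : FL Qb (N * q), u ≠ 0 → ∃ c₀ : Qb, c₀ ≠ 0 ∧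
      ∃ b : LaurentSeries (IsLocalRing.ResidueField B), b ≠ 0 ∧
        RZ B (IsLocalRing.residue B) N q hdegQ hq hqN
          (algebraMap Qb (FL Qb (N * q)) c₀ * u) b := by
  have : Algebra.IsAlgebraic ℚ Qb := AlgebraicClosure.isAlgebraic ℚ
  exact normalisableZero B N q hdegQ hq hqN hB

end Qbar

end Fermat.Agent.S35x.NormalisableInst
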