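import Fermat.Agent.S35x.KummerNewInst
import Fermat.Agent.S35x.NormalisableInst

/-!
# P-S34 phase 2 (S35): (G2) unconditionally, and the chain (G3) at good levels ⇒ (E9)

With helper60's normalisability at every level (`S35x/NormalisableInst`) the hypothesis
`KummerNewAt` of the (E9) assembly is unconditional (`kummerNewAt_condSS_uncond`), hence the
Steinberg relation `TorsionSteinberg N q` follows from the Frobenius-square statement (G3)
`LevelGlueFrob.FrobSqAt` at the good level `M q`, `M = lcm N 4` or `lcm N 9`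
(`torsionSteinberg_of_frobSqAt`), or directly at level `N q` (`torsionSteinberg_of_frobSqAt_self`).
-/

set_option autoImplicit false

noncomputable section

namespace Fermat.Agent.S35x.KummerNewFinal

open ModularCurve AlgebraicCurve
open Fermat.Agent.Gateway.Hecke Fermat.Agent.S35x.TorsionSteinberg
open Fermat.Agent.S34x.LevelGlueSS Fermat.Agent.S35x.KummerNewInst

local notation "Qb" => AlgebraicClosure ℚ

variable {N M q : ℕ} [NeZero N] [NeZero M] [NeZero q]

/-- **(G2), unconditional**: for a prime `q ∤ N`, a place `A` over `q` and `m > 0`. -/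
theorem kummerNewAt_condSS_uncond (hq : q.Prime) (hqN : ¬ q ∣ N)
    (hdeg : finrankAlong Qb (heckeAlphaBar Qb N q) = q + 1)
    (A : ValuationSubring Qb) (hA : A.LiesOverPrime q) {m : ℕ} (hm : 0 < m) :
    KummerNewAt N q A m (CondSS N q hdeg hq hqN A) :=
  kummerNewAt_condSS hq hqN hdeg A hA hm
    (Fermat.Agent.S35x.NormalisableInst.normalisableInf_Qbar N q hq hqN A hdeg hA)
    (Fermat.Agent.S35x.NormalisableInst.normalisableZero_Qbar N q hq hqN A hdeg hA)

/-- (E9) from (G3) at the same level `N q`. -/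
theorem torsionSteinberg_of_frobSqAt_self (hq : q.Prime) (hqN : ¬ q ∣ N)
    (hG3 : ∀ m : ℕ, ¬ q ∣ m → ∀ A : ValuationSubring Qb, A.LiesOverPrime q →
      Fermat.Agent.S35x.LevelGlueFrob.FrobSqAt (N * q) q A m
        (CondSS N q (hdegAlpha N q hq hqN) hq hqN A)) :
    TorsionSteinberg N q := by
  refine torsionSteinberg_of (fun _ A => CondSS N q (hdegAlpha N q hq hqN) hq hqN A) ?_ hG3
  intro m hqm A hA
  have hm : 0 < m := Nat.pos_of_ne_zero (by rintro rfl; exact hqm (dvd_zero q))
  exact kummerNewAt_condSS_uncond hq hqN _ A hA hm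

/-- **Phase 2, final chain**: (E9) at level `N q` from (G3) at the good level `M q`,
`M = lcm N 4` or `M = lcm N 9`, `q ∤ M`.  The only open input of S35 clause 2. -/
theorem torsionSteinberg_of_frobSqAt (hq : q.Prime) (hqN : ¬ q ∣ N) (hqM : ¬ q ∣ M)
    (hM : M = Nat.lcm N 4 ∨ M = Nat.lcm N 9)
    (hG3 : ∀ m : ℕ, ¬ q ∣ m → ∀ A : ValuationSubring Qb, A.LiesOverPrime q →
      Fermat.Agent.S35x.LevelGlueFrob.FrobSqAt (M * q) q A m
        (CondSS M q (hdegAlpha M q hq hqM) hq hqM A)) :
    TorsionSteinberg N q :=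
  torsionSteinberg_of_goodLevel' hq hqN hqM hM
    (fun A hA => Fermat.Agent.S35x.NormalisableInst.normalisableInf_Qbar M q hq hqM A
      (hdegAlpha M q hq hqM) hA)
    (fun A hA => Fermat.Agent.S35x.NormalisableInst.normalisableZero_Qbar M q hq hqM A
      (hdegAlpha M q hq hqM) hA)
    hG3

end Fermat.Agent.S35x.KummerNewFinal
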