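import Fermat.Agent.S35x.Final
import Fermat.Agent.S35x.TorsionSteinbergFinal
import Fermat.Agent.S35x.KummerNewFinal

/-!
# S35 from the Frobenius-square Kummer statement at the good levels

`s35_of_frobSqAtGoodLevels`: the frozen statement S35 from the single remaining input
`TorsionSteinbergFinal.FrobSqAtGoodLevels` ((G3), Theorem B' at the good levels).
(G2) at all levels is `KummerNewFinal.kummerNewAt_condSS_uncond`.
-/

set_option autoImplicit false

namespace Fermat.Agent.S35x.FinalFrob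

open Polynomial

/-- (G2) at all levels. -/
theorem kummerNewAtAllLevels :
    Fermat.Agent.S35x.TorsionSteinbergFinal.KummerNewAtAllLevels :=
  fun _ _ _ _ _ hm hq _ hqN hdeg A hA =>
    Fermat.Agent.S35x.KummerNewFinal.kummerNewAt_condSS_uncond hq hqN hdeg A hA hm

/-- The frozen statement S35 from (G3) at the good levels. -/
theorem s35_of_frobSqAtGoodLevels
    (h3 : Fermat.Agent.S35x.TorsionSteinbergFinal.FrobSqAtGoodLevels)
    {M : ℕ} [NeZero M] {g : CuspForm (CongruenceSubgroup.Gamma0 M) 2} (hg : g.IsNewform)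
    (lam : ℕ) [Fact lam.Prime]
    (S : Finset ℕ)
    (O' : Type) [CommRing O'] [IsDomain O'] [IsDiscreteValuationRing O']
    [IsAdicComplete (IsLocalRing.maximalIdeal O') O'] [Finite (IsLocalRing.ResidueField O')]
    [CharZero O'] (hlamO' : (lam : O') ∈ IsLocalRing.maximalIdeal O')
    (chig : CuspForm.heckeAlgebra M 2 (↑S : Set ℕ) →+* ℂ)
    (hchig : ∀ (ℓ : ℕ) (hℓ : ℓ.Prime) (hℓM : ¬ ℓ ∣ M) (hℓS : ℓ ∉ (↑S : Set ℕ)),
      chig (CuspForm.heckeAlgebra.T hℓ hℓM hℓS) = ModularFormClass.qCoeff g ℓ)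
    (iota : chig.range →+* O')
    (hlamS : lam ∈ S) (hMS : ∀ q : ℕ, q.Prime → q ∣ M → q ∈ S) :
    ∃ (O'' : Type) (_ : CommRing O'') (_ : IsDomain O'') (_ : IsDiscreteValuationRing O'')
      (_ : IsAdicComplete (IsLocalRing.maximalIdeal O'') O'')
      (_ : Finite (IsLocalRing.ResidueField O''))
      (_ : CharZero O'') (_ : Algebra O' O'') (_ : Module.Finite O' O'')
      (_ : IsLocalHom (algebraMap O' O'')),
      Function.Injective (algebraMap O' O'') ∧
      ∃ ρ : GaloisRepAdic O'',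
        (∀ (ℓ : ℕ) (hℓ : ℓ.Prime) (hℓM : ¬ ℓ ∣ M) (hℓS : ℓ ∉ (↑S : Set ℕ)),
          ∀ A : ValuationSubring (AlgebraicClosure ℚ), A.LiesOverPrime ℓ →
            ∀ σ : AlgebraicClosure ℚ ≃ₐ[ℚ] AlgebraicClosure ℚ, A.IsFrobeniusAt σ ℓ →
              LinearMap.charpoly (ρ.ρ σ) =
                X ^ 2 - C (algebraMap O' O'' ((iota.comp chig.rangeRestrict)
                  (CuspForm.heckeAlgebra.T hℓ hℓM hℓS))) * X
                  + C ((ℓ : O''))) ∧
        (∀ q : ℕ, q.Prime → q ≠ lam → q ∣ M → ¬ q ^ 2 ∣ M →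
          ∀ A : ValuationSubring (AlgebraicClosure ℚ), A.LiesOverPrime q →
            ∀ σ : AlgebraicClosure ℚ ≃ₐ[ℚ] AlgebraicClosure ℚ, A.IsFrobeniusAt σ q →
              LinearMap.charpoly (ρ.ρ σ) = X ^ 2 - C ((q : O'') + 1) * X + C ((q : O'')) ∨
              LinearMap.charpoly (ρ.ρ σ) = X ^ 2 + C ((q : O'') + 1) * X + C ((q : O''))) :=
  Fermat.Agent.S35x.Final.s35_of_torsionSteinberg
    (fun N q _ _ hq hqN =>
      Fermat.Agent.S35x.TorsionSteinbergFinal.torsionSteinberg_of_goodLevels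
        kummerNewAtAllLevels h3 N q hq hqN)
    hg lam S O' hlamO' chig hchig iota hlamS hMS

end Fermat.Agent.S35x.FinalFrob
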