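/-
P-S34 phase 2 (S35), helper73: the Frobenius twin of
`S34x/Lattice2/AssembleCounts.exists_const_mul_pow_of_counts`.

Same `w`-independent hypothesis list as the phase-1 theorem (`C ht hDt hcart hPfin hgen hL2 hL2₀ he
he₀ δ b₂ hdimS hm hp hN1 hp₀ hN1₀ hdimN`, same names and shapes, so that the final discharge can
feed both theorems with the same arguments), with the inertia element `g` replaced by

* `σ : F →+* F` with semilinear data `D : SemilinearChart.SemiData R σ` (helper13) fixing the chart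
  coordinate, `hσt : σ C.t = C.t`;
* (CONG) in the componentwise form of `SemiData.cong_of_components`, on both charts;
* `hQ : m * e = Q + i'`.

Conclusion: `σ w / w ^ Q = c v ^ m` for EVERY normalised pair `(w, Dw)`.
-/
import Fermat.Agent.S34x.Lattice2.AssembleCounts
import Fermat.Agent.S35x.TheoremBFrobAssemble
import Fermat.Agent.S35x.SemilinearChart

set_option autoImplicit false
set_option linter.unusedSectionVars false
set_option linter.style.haveILetI false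

noncomputable section

namespace Fermat.Agent.S35x.FrobCounts

open AlgebraicCurve Module IntermediateField
open Fermat.Agent.Gateway.C0 Fermat.Agent.S34x Fermat.Agent.S34x.C0two
open Fermat.Agent.S34x.Lattice2 Fermat.Agent.S35x.SemilinearChart

variable {K : Type*} [Field K] [IsAlgClosed K] [CharZero K] {A : ValuationSubring K}
  {F : Type*} [Field F] [Algebra K F] {S : SmallRing F}
  {k κ₁ κ₂ : Type*} [Field k] [IsAlgClosed k] [CommRing κ₁] [CommRing κ₂] [Algebra k κ₁]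
  [Algebra k κ₂] [Nontrivial κ₁]
  {R : RedSetup2 A S k (κ₁ × κ₂)} (C : ChartCoord R)
  (ht : Transcendental K C.t) [FiniteDimensional K⟮C.t⟯ F]
  {Dt : Divisor K F} (hDt : ∀ v : Place K F, Dt v = v.ord C.t)
  (hcart : ∀ V : Submodule K F, FiniteDimensional K V → (R.lat V).FG)
  [hPfin : ∀ b, FiniteDimensional k (C.Pk 0 b)] {b₀ : ℕ}
  (hgen : ∀ b, b₀ ≤ b → ∀ x ∈ C.Pk 0 (b + 1), ∃ y ∈ C.Pk 0 b, ∃ z ∈ C.Pk 0 b, x = y + C.T * z)
  (hL2 : C.IsL2) (hL2₀ : C.swap.IsL2)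
  (he : ∃ c : κ₂, IsIntegral (Algebra.adjoin k {C.T.2}) c ∧ ((1 : κ₁), c * C.T.2) ∈ C.Bbar)
  (he₀ : ∃ c : κ₂, IsIntegral (Algebra.adjoin k {C.Ti.2}) c ∧
    ((1 : κ₁), c * C.Ti.2) ∈ C.swap.Bbar)
  (δ b₂ : ℕ)
  (hdimS : ∀ b, b₂ ≤ b → finrank k (C.Pk 0 b) = finrank k (R.redLat (C.LN 0 b)) + δ)
  {m : ℕ} (hm : IsUnit ((m : ℕ) : A))
  {σ : F →+* F} (D : SemiData R σ) (hσt : σ C.t = C.t)
  {p : ℕ} (hp : 2 ≤ p)
  (hN1 : ∀ g : C.B₂, ∃ g' : C.B₂, ((0 : C.B₁), g - g' ^ p) ∈ C.BbarT)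
  {p₀ : ℕ} (hp₀ : 2 ≤ p₀)
  (hN1₀ : ∀ g : C.swap.B₂, ∃ g' : C.swap.B₂, ((0 : C.swap.B₁), g - g' ^ p₀) ∈ C.swap.BbarT)
  (hdimN : ∀ E : Divisor K F, Divisor.degree E = 0 → ∀ b, b₂ ≤ b →
    finrank k (C.Pk 0 b) ≤ finrank k (R.redLat ((TwoCharts.ofDivisor Dt).LM E 0 b)) + δ)
  {Q e i' : ℕ} (hQ : m * e = Q + i')
  (hcong : ∀ z : C.B₁ × C.B₂,
    ((D.φ₁ (z.1 : κ₁) - (z.1 : κ₁) ^ Q, (0 : κ₂)) : κ₁ × κ₂) ∈ C.Bbar ∧
    (((0 : κ₁), D.φ₂ (z.2 : κ₂) - (z.2 : κ₂) ^ Q) : κ₁ × κ₂) ∈ C.Bbar)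
  (hcong₀ : ∀ z : C.swap.B₁ × C.swap.B₂,
    ((D.φ₁ (z.1 : κ₁) - (z.1 : κ₁) ^ Q, (0 : κ₂)) : κ₁ × κ₂) ∈ C.swap.Bbar ∧
    (((0 : κ₁), D.φ₂ (z.2 : κ₂) - (z.2 : κ₂) ^ Q) : κ₁ × κ₂) ∈ C.swap.Bbar)

include ht hDt hcart hgen hL2 hL2₀ he he₀ hdimS hm hσt hp hN1 hp₀ hN1₀ hdimN hQ hcong hcong₀ in
/-- **Theorem B', `w`-uniform (phase 2)**: for EVERY normalised pair `(w, Dw)` (`w` a unit of `S.O`
with reduction `1`, `m Dw = div w`) such that `m` divides the divisor of `σ w`,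
`σ w / w ^ Q = c * v ^ m`.  All other hypotheses are independent of `w`. -/
theorem exists_const_mul_pow_of_counts_frob
    {w : F} (hw0 : w ≠ 0) (hwO : w ∈ S.O) (hwiO : w⁻¹ ∈ S.O) (hw1 : R.res ⟨w, hwO⟩ = 1)
    {Dw : Divisor K F} (hD : ∀ v : Place K F, (m : ℤ) * Dw v = v.ord w)
    (hdiv : ∀ v : Place K F, (m : ℤ) ∣ v.ord (σ w)) :
    ∃ (c : K) (v : F), σ w / w ^ Q = algebraMap K F c * v ^ m := by
  haveI := isSeparable_adjoin_of_charZero (K := K) C.t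
  haveI : Nontrivial (κ₁ × κ₂) := inferInstance
  have hm0 : 0 < m := by
    rcases Nat.eq_zero_or_pos m with h | h
    · exfalso
      subst h
      rw [Nat.cast_zero] at hm
      exact not_isUnit_zero hm
    · exact h
  have hD0 : Divisor.degree Dw = 0 := degree_eq_zero_of_ord ht hm0 hw0 hD
  have hσt₀ : σ C.swap.t = C.swap.t := SemiData.σ_tinv C hσt
  have hσLN : ∀ (a b : ℕ) (x : F), x ∈ (TwoCharts.ofDivisor Dt).LN a b →
      σ x ∈ (TwoCharts.ofDivisor Dt).LN a b := by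
    intro a b x hx
    rw [LN_eq C ht hDt] at hx ⊢
    exact D.σ_mem_LN C hσt hx
  refine TheoremBFrobAssemble.exists_const_mul_pow C ht hDt hcart (fun b => hPfin b) b₀ hgen hm
    hσLN D.σ_mem D.θ D.φ D.φ_smul D.res_σ' hw0 hwO hwiO hw1 hD hdiv hQ hL2 hL2₀ he he₀ hp hN1
    hp₀ hN1₀ δ b₂ hdimS (hdimN Dw hD0) (hdimN (i' • Dw) ?_)
    (D.φV C hσt) (D.φV_surjective C hσt) (D.φV_smul C hσt) (D.incl_φV C hσt)
    (fun y hy => D.φ_mem_Bbar C hσt hy) (D.cong_of_components C hσt hcong)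
    (D.φV C.swap hσt₀) (D.φV_surjective C.swap hσt₀) (D.φV_smul C.swap hσt₀)
    (D.incl_φV C.swap hσt₀) (fun y hy => D.φ_mem_Bbar C.swap hσt₀ hy)
    (D.cong_of_components C.swap hσt₀ hcong₀)
  rw [map_nsmul, hD0, smul_zero]

end Fermat.Agent.S35x.FrobCounts
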