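/-
helper13 (P-S34 phase 2 = S35, (G3) final concrete form): **Theorem B' for the square of a Frobenius
lift at level `M q`, from the phase-1 inputs only.**

* `exists_const_mul_pow_prod` (abstract): helper50's `Lattice2/AssembleSigma.
  exists_const_mul_pow_sigma_of_prod` (counts and `k`-side inputs discharged at a special fibre
  `E × E`, `T̄ = (x, x ^ q)`) with the whole semilinear bundle
  `(σ, θ, φ, φV, φV₀, hσLN, hσO, hσres, huO, hu1, …)` discharged from a `SemilinearChart.SemiData R σ`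
  with `σ C.t = C.t`; (CONG) in componentwise `κ`-form.
* `exists_const_mul_pow_frobSq_prod` (concrete, level `M q`, `R` with helper44's bridge): for a
  Frobenius lift `φ` at `(A, q)`, `g = arithmeticGalois _ φ` and EVERY normalised `w`
  (`w, w⁻¹ ∈ S.O`, `res w = 1`, `m D_w = div w`), `(g • g • w) / w ^ (q ^ 2) = c v ^ m`.
  (CONG) and (N1) on both charts are discharged from helper46's `Inst/HpthInst` (via `CongInst`);
  the remaining hypotheses are the phase-1 ones: the chart `C` with `C.t = α x`, `x̄ = xb`,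
  `Φ xb = xb`, the degree `hn`, `hcart`, (L2) on both charts, cusp separation, (EQ) and (Y3) for
  `x` and `x⁻¹`.
-/
import Fermat.Agent.S34x.Lattice2.AssembleSigma
import Fermat.Agent.S35x.SemilinearFinal
import Fermat.Agent.S35x.CongInst

set_option autoImplicit false
set_option linter.style.haveILetI false
set_option linter.unusedSectionVars false
set_option synthInstance.maxHeartbeats 400000
set_option maxHeartbeats 1600000

noncomputable section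

namespace Fermat.Agent.S35x.FrobSqProd

open Module Polynomial ModularCurve AlgebraicCurve IntermediateField
open Fermat.Agent.Gateway.Hecke Fermat.Agent.Gateway.ESC Fermat.Agent.Gateway.ES
open Fermat.Agent.Gateway.Red Fermat.Agent.Gateway.GoodRed
open Fermat.Agent.Gateway.GoodRed.ConjFamily Fermat.Agent.Gateway.C0
open Fermat.Agent.S34x.TwoVal Fermat.Agent.S34x.C0two Fermat.Agent.S34x.Lattice2
open Fermat.Agent.S34x.Inst Fermat.Agent.S34x.Inst.L2 Fermat.Agent.S34x.Inst.IsL2Inst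
open Fermat.Agent.S35x.SemilinearChart Fermat.Agent.S35x.FrobSqInst

/-! ### Abstract: `exists_const_mul_pow_sigma_of_prod` from a `SemiData` -/

section Abstract

variable {K : Type*} [Field K] [IsAlgClosed K] [CharZero K] {A : ValuationSubring K}
  {F : Type*} [Field F] [Algebra K F] {S : SmallRing F}
  {k : Type*} [Field k] [IsAlgClosed k] {E : Type*} [Field E] [Algebra k E] {x : E}
  (hx : Transcendental k x) [FiniteDimensional k⟮x⟯ E] [Algebra.IsSeparable k⟮x⟯ E]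
  {q : ℕ} (hq : 0 < q)
  {R : RedSetup2 A S k (E × E)} (C : ChartCoord R) (hT : C.T = (x, x ^ q))
  (ht : Transcendental K C.t) [FiniteDimensional K⟮C.t⟯ F]
  {Dt : Divisor K F} (hDt : ∀ v : Place K F, Dt v = v.ord C.t)
  (hn : finrank K⟮C.t⟯ F = (q + 1) * finrank k⟮x⟯ E)
  (hcart : ∀ V : Submodule K F, FiniteDimensional K V → (R.lat V).FG)
  (hL2 : C.IsL2) (hL2₀ : C.swap.IsL2)
  (he : ∃ c : E, IsIntegral (Algebra.adjoin k {C.T.2}) c ∧ ((1 : E), c * C.T.2) ∈ C.Bbar)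
  (he₀ : ∃ c : E, IsIntegral (Algebra.adjoin k {C.Ti.2}) c ∧
    ((1 : E), c * C.Ti.2) ∈ C.swap.Bbar)
  {m : ℕ} (hmA : IsUnit ((m : ℕ) : A)) (hm0 : 0 < m)
  {σ : F →+* F} (D : SemiData R σ) (hσt : σ C.t = C.t)
  {Q e i' : ℕ} (hQ : m * e = Q + i')
  {p : ℕ} (hp : 2 ≤ p)
  (hN1 : ∀ g : C.B₂, ∃ g' : C.B₂, ((0 : C.B₁), g - g' ^ p) ∈ C.BbarT)
  {p₀ : ℕ} (hp₀ : 2 ≤ p₀)
  (hN1₀ : ∀ g : C.swap.B₂, ∃ g' : C.swap.B₂, ((0 : C.swap.B₁), g - g' ^ p₀) ∈ C.swap.BbarT)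
  (hcong : ∀ z : C.B₁ × C.B₂,
    ((D.φ₁ (z.1 : E) - (z.1 : E) ^ Q, (0 : E)) : E × E) ∈ C.Bbar ∧
    (((0 : E), D.φ₂ (z.2 : E) - (z.2 : E) ^ Q) : E × E) ∈ C.Bbar)
  (hcong₀ : ∀ z : C.swap.B₁ × C.swap.B₂,
    ((D.φ₁ (z.1 : E) - (z.1 : E) ^ Q, (0 : E)) : E × E) ∈ C.swap.Bbar ∧
    (((0 : E), D.φ₂ (z.2 : E) - (z.2 : E) ^ Q) : E × E) ∈ C.swap.Bbar)

include hx hq hT ht hDt hn hcart hL2 hL2₀ he he₀ hmA hm0 hσt hQ hp hN1 hp₀ hN1₀ hcong hcong₀ in
/-- **Theorem B' for a semilinear datum at a special fibre `E × E`, `T̄ = (x, x ^ q)`**, `w`-uniform: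
everything before `w` is independent of `w`. -/
theorem exists_const_mul_pow_prod
    {w : F} (hw0 : w ≠ 0) (hwO : w ∈ S.O) (hwiO : w⁻¹ ∈ S.O) (hw1 : R.res ⟨w, hwO⟩ = 1)
    {Dw : Divisor K F} (hDw : ∀ v : Place K F, (m : ℤ) * Dw v = v.ord w)
    (hdiv : ∀ v : Place K F, (m : ℤ) ∣ v.ord (σ w)) :
    ∃ (c : K) (v : F), σ w / w ^ Q = algebraMap K F c * v ^ m := by
  haveI := isSeparable_adjoin_of_charZero (K := K) C.t
  have hσt₀ : σ C.swap.t = C.swap.t := SemiData.σ_tinv C hσt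
  exact exists_const_mul_pow_sigma_of_prod hx hq C hT ht hDt hn hcart hL2 hL2₀ he he₀ hmA hm0
    (SemilinearFinal.sigma_mem_LN C ht hDt D hσt) D.σ_mem hQ D.θ D.φ D.φ_smul D.res_σ'
    hp hN1 (D.φV C hσt) (D.φV_surjective C hσt) (D.φV_smul C hσt) (D.incl_φV C hσt)
    (fun _ hy => D.φ_mem_Bbar C hσt hy) (D.cong_of_components C hσt hcong)
    hp₀ hN1₀ (D.φV C.swap hσt₀) (D.φV_surjective C.swap hσt₀) (D.φV_smul C.swap hσt₀)
    (D.incl_φV C.swap hσt₀) (fun _ hy => D.φ_mem_Bbar C.swap hσt₀ hy)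
    (D.cong_of_components C.swap hσt₀ hcong₀)
    hw0 hwO hwiO hw1 hDw hdiv (D.div_pow_mem hwO hwiO Q) (D.res_div_pow hwO hwiO hw1 Q)

end Abstract

/-! ### Concrete: the square of a Frobenius lift at level `M q` -/

section Concrete

variable {L : Type} [Field L] [Algebra ℚ L] [IsAlgClosed L] {A : ValuationSubring L}
  {k : Type} [Field k] [IsAlgClosed k] {π : A →+* k} {M : ℕ} [NeZero M] {q : ℕ} [NeZero q]
  [Fact q.Prime] [CharP k q] [PerfectRing k q]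
  {hdeg : finrankAlong L (heckeAlphaBar L M q) = q + 1} {hq : q.Prime} {hqM : ¬ q ∣ M}
  {S : SmallRing (FL L (M * q))} {R : RedSetup2 A S k (Fk k M × Fk k M)}
  (hB : Bridge A π M q hdeg hq hqM R) (hπ : Function.Surjective π)
  {φ : L ≃ₐ[ℚ] L} (hφ : A.IsFrobeniusAt φ q)
  (C : ChartCoord R) (x : FL L M) (xb : Fk k M)
  (hCt : C.t = heckeAlphaBar L M q x)
  (hσt : arithmeticGalois (modularFunctionFieldFull (M * q)) φ • C.t = C.t)
  (hxO : x ∈ Ov A π (FBar L M))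
  (hxb : redV A π (FBar L M) ⟨x, hxO⟩ = ((xb : Fk k M) : LaurentSeries k))
  (hfix : frobInvLS q ((xb : Fk k M) : LaurentSeries k) = xb)
  (hxt : Transcendental k xb) [FiniteDimensional k⟮xb⟯ (Fk k M)]
  [Algebra.IsSeparable k⟮xb⟯ (Fk k M)]
  (ht : Transcendental L C.t) [FiniteDimensional L⟮C.t⟯ (FL L (M * q))]
  {Dt : Divisor L (FL L (M * q))} (hDt : ∀ v : Place L (FL L (M * q)), Dt v = v.ord C.t)
  (hn : finrank L⟮C.t⟯ (FL L (M * q)) = (q + 1) * finrank k⟮xb⟯ (Fk k M))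
  (hcart : ∀ V : Submodule L (FL L (M * q)), FiniteDimensional L V → (R.lat V).FG)
  (hL2 : C.IsL2) (hL2₀ : C.swap.IsL2)
  (he : ∃ c : Fk k M, IsIntegral (Algebra.adjoin k {C.T.2}) c ∧
    ((1 : Fk k M), c * C.T.2) ∈ C.Bbar)
  (he₀ : ∃ c : Fk k M, IsIntegral (Algebra.adjoin k {C.Ti.2}) c ∧
    ((1 : Fk k M), c * C.Ti.2) ∈ C.swap.Bbar)
  (hEQ : LiftsIntegral A π M q hπ hqM x xb)
  (hY3 : IsIntegral (Algebra.adjoin L {heckeAlphaBar L M q x}) (heckeBetaBar L M q x))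
  (hEQ₀ : LiftsIntegral A π M q hπ hqM x⁻¹ xb⁻¹)
  (hY3₀ : IsIntegral (Algebra.adjoin L {(heckeAlphaBar L M q x)⁻¹}) (heckeBetaBar L M q x)⁻¹)
  {m : ℕ} (hmA : IsUnit ((m : ℕ) : A)) (hm0 : 0 < m)
  {e i' : ℕ} (hQ : m * e = q ^ 2 + i')

include hB hπ hφ hCt hσt hxb hfix hxt ht hDt hn hcart hL2 hL2₀ he he₀ hEQ hY3 hEQ₀ hY3₀ hmA hm0 hQ in
/-- **Theorem B' for the square of a Frobenius lift at level `M q`**, `w`-uniform, from the phase-1
inputs: for every normalised `w`, `(g • g • w) / w ^ (q ^ 2) = c v ^ m`. -/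
theorem exists_const_mul_pow_frobSq_prod
    {w : FL L (M * q)} (hw0 : w ≠ 0) (hwO : w ∈ S.O) (hwiO : w⁻¹ ∈ S.O)
    (hw1 : R.res ⟨w, hwO⟩ = 1)
    {Dw : Divisor L (FL L (M * q))}
    (hDw : ∀ v : Place L (FL L (M * q)), (m : ℤ) * Dw v = v.ord w) :
    ∃ (c : L) (v : FL L (M * q)),
      (arithmeticGalois (modularFunctionFieldFull (M * q)) φ •
          arithmeticGalois (modularFunctionFieldFull (M * q)) φ • w) / w ^ (q ^ 2) =
        algebraMap L (FL L (M * q)) c * v ^ m := by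
  haveI : CharZero L := algebraRat.charZero L
  have hqpos : 0 < q := Nat.pos_of_ne_zero (NeZero.ne q)
  set g := arithmeticGalois (modularFunctionFieldFull (M * q)) φ with hg
  have hσt' : sigmaHom (M * q) (φ * φ) C.t = C.t := by
    rw [sigmaHom_mul_apply, ← hg, hσt, hσt]
  have hdiv : ∀ v : Place L (FL L (M * q)), (m : ℤ) ∣ v.ord (sigmaHom (M * q) (φ * φ) w) := by
    intro v
    rw [sigmaHom_mul_apply]
    refine dvd_ord_smul _ (dvd_ord_smul _ (fun P => ?_)) v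
    exact ⟨Dw P, (hDw P).symm⟩
  have hT1 : C.T.1 = xb := HpthInst.T_fst_eq A π M q hdeg hq hqM hB C x xb hCt hxO hxb
  have hT2 : C.T.2 = xb ^ q := HpthInst.T_snd_eq A π M q hdeg hq hqM hB C x xb hCt hxO hxb hfix
  have hT : C.T = (xb, xb ^ q) := Prod.ext hT1 hT2
  have hp : 2 ≤ q ^ 2 := by
    have h2 : 2 ≤ q := (Fact.out : q.Prime).two_le
    nlinarith
  have hN1 := HpthInst.hpth A π M q hdeg hq hπ hqM hB C x xb hCt hT2 hEQ hY3
    (HpthInst.frobStable_of_fix M q xb hfix)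
  have hN1₀ := HpthInst.hpth_swap A π M q hdeg hq hπ hqM hB C x xb hCt hT2 hEQ₀ hY3₀
    (HpthInst.frobStable_of_fix M q xb⁻¹ (HpthInst.fix_inv M q xb hfix))
  have hcong := CongInst.cong A π M q hdeg hq hπ hqM hB C x xb hCt hT1 hT2 hEQ hY3 hfix
  have hcong₀ := CongInst.cong_swap A π M q hdeg hq hπ hqM hB C x xb hCt hT1 hT2 hEQ₀ hY3₀ hfix
  obtain ⟨c, v, hcv⟩ := exists_const_mul_pow_prod hxt hqpos C hT ht hDt hn hcart hL2 hL2₀ he he₀
    hmA hm0 (semiDataFrobSq hB hπ hφ) hσt' hQ hp hN1 hp hN1₀ hcong hcong₀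
    hw0 hwO hwiO hw1 hDw hdiv
  refine ⟨c, v, ?_⟩
  rw [← hcv, sigmaHom_mul_apply]

end Concrete

end Fermat.Agent.S35x.FrobSqProd
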