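/-
helper13 (P-S34 phase 2 = S35, piece (G1)): the `q`-EXPANSION NORM FORMULAS for the two degeneracy
maps `α, β : F_N → F_{Nq}` (`q ∤ N` prime), in the two-embedding formalism of
`S34x/TwoVal/Iota0.lean`:  with `ι₀ : F_{Nq} → L((s))` the second embedding
(`ι₀ (α h) = h(s^q)`, `ι₀ (β h) = h(s)`) and `ζ` a primitive `q`-th root of unity,

* `normQExp_alpha` : `(Norm_α u)(t^q) = u(t^q) * ∏_{b<q} (ι₀ u)(ζ^b t)`;
* `normQExp_beta`  : `(Norm_β u)(t^q) = (ι₀ u)(t^q) * ∏_{b<q} u(ζ^b t)`.

Proof: the `q + 1` explicit embeddings of `F_{Nq}` over `α F_N` (resp. `β F_N`) into an algebraic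
closure of `L((t))` are pairwise distinct (`ESC/CharpolyBeta.conjHom_injective`), hence they are ALL
the embeddings, and the norm is the product over the embeddings.
-/
import Fermat.Agent.S34x.TwoVal.Iota0

set_option autoImplicit false
set_option linter.style.haveILetI false

noncomputable section

namespace Fermat.Agent.S35x.NormQ

open Polynomial ModularCurve AlgebraicCurve IntermediateField
open Fermat.Agent.S28 Fermat.Agent.S28.Tower Fermat.Agent.Gateway.Hecke
open Fermat.Agent.Gateway Fermat.Agent.Gateway.ESC Fermat.Agent.S34x.TwoVal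

section Abstract

variable {F F' E ι : Type*} [Field F] [Field F'] [Field E] [Fintype ι]

/-- **Norm = product over an explicit family of pairwise distinct embeddings of the right
cardinality.** -/
theorem norm_eq_prod_of_distinct_family [IsAlgClosed E] (f : F →+* F') (e : F →+* E)
    (hfin : letI := f.toAlgebra; Module.Finite F F')
    (hsep : letI := f.toAlgebra; Algebra.IsSeparable F F')
    (hcard : Fintype.card ι = finrankAlongHom f) (s : ι → F' →+* E)
    (hs : ∀ i, (s i).comp f = e) (hinj : Function.Injective s) (y : F') :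
    e (@Algebra.norm F F' _ _ f.toAlgebra y) = ∏ i, s i y := by
  classical
  letI := f.toAlgebra
  letI := e.toAlgebra
  haveI : Module.Finite F F' := hfin
  haveI : Algebra.IsSeparable F F' := hsep
  have hsx : ∀ i x, s i (f x) = e x := fun i x => by
    rw [← hs i]; rfl
  let s' : ι → (F' →ₐ[F] E) := fun i =>
    { s i with commutes' := fun x => hsx i x }
  have hs' : ∀ i y, s' i y = s i y := fun i y => rfl
  have hinj' : Function.Injective s' := by
    intro i j hij
    apply hinj
    ext y
    rw [← hs' i y, ← hs' j y, hij]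
  have hbij : Function.Bijective s' := by
    rw [Fintype.bijective_iff_injective_and_card]
    refine ⟨hinj', ?_⟩
    rw [AlgHom.card F F' E, hcard]
    rfl
  have h1 : e (Algebra.norm F y) = ∏ σ : F' →ₐ[F] E, σ y :=
    Algebra.norm_eq_prod_embeddings F E y
  rw [h1]
  exact (Fintype.prod_bijective s' hbij _ _ fun i => (hs' i y).symm).symm

/-- LaurentSeries-valued version: if the embeddings all factor through `emb : S → E`. -/
theorem norm_eq_prod_of_distinct_family' [IsAlgClosed E] {S : Type*} [Field S] (emb : S →+* E)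
    (f : F →+* F') (e : F →+* S)
    (hfin : letI := f.toAlgebra; Module.Finite F F')
    (hsep : letI := f.toAlgebra; Algebra.IsSeparable F F')
    (hcard : Fintype.card ι = finrankAlongHom f) (s : ι → F' →+* S)
    (hs : ∀ i x, s i (f x) = e x) (hinj : Function.Injective s) (y : F') :
    e (@Algebra.norm F F' _ _ f.toAlgebra y) = ∏ i, s i y := by
  have key := norm_eq_prod_of_distinct_family f (emb.comp e) hfin hsep hcard
    (fun i => emb.comp (s i))
    (fun i => RingHom.ext fun x => by
      rw [RingHom.comp_apply, RingHom.comp_apply, RingHom.comp_apply, hs])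
    (fun i j hij => hinj (RingHom.ext fun x => emb.injective (by
      have := congrFun (congrArg DFunLike.coe hij) x
      rwa [RingHom.comp_apply, RingHom.comp_apply] at this))) y
  apply emb.injective
  rw [map_prod]
  rw [RingHom.comp_apply] at key
  rw [key]
  refine Finset.prod_congr rfl fun i _ => ?_
  rw [RingHom.comp_apply]

end Abstract

section Main

variable (L : Type) [Field L] [Algebra ℚ L] [IsAlgClosed L]
variable (N q : ℕ) [NeZero N] [NeZero q]

omit [IsAlgClosed L] in
theorem normAlong_eq (ψ : FL L N →ₐ[L] FL L (N * q)) (u : FL L (N * q)) :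
    Kummer.normAlong ψ u = @Algebra.norm (FL L N) (FL L (N * q)) _ _ ψ.toRingHom.toAlgebra u :=
  rfl

/-- the natural embedding `F_{Nq} ⊆ L((t))` as a ring homomorphism -/
def natEmb : FL L (N * q) →+* LaurentSeries L := algebraMap (FL L (N * q)) (LaurentSeries L)

omit [IsAlgClosed L] in
theorem natEmb_apply (u : FL L (N * q)) : natEmb L N q u = (u : LaurentSeries L) := rfl

/-- the family of embeddings of `F_{Nq}` over `α F_N` (base embedding `h ↦ h(t^q)`) -/
def famAlpha (ι₀ : FL L (N * q) →+* LaurentSeries L) (ζ : Lˣ) :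
    Option (Fin q) → (FL L (N * q) →+* LaurentSeries L)
  | none => (qExpand L q).comp (natEmb L N q)
  | some i => (Tower.twist (ζ ^ (i : ℕ))).comp ι₀

/-- the family of embeddings of `F_{Nq}` over `β F_N` (base embedding `h ↦ h(t^q)`) -/
def famBeta (ι₀ : FL L (N * q) →+* LaurentSeries L) (ζ : Lˣ) :
    Option (Fin q) → (FL L (N * q) →+* LaurentSeries L)
  | none => (qExpand L q).comp ι₀
  | some i => (Tower.twist (ζ ^ (i : ℕ))).comp (natEmb L N q)

variable {L N q}

omit [IsAlgClosed L] in
theorem famAlpha_none (ι₀ : FL L (N * q) →+* LaurentSeries L) (ζ : Lˣ) (u : FL L (N * q)) :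
    famAlpha L N q ι₀ ζ none u = qExpand L q (u : LaurentSeries L) := rfl

omit [IsAlgClosed L] in
theorem famAlpha_some (ι₀ : FL L (N * q) →+* LaurentSeries L) (ζ : Lˣ) (i : Fin q)
    (u : FL L (N * q)) :
    famAlpha L N q ι₀ ζ (some i) u = Tower.twist (ζ ^ (i : ℕ)) (ι₀ u) := rfl

omit [IsAlgClosed L] in
theorem famBeta_none (ι₀ : FL L (N * q) →+* LaurentSeries L) (ζ : Lˣ) (u : FL L (N * q)) :
    famBeta L N q ι₀ ζ none u = qExpand L q (ι₀ u) := rfl

omit [IsAlgClosed L] in
theorem famBeta_some (ι₀ : FL L (N * q) →+* LaurentSeries L) (ζ : Lˣ) (i : Fin q)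
    (u : FL L (N * q)) :
    famBeta L N q ι₀ ζ (some i) u = Tower.twist (ζ ^ (i : ℕ)) (u : LaurentSeries L) := rfl

omit [IsAlgClosed L] [Algebra ℚ L] in
theorem twist_qExpand_of_pow_eq_one {ζ : Lˣ} (hζ : ζ ^ q = 1) (i : ℕ) (f : LaurentSeries L) :
    Tower.twist (ζ ^ i) (qExpand L q f) = qExpand L q f := by
  rw [← expand_eq_qExpand]
  exact twist_expand_of_pow_eq_one (NeZero.ne q) _
    (by rw [← pow_mul, mul_comm, pow_mul, hζ, one_pow]) f

variable (hdeg : finrankAlong L (heckeAlphaBar L N q) = q + 1) (hq : q.Prime) (hqN : ¬ q ∣ N)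

/-- the `α`-family restricted to `α F_N` is the base embedding -/
theorem famAlpha_alpha {ζ : Lˣ} (hζ : ζ ^ q = 1) (c : Option (Fin q)) (v : FL L N) :
    famAlpha L N q (iota0 L N q hdeg hq hqN) ζ c ((heckeAlphaBar L N q).toRingHom v) =
      baseHom L N q v := by
  rw [baseHom_apply, AlgHom.toRingHom_eq_coe, RingHom.coe_coe]
  cases c with
  | none => rw [famAlpha_none, coe_heckeAlphaBar]
  | some i => rw [famAlpha_some, iota0_alpha, twist_qExpand_of_pow_eq_one hζ]

/-- the `α`-family restricted to `β F_N` is the family of conjugates -/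
theorem famAlpha_beta (ζ : Lˣ) (c : Option (Fin q)) (v : FL L N) :
    famAlpha L N q (iota0 L N q hdeg hq hqN) ζ c (heckeBetaBar L N q v) =
      conjHom L N q ζ c v := by
  rw [conjHom_apply]
  cases c with
  | none => rw [famAlpha_none, coe_heckeBetaBar, tauHom_none, qExpand_qExpand]
  | some i => rw [famAlpha_some, iota0_beta, tauHom_some]

/-- the `β`-family restricted to `β F_N` is the base embedding -/
theorem famBeta_beta {ζ : Lˣ} (hζ : ζ ^ q = 1) (c : Option (Fin q)) (v : FL L N) :
    famBeta L N q (iota0 L N q hdeg hq hqN) ζ c ((heckeBetaBar L N q).toRingHom v) =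
      baseHom L N q v := by
  rw [baseHom_apply, AlgHom.toRingHom_eq_coe, RingHom.coe_coe]
  cases c with
  | none => rw [famBeta_none, iota0_beta]
  | some i => rw [famBeta_some, coe_heckeBetaBar, twist_qExpand_of_pow_eq_one hζ]

/-- the `β`-family restricted to `α F_N` is the family of conjugates -/
theorem famBeta_alpha (ζ : Lˣ) (c : Option (Fin q)) (v : FL L N) :
    famBeta L N q (iota0 L N q hdeg hq hqN) ζ c (heckeAlphaBar L N q v) =
      conjHom L N q ζ c v := by
  rw [conjHom_apply]
  cases c with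
  | none => rw [famBeta_none, iota0_alpha, tauHom_none, qExpand_qExpand]
  | some i => rw [famBeta_some, coe_heckeAlphaBar, tauHom_some]

theorem famAlpha_injective {ζ : Lˣ} (hζ : IsPrimitiveRoot ζ q) :
    Function.Injective (famAlpha L N q (iota0 L N q hdeg hq hqN) ζ) := by
  intro c c' h
  apply conjHom_injective (N := N) hq hζ
  refine RingHom.ext fun v => ?_
  rw [← famAlpha_beta hdeg hq hqN ζ c v, ← famAlpha_beta hdeg hq hqN ζ c' v, h]

theorem famBeta_injective {ζ : Lˣ} (hζ : IsPrimitiveRoot ζ q) :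
    Function.Injective (famBeta L N q (iota0 L N q hdeg hq hqN) ζ) := by
  intro c c' h
  apply conjHom_injective (N := N) hq hζ
  refine RingHom.ext fun v => ?_
  rw [← famBeta_alpha hdeg hq hqN ζ c v, ← famBeta_alpha hdeg hq hqN ζ c' v, h]

/-- (G1), `α`-half, in family form -/
theorem baseHom_normAlong_alpha (ζ : Lˣ) (hζ : IsPrimitiveRoot ζ q) (u : FL L (N * q)) :
    baseHom L N q (Kummer.normAlong (heckeAlphaBar L N q) u) =
      ∏ c, famAlpha L N q (iota0 L N q hdeg hq hqN) ζ c u := by
  have hcard : Fintype.card (Option (Fin q)) =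
      finrankAlongHom (heckeAlphaBar L N q).toRingHom := by
    rw [Fintype.card_option, Fintype.card_fin]
    exact hdeg.symm
  rw [normAlong_eq]
  exact norm_eq_prod_of_distinct_family'
    (algebraMap (LaurentSeries L) (AlgebraicClosure (LaurentSeries L)))
    (heckeAlphaBar L N q).toRingHom (baseHom L N q) (finiteAlong_alpha L N q)
    (isSeparable_along _ (finiteAlong_alpha L N q)) hcard
    (famAlpha L N q (iota0 L N q hdeg hq hqN) ζ)
    (fun c v => famAlpha_alpha hdeg hq hqN hζ.pow_eq_one c v)
    (famAlpha_injective hdeg hq hqN hζ) u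

/-- (G1), `β`-half, in family form -/
theorem baseHom_normAlong_beta (ζ : Lˣ) (hζ : IsPrimitiveRoot ζ q) (u : FL L (N * q)) :
    baseHom L N q (Kummer.normAlong (heckeBetaBar L N q) u) =
      ∏ c, famBeta L N q (iota0 L N q hdeg hq hqN) ζ c u := by
  have hcard : Fintype.card (Option (Fin q)) =
      finrankAlongHom (heckeBetaBar L N q).toRingHom := by
    rw [Fintype.card_option, Fintype.card_fin]
    exact (finrankAlong_beta hdeg hq hqN ζ hζ).symm
  rw [normAlong_eq]
  exact norm_eq_prod_of_distinct_family'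
    (algebraMap (LaurentSeries L) (AlgebraicClosure (LaurentSeries L)))
    (heckeBetaBar L N q).toRingHom (baseHom L N q) (finiteAlong_beta L N q)
    (isSeparable_along _ (finiteAlong_beta L N q)) hcard
    (famBeta L N q (iota0 L N q hdeg hq hqN) ζ)
    (fun c v => famBeta_beta hdeg hq hqN hζ.pow_eq_one c v)
    (famBeta_injective hdeg hq hqN hζ) u

/-- **(G1), `α`-half**: `(Norm_α u)(t^q) = u(t^q) * ∏_{b<q} (ι₀ u)(ζ^b t)`. -/
theorem normQExp_alpha (ζ : Lˣ) (hζ : IsPrimitiveRoot ζ q) (u : FL L (N * q)) :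
    qExpand L q ((Kummer.normAlong (heckeAlphaBar L N q) u : FL L N) : LaurentSeries L) =
      qExpand L q (u : LaurentSeries L) *
        ∏ b ∈ Finset.range q, Kummer.twist (ζ ^ b) (iota0 L N q hdeg hq hqN u) := by
  rw [← baseHom_apply, baseHom_normAlong_alpha hdeg hq hqN ζ hζ u, Fintype.prod_option,
    famAlpha_none, ← Fin.prod_univ_eq_prod_range
      (fun b => Kummer.twist (ζ ^ b) (iota0 L N q hdeg hq hqN u)) q]
  refine congrArg _ (Finset.prod_congr rfl fun i _ => ?_)
  rw [famAlpha_some, kummer_twist_eq]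

/-- **(G1), `β`-half**: `(Norm_β u)(t^q) = (ι₀ u)(t^q) * ∏_{b<q} u(ζ^b t)`. -/
theorem normQExp_beta (ζ : Lˣ) (hζ : IsPrimitiveRoot ζ q) (u : FL L (N * q)) :
    qExpand L q ((Kummer.normAlong (heckeBetaBar L N q) u : FL L N) : LaurentSeries L) =
      qExpand L q (iota0 L N q hdeg hq hqN u) *
        ∏ b ∈ Finset.range q, Kummer.twist (ζ ^ b) (u : LaurentSeries L) := by
  rw [← baseHom_apply, baseHom_normAlong_beta hdeg hq hqN ζ hζ u, Fintype.prod_option,
    famBeta_none, ← Fin.prod_univ_eq_prod_range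
      (fun b => Kummer.twist (ζ ^ b) (u : LaurentSeries L)) q]
  refine congrArg _ (Finset.prod_congr rfl fun i _ => ?_)
  rw [famBeta_some, kummer_twist_eq]

end Main

end Fermat.Agent.S35x.NormQ
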