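import Fermat.Agent.S34x.TwoVal.Gauss0
import Fermat.Agent.Gateway.Kummer.Basic
import Fermat.Agent.Gateway.Kummer.Twist

/-!
# Reduction mod `q` of the two norm formulas at the level prime (P-S34 phase 2, (G1) reduced)

`L` algebraically closed of characteristic `0`, `A` a valuation subring of `L`, `π : A → k` onto an
algebraically closed field of characteristic `q`, `q ∤ N`.  For `u ∈ F_{Nq}` with `q`-expansion `u`
at `∞` and `ι₀ u` at `0`, the norm formulas (G1) (taken as hypotheses)

  `(N_α u)(t^q) = u(t^q) * ∏_{b<q} (ι₀ u)(ζ^b t)`,   `(N_β u)(t^q) = (ι₀ u)(t^q) * ∏_{b<q} u(ζ^b t)`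

reduce, for `u` and `c₀ * ι₀ u` in the Gauss ring and `ζ ≡ 1`, to

  `red (c₀^q * N_α u) = red u * Fr (red (c₀ * ι₀ u))`,   `red (c₀ * N_β u) = red (c₀ * ι₀ u) * Fr (red u)`,

`Fr` the coefficientwise Frobenius.

* `gaussRed_of_qExpand_formula` : the abstract Laurent series statement;
* `red_norm_alpha`, `red_norm_beta` : the two instances.
-/

set_option autoImplicit false
set_option linter.style.haveILetI false
set_option linter.unusedSectionVars false

noncomputable section

namespace Fermat.Agent.S35x.NormRed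

open ModularCurve AlgebraicCurve
open Fermat.Agent.Gateway Fermat.Agent.Gateway.Hecke Fermat.Agent.Gateway.Red
open Fermat.Agent.Gateway.GoodRed Fermat.Agent.S34x.TwoVal

section Twist

variable {R : Type*} [CommRing R]

/-- the two copies of the substitution `t ↦ ζ t` agree -/
theorem kummerTwist_eq (ζ : Rˣ) : Kummer.twist ζ = Fermat.Agent.S28.twist ζ := by
  ext y n
  rfl

theorem kummerTwist_C (ζ : Rˣ) (r : R) : Kummer.twist ζ (HahnSeries.C r) = HahnSeries.C r := by
  rw [kummerTwist_eq, Fermat.Agent.S28.twist_C]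

end Twist

section Abstract

variable {L : Type*} [Field L] (A : ValuationSubring L) {k : Type*} [Field k] (π : A →+* k)

theorem kummerTwist_mem_gaussRing (ζA : Aˣ) {y : LaurentSeries L} (hy : y ∈ gaussRing A π) :
    Kummer.twist (Units.map (A.subtype : A →* L) ζA) y ∈ gaussRing A π := by
  rw [kummerTwist_eq]
  exact GaussRing.twist_mem_gaussRing A π ζA hy

/-- twisting by a unit of `A` which is `≡ 1` does not change the reduction -/
theorem gaussRed_kummerTwist (ζA : Aˣ) (hζ : π ζA = 1) {y : LaurentSeries L}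
    (hy : y ∈ gaussRing A π) :
    gaussRed A π ⟨Kummer.twist (Units.map (A.subtype : A →* L) ζA) y,
      kummerTwist_mem_gaussRing A π ζA hy⟩ = gaussRed A π ⟨y, hy⟩ := by
  have h1 := GaussRing.gaussRed_twist A π ζA hy
  have hζ' : Units.map (π : A →* k) ζA = 1 := Units.ext hζ
  rw [hζ', Fermat.Agent.S28.twist_one] at h1
  rw [← h1]
  exact gaussRed_congr A π (by rw [kummerTwist_eq]) _ _

variable (q : ℕ) [hq : Fact q.Prime] [CharP k q]

/-- the product of the twists lies in the Gauss ring -/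
theorem prod_twist_mem_gaussRing (ζA : Aˣ) {y : LaurentSeries L} (hy : y ∈ gaussRing A π)
    (n : ℕ) :
    ∏ b ∈ Finset.range n, Kummer.twist (Units.map (A.subtype : A →* L) ζA ^ b) y ∈
      gaussRing A π := by
  refine Subring.prod_mem _ fun b _ => ?_
  rw [← map_pow]
  exact kummerTwist_mem_gaussRing A π (ζA ^ b) hy

/-- the reduction of the product of the twists by `ζ ≡ 1` is the `n`-th power -/
theorem gaussRed_prod_twist (ζA : Aˣ) (hζ : π ζA = 1) {y : LaurentSeries L}
    (hy : y ∈ gaussRing A π) (n : ℕ) :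
    gaussRed A π ⟨∏ b ∈ Finset.range n, Kummer.twist (Units.map (A.subtype : A →* L) ζA ^ b) y,
      prod_twist_mem_gaussRing A π ζA hy n⟩ = gaussRed A π ⟨y, hy⟩ ^ n := by
  have h1 : (⟨∏ b ∈ Finset.range n, Kummer.twist (Units.map (A.subtype : A →* L) ζA ^ b) y,
      prod_twist_mem_gaussRing A π ζA hy n⟩ : gaussRing A π) =
      ∏ b ∈ Finset.range n, (⟨Kummer.twist (Units.map (A.subtype : A →* L) (ζA ^ b)) y,
        kummerTwist_mem_gaussRing A π (ζA ^ b) hy⟩ : gaussRing A π) := by
    apply Subtype.ext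
    have h0 := map_prod (gaussRing A π).subtype (fun b : ℕ =>
      (⟨Kummer.twist (Units.map (A.subtype : A →* L) (ζA ^ b)) y,
        kummerTwist_mem_gaussRing A π (ζA ^ b) hy⟩ : gaussRing A π)) (Finset.range n)
    refine Eq.trans ?_ h0.symm
    show (∏ b ∈ Finset.range n, Kummer.twist (Units.map (A.subtype : A →* L) ζA ^ b) y) =
      ∏ b ∈ Finset.range n, Kummer.twist (Units.map (A.subtype : A →* L) (ζA ^ b)) y
    refine Finset.prod_congr rfl fun b _ => ?_
    rw [map_pow]
  rw [h1, map_prod]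
  have h2 : ∀ b ∈ Finset.range n,
      gaussRed A π ⟨Kummer.twist (Units.map (A.subtype : A →* L) (ζA ^ b)) y,
        kummerTwist_mem_gaussRing A π (ζA ^ b) hy⟩ = gaussRed A π ⟨y, hy⟩ := by
    intro b _
    exact gaussRed_kummerTwist A π (ζA ^ b) (by rw [Units.val_pow_eq_pow_val, map_pow, hζ, one_pow]) hy
  rw [Finset.prod_congr rfl h2, Finset.prod_const, Finset.card_range]

/-- **Abstract reduction of a norm formula.**  If `z(t^q) = x(t^q) * ∏_{b<q} y(ζ^b t)` with `x`, `y`
in the Gauss ring and `ζ ≡ 1`, then `z(t^q)` is in the Gauss ring, and if `z` is in the Gauss ring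
then `z̄ = x̄ * Fr(ȳ)`. -/
theorem qExpand_mem_of_formula (ζA : Aˣ) {x y z : LaurentSeries L}
    (hx : x ∈ gaussRing A π) (hy : y ∈ gaussRing A π)
    (hG : haveI : NeZero q := ⟨hq.out.ne_zero⟩
      qExpand L q z = qExpand L q x *
        ∏ b ∈ Finset.range q, Kummer.twist (Units.map (A.subtype : A →* L) ζA ^ b) y) :
    haveI : NeZero q := ⟨hq.out.ne_zero⟩
    qExpand L q z ∈ gaussRing A π := by
  haveI : NeZero q := ⟨hq.out.ne_zero⟩
  rw [hG]
  exact Subring.mul_mem _ (GaussRing.qExpand_mem_gaussRing A π q hx)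
    (prod_twist_mem_gaussRing A π ζA hy q)

theorem gaussRed_of_qExpand_formula (ζA : Aˣ) (hζ : π ζA = 1) {x y z : LaurentSeries L}
    (hx : x ∈ gaussRing A π) (hy : y ∈ gaussRing A π) (hz : z ∈ gaussRing A π)
    (hG : haveI : NeZero q := ⟨hq.out.ne_zero⟩
      qExpand L q z = qExpand L q x *
        ∏ b ∈ Finset.range q, Kummer.twist (Units.map (A.subtype : A →* L) ζA ^ b) y) :
    gaussRed A π ⟨z, hz⟩ =
      gaussRed A π ⟨x, hx⟩ * coeffMap (frobenius k q) (gaussRed A π ⟨y, hy⟩) := by
  haveI : NeZero q := ⟨hq.out.ne_zero⟩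
  apply ModularCurve.qExpand_injective q
  rw [← GaussRing.gaussRed_qExpand A π q hz, map_mul,
    ← Fermat.Agent.Gateway.ES.pow_char_eq_qExpand_coeffMap_frobenius q,
    ← GaussRing.gaussRed_qExpand A π q hx, ← gaussRed_prod_twist A π ζA hζ hy q, ← map_mul]
  exact gaussRed_congr A π hG _ _

end Abstract

section Instances

variable {L : Type} [Field L] [Algebra ℚ L] [IsAlgClosed L] (A : ValuationSubring L)
  {k : Type} [Field k] (π : A →+* k) [IsAlgClosed k]
variable (N q : ℕ) [NeZero N] [NeZero q] [Fact q.Prime] [CharP k q]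
variable (hdeg : finrankAlong L (heckeAlphaBar L N q) = q + 1) (hq : q.Prime) (hqN : ¬ q ∣ N)

/-- the `q`-expansion of a constant multiple of an element of `F_N` -/
theorem coe_algebraMap_mul (c : L) (x : FL L N) :
    ((algebraMap L (FL L N) c * x : FL L N) : LaurentSeries L) =
      HahnSeries.C c * (x : LaurentSeries L) := by
  rw [← GaussRing.algebraMap_eq_C L c, MulMemClass.coe_mul]
  rfl

/-- **Reduction of the norm formula along `α`**:
`red (c₀^q * N_α u) = red u * Fr (red (c₀ * ι₀ u))`. -/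
theorem red_norm_alpha (hπ : Function.Surjective π) (ζA : Aˣ) (hζ : π ζA = 1)
    (u : FL L (N * q)) (c₀ : L)
    (hGα : qExpand L q ((Kummer.normAlong (heckeAlphaBar L N q) u : FL L N) : LaurentSeries L) =
      qExpand L q (u : LaurentSeries L) *
        ∏ b ∈ Finset.range q, Kummer.twist (Units.map (A.subtype : A →* L) ζA ^ b)
          (iota0 L N q hdeg hq hqN u))
    (hu : (u : LaurentSeries L) ∈ gaussRing A π)
    (hu0 : HahnSeries.C c₀ * iota0 L N q hdeg hq hqN u ∈ gaussRing A π) :
    ∃ h : HahnSeries.C (c₀ ^ q) *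
        ((Kummer.normAlong (heckeAlphaBar L N q) u : FL L N) : LaurentSeries L) ∈ gaussRing A π,
      gaussRed A π ⟨_, h⟩ = gaussRed A π ⟨(u : LaurentSeries L), hu⟩ *
        coeffMap (frobenius k q) (gaussRed A π ⟨_, hu0⟩) := by
  set Nα : FL L N := Kummer.normAlong (heckeAlphaBar L N q) u with hNα
  have hG : qExpand L q (HahnSeries.C (c₀ ^ q) * (Nα : LaurentSeries L)) =
      qExpand L q (u : LaurentSeries L) *
        ∏ b ∈ Finset.range q, Kummer.twist (Units.map (A.subtype : A →* L) ζA ^ b)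
          (HahnSeries.C c₀ * iota0 L N q hdeg hq hqN u) := by
    rw [map_mul, qExpand_C, hGα]
    simp only [map_mul, kummerTwist_C]
    rw [Finset.prod_mul_distrib, Finset.prod_const, Finset.card_range, ← map_pow]
    ring
  have hmem := qExpand_mem_of_formula A π q ζA hu hu0 hG
  have hz : HahnSeries.C (c₀ ^ q) * (Nα : LaurentSeries L) ∈ gaussRing A π := by
    have h1 := Fermat.Agent.Gateway.ESC.mem_Ov_of_qExpand_mem A π q N hπ hqN q
      (algebraMap L (FL L N) (c₀ ^ q) * Nα) (by rw [coe_algebraMap_mul]; exact hmem)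
    rw [mem_Ov_iff, coe_algebraMap_mul] at h1
    exact h1
  exact ⟨hz, gaussRed_of_qExpand_formula A π q ζA hζ hu hu0 hz hG⟩

/-- **Reduction of the norm formula along `β`**:
`red (c₀ * N_β u) = red (c₀ * ι₀ u) * Fr (red u)`. -/
theorem red_norm_beta (hπ : Function.Surjective π) (ζA : Aˣ) (hζ : π ζA = 1)
    (u : FL L (N * q)) (c₀ : L)
    (hGβ : qExpand L q ((Kummer.normAlong (heckeBetaBar L N q) u : FL L N) : LaurentSeries L) =
      qExpand L q (iota0 L N q hdeg hq hqN u) *
        ∏ b ∈ Finset.range q, Kummer.twist (Units.map (A.subtype : A →* L) ζA ^ b)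
          (u : LaurentSeries L))
    (hu : (u : LaurentSeries L) ∈ gaussRing A π)
    (hu0 : HahnSeries.C c₀ * iota0 L N q hdeg hq hqN u ∈ gaussRing A π) :
    ∃ h : HahnSeries.C c₀ *
        ((Kummer.normAlong (heckeBetaBar L N q) u : FL L N) : LaurentSeries L) ∈ gaussRing A π,
      gaussRed A π ⟨_, h⟩ = gaussRed A π ⟨_, hu0⟩ *
        coeffMap (frobenius k q) (gaussRed A π ⟨(u : LaurentSeries L), hu⟩) := by
  set Nβ : FL L N := Kummer.normAlong (heckeBetaBar L N q) u with hNβ
  have hG : qExpand L q (HahnSeries.C c₀ * (Nβ : LaurentSeries L)) =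
      qExpand L q (HahnSeries.C c₀ * iota0 L N q hdeg hq hqN u) *
        ∏ b ∈ Finset.range q, Kummer.twist (Units.map (A.subtype : A →* L) ζA ^ b)
          (u : LaurentSeries L) := by
    rw [map_mul, qExpand_C, hGβ, map_mul, qExpand_C]
    ring
  have hmem := qExpand_mem_of_formula A π q ζA hu0 hu hG
  have hz : HahnSeries.C c₀ * (Nβ : LaurentSeries L) ∈ gaussRing A π := by
    have h1 := Fermat.Agent.Gateway.ESC.mem_Ov_of_qExpand_mem A π q N hπ hqN q
      (algebraMap L (FL L N) c₀ * Nβ) (by rw [coe_algebraMap_mul]; exact hmem)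
    rw [mem_Ov_iff, coe_algebraMap_mul] at h1
    exact h1
  exact ⟨hz, gaussRed_of_qExpand_formula A π q ζA hζ hu0 hu hz hG⟩

end Instances

end Fermat.Agent.S35x.NormRed
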