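import Fermat.Agent.S35x.KummerNew
import Fermat.Agent.S35x.NormRed
import Fermat.Agent.S35x.NormQ
import Fermat.Agent.S35x.TorsionSteinberg
import Fermat.Agent.S35x.Degeneracy.KummerZero
import Fermat.Agent.S34x.LevelGlueSS
import Fermat.Agent.S13.InertiaVal
import Fermat.Agent.Gateway.ES.NormInput
import Fermat.Agent.Gateway.GoodRed.GaussNorm
import Fermat.Agent.Gateway.Kummer.RedBridge
import Fermat.Agent.Gateway.ESC.DegreeS24

/-!
# P-S34 phase 2 (S35), (G2) instantiated over `ℚ̄`, level change and the final chain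

* `kummerNewAt_condSS`: over `Qb = ℚ̄`, with `π` the residue map of a valuation subring `A` over
  `q`, the abstract theorem `KummerNew.exists_kummerRep_constRed` gives the hypothesis
  `TorsionSteinberg.KummerNewAt N q A m (LevelGlueSS.CondSS N q hdeg hq hqN A)` of the (E9)
  assembly, from the two normalisability statements `NormalisableInf`, `NormalisableZero` at level
  `N q` (every nonzero function has, after scaling by a constant, a nonzero reduction at `∞`,
  resp. at `0`).
* `normalisableInf_of_dvd`, `normalisableZero_of_dvd`: normalisability descends along `N ∣ M`.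
* `torsionSteinberg_of_goodLevel`: the final chain of phase 2: normalisability and the
  Frobenius-square statement (G3) at the good level `M q` give the Steinberg relation (E9) at
  level `N q`.
-/

set_option autoImplicit false
set_option linter.style.haveILetI false
set_option linter.unusedSectionVars false

noncomputable section

namespace Fermat.Agent.S35x.KummerNewInst

open scoped Pointwise
open ModularCurve AlgebraicCurve HahnSeries IntermediateField
open Fermat.Agent.Gateway.Hecke Fermat.Agent.Gateway.Kummer Fermat.Agent.Gateway.Red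
open Fermat.Agent.Gateway.GoodRed Fermat.Agent.S34x.TwoVal Fermat.Agent.S35x.GRedNS
open Fermat.Agent.S35x.Degeneracy Fermat.Agent.S35x.TorsionSteinberg
open Fermat.Agent.S34x.LevelGlueSS

local notation "Qb" => AlgebraicClosure ℚ
local notation "Γℚ" => (AlgebraicClosure ℚ ≃ₐ[ℚ] AlgebraicClosure ℚ)

/-! ### Frobenius lifts and units -/

section Units

/-- An element of the decomposition group moves every nonzero constant by a unit of `A`. -/
theorem exists_unit_eq_map_div (A : ValuationSubring Qb) {σ : Γℚ}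
    (hσ : σ ∈ A.decompositionSubgroup ℚ) {c : Qb} (hc : c ≠ 0) :
    ∃ a : A, (a : Qb) = σ c / c ∧ IsLocalRing.residue A a ≠ 0 := by
  haveI : Algebra.IsAlgebraic ℚ Qb := AlgebraicClosure.isAlgebraic ℚ
  have hstab : σ • A = A := MulAction.mem_stabilizer_iff.mp hσ
  have hval : A.valuation (σ c / c) = 1 := by
    rw [map_div₀, Fermat.Agent.S13.InertiaVal.valuation_map_eq hstab c]
    exact div_self ((Valuation.ne_zero_iff _).mpr hc)
  have hmem : σ c / c ∈ A := (A.valuation_le_one_iff _).mp hval.le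
  refine ⟨⟨σ c / c, hmem⟩, rfl, ?_⟩
  rw [Ne, IsLocalRing.residue_eq_zero_iff, IsLocalRing.mem_maximalIdeal, mem_nonunits_iff, not_not]
  exact (A.valuation_eq_one_iff ⟨σ c / c, hmem⟩).mpr hval

end Units

/-! ### The normalisability hypotheses -/

section Defs

variable (N q : ℕ) [NeZero N] [NeZero q]

/-- every nonzero function of level `N q` has, after scaling, a nonzero reduction at `∞` -/
def NormalisableInf (A : ValuationSubring Qb) : Prop :=
  ∀ u : FF Qb (N * q), u ≠ 0 → ∃ c : Qb, c ≠ 0 ∧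
    ∃ a : LaurentSeries (IsLocalRing.ResidueField A), a ≠ 0 ∧
      KummerNew.RI A (IsLocalRing.residue A) N q (algebraMap Qb (FF Qb (N * q)) c * u) a

/-- every nonzero function of level `N q` has, after scaling, a nonzero reduction at `0` -/
def NormalisableZero (hdeg : finrankAlong Qb (heckeAlphaBar Qb N q) = q + 1) (hq : q.Prime)
    (hqN : ¬ q ∣ N) (A : ValuationSubring Qb) : Prop :=
  ∀ u : FF Qb (N * q), u ≠ 0 → ∃ c₀ : Qb, c₀ ≠ 0 ∧
    ∃ b : LaurentSeries (IsLocalRing.ResidueField A), b ≠ 0 ∧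
      KummerNew.RZ A (IsLocalRing.residue A) N q hdeg hq hqN
        (algebraMap Qb (FF Qb (N * q)) c₀ * u) b

end Defs

/-! ### The inputs of `KummerNew.exists_kummerRep_constRed` over `ℚ̄` -/

section Inputs

variable {N q : ℕ} [NeZero N] [NeZero q]

/-- (Hnorm) at level `N`, in the relational form of `KummerNew` -/
theorem normalisableN (hq : q.Prime) (hqN : ¬ q ∣ N) (A : ValuationSubring Qb)
    (hA : A.LiesOverPrime q) : KummerNew.NormalisableN A (IsLocalRing.residue A) N := by
  intro g hg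
  obtain ⟨d, hd, gb, hgb, hred⟩ := gaussNormalisable_of_algClosed N hq hqN A hA g hg
  obtain ⟨hmem, hval⟩ := RedRel.mem_Ov_and_redV A (IsLocalRing.residue A) (FF Qb N) hred
  exact ⟨d, hd, gb, hgb, hmem, hval⟩

/-- generic transport: a Gauss-ring statement about a Laurent series as a `GRed` statement -/
theorem gRed_of_gaussRed (A : ValuationSubring Qb) {R : Type*} [CommRing R]
    (e : R →+* LaurentSeries Qb) {x : R}
    {y : LaurentSeries Qb} (hxy : e x = y) {yb : LaurentSeries (IsLocalRing.ResidueField A)}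
    (h : ∃ hy : y ∈ gaussRing A (IsLocalRing.residue A),
      gaussRed A (IsLocalRing.residue A) ⟨y, hy⟩ = yb) :
    GRed A (IsLocalRing.residue A) e x yb := by
  subst hxy
  exact h

theorem normRedAlpha (hdeg : finrankAlong Qb (heckeAlphaBar Qb N q) = q + 1) (hq : q.Prime)
    (hqN : ¬ q ∣ N) (A : ValuationSubring Qb) [Fact q.Prime]
    [CharP (IsLocalRing.ResidueField A) q] [IsAlgClosed (IsLocalRing.ResidueField A)] :
    KummerNew.NormRedAlpha A (IsLocalRing.residue A) N q hdeg hq hqN := by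
  intro u c₀ a b hua hub
  obtain ⟨ζA, hζprim, hζ⟩ := Fermat.Agent.Gateway.ES.exists_primitiveRoot_unit A q
  obtain ⟨hu, hua'⟩ := hua
  obtain ⟨hu0', hub'⟩ := hub
  have hiota : iota0 Qb N q hdeg hq hqN (algebraMap Qb (FL Qb (N * q)) c₀ * u) =
      HahnSeries.C c₀ * iota0 Qb N q hdeg hq hqN u := by
    rw [map_mul, iota0_algebraMap]
  have hu0 : HahnSeries.C c₀ * iota0 Qb N q hdeg hq hqN u ∈
      gaussRing A (IsLocalRing.residue A) := by
    rw [← hiota]; exact hu0'
  have hG := Fermat.Agent.S35x.NormQ.normQExp_alpha hdeg hq hqN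
    (Units.map (A.subtype : A →* Qb) ζA) hζprim u
  obtain ⟨hz, hzred⟩ := Fermat.Agent.S35x.NormRed.red_norm_alpha A (IsLocalRing.residue A) N q
    hdeg hq hqN IsLocalRing.residue_surjective ζA hζ u c₀ hG hu hu0
  have hb2 : gaussRed A (IsLocalRing.residue A)
      ⟨HahnSeries.C c₀ * iota0 Qb N q hdeg hq hqN u, hu0⟩ = b := by
    rw [← hub']
    exact gaussRed_congr A (IsLocalRing.residue A) hiota.symm _ _
  refine gRed_of_gaussRed A (KummerNew.eNat Qb N)
    (Fermat.Agent.S35x.NormRed.coe_algebraMap_mul N (c₀ ^ q) _) ⟨hz, ?_⟩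
  rw [hzred, hb2]
  congr 1

theorem normRedBeta (hdeg : finrankAlong Qb (heckeAlphaBar Qb N q) = q + 1) (hq : q.Prime)
    (hqN : ¬ q ∣ N) (A : ValuationSubring Qb) [Fact q.Prime]
    [CharP (IsLocalRing.ResidueField A) q] [IsAlgClosed (IsLocalRing.ResidueField A)] :
    KummerNew.NormRedBeta A (IsLocalRing.residue A) N q hdeg hq hqN := by
  intro u c₀ a b hua hub
  obtain ⟨ζA, hζprim, hζ⟩ := Fermat.Agent.Gateway.ES.exists_primitiveRoot_unit A q
  obtain ⟨hu, hua'⟩ := hua
  obtain ⟨hu0', hub'⟩ := hub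
  have hiota : iota0 Qb N q hdeg hq hqN (algebraMap Qb (FL Qb (N * q)) c₀ * u) =
      HahnSeries.C c₀ * iota0 Qb N q hdeg hq hqN u := by
    rw [map_mul, iota0_algebraMap]
  have hu0 : HahnSeries.C c₀ * iota0 Qb N q hdeg hq hqN u ∈
      gaussRing A (IsLocalRing.residue A) := by
    rw [← hiota]; exact hu0'
  have hG := Fermat.Agent.S35x.NormQ.normQExp_beta hdeg hq hqN
    (Units.map (A.subtype : A →* Qb) ζA) hζprim u
  obtain ⟨hz, hzred⟩ := Fermat.Agent.S35x.NormRed.red_norm_beta A (IsLocalRing.residue A) N q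
    hdeg hq hqN IsLocalRing.residue_surjective ζA hζ u c₀ hG hu hu0
  have hb2 : gaussRed A (IsLocalRing.residue A)
      ⟨HahnSeries.C c₀ * iota0 Qb N q hdeg hq hqN u, hu0⟩ = b := by
    rw [← hub']
    exact gaussRed_congr A (IsLocalRing.residue A) hiota.symm _ _
  refine gRed_of_gaussRed A (KummerNew.eNat Qb N)
    (Fermat.Agent.S35x.NormRed.coe_algebraMap_mul N c₀ _) ⟨hz, ?_⟩
  rw [hzred, hb2]
  congr 2

end Inputs

/-! ### The wrapper -/

section Wrapper

variable {N q : ℕ} [NeZero N] [NeZero q]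

/-- **(G2) over `ℚ̄`**: the hypothesis `KummerNewAt` of the (E9) assembly, with the condition
`CondSS` ("nonzero constant reductions at both places"). -/
theorem kummerNewAt_condSS (hq : q.Prime) (hqN : ¬ q ∣ N)
    (hdeg : finrankAlong Qb (heckeAlphaBar Qb N q) = q + 1)
    (A : ValuationSubring Qb) (hA : A.LiesOverPrime q) {m : ℕ} (hm : 0 < m)
    (hInf : NormalisableInf N q A) (hZero : NormalisableZero N q hdeg hq hqN A) :
    KummerNewAt N q A m (CondSS N q hdeg hq hqN A) := by
  intro φ hφ x hx hxα hxβ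
  haveI : Fact q.Prime := ⟨hq⟩
  haveI : CharP (IsLocalRing.ResidueField A) q := charP_residueField hq A hA
  haveI : IsAlgClosed (IsLocalRing.ResidueField A) := residueField_isAlgClosed A
  -- a normalised Kummer representative
  have hx' : (m : ℤ) • x = 0 := by rw [natCast_zsmul]; exact hx
  obtain ⟨u₀, hu₀⟩ := exists_isKummerRep hx'
  obtain ⟨c, hc, a, ha, hua⟩ := hInf u₀ hu₀.ne_zero
  have hu := hu₀.const_mul hc
  obtain ⟨c₀, hc₀, b, hb, hub⟩ := hZero _ hu.ne_zero
  obtain ⟨cα, gα, -, -, hα⟩ := normAlpha_eq_const_mul_pow hu hxα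
  obtain ⟨cβ, gβ, -, -, hβ⟩ := normBeta_eq_const_mul_pow hu hxβ
  -- the Frobenius lift on `A`
  have hφD : φ ∈ A.decompositionSubgroup ℚ := hφ.mem_decompositionSubgroup
  let τA : A →+* A := MulSemiringAction.toRingHom (A.decompositionSubgroup ℚ) A ⟨φ, hφD⟩
  have hτA : ∀ a : A, ((τA a : A) : Qb) = φ (a : Qb) := fun _ => rfl
  have hτb : ∀ a : A, IsLocalRing.residue A (τA a) =
      frobenius (IsLocalRing.ResidueField A) q (IsLocalRing.residue A a) := by
    intro a
    have h1 : IsLocalRing.residue A (τA a) =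
        (⟨φ, hφD⟩ : A.decompositionSubgroup ℚ) • IsLocalRing.residue A a := rfl
    rw [h1, hφ.smul_residue_eq, frobenius_def]
  obtain ⟨w', hw', hI, hZ⟩ := KummerNew.exists_kummerRep_constRed A (IsLocalRing.residue A) N q
    hdeg hq hqN φ τA hτA hτb (fun c hc => exists_unit_eq_map_div A hφD hc)
    IsLocalRing.residue_surjective (normalisableN hq hqN A hA)
    (normRedAlpha hdeg hq hqN A) (normRedBeta hdeg hq hqN A) hm hu hc₀ ha hb hua hub
    ⟨cα, gα, hα⟩ ⟨cβ, gβ, hβ⟩
  exact ⟨w', hw', hI, hZ⟩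

end Wrapper

/-! ### Change of level -/

section Level

variable {N M q : ℕ} [NeZero N] [NeZero M] [NeZero q]

/-- the inclusion `F_{Nq} ⊆ F_{Mq}` for `N ∣ M` -/
abbrev inclQ (q : ℕ) [NeZero q] (hNM : N ∣ M) : FL Qb (N * q) →ₐ[Qb] FL Qb (M * q) :=
  IntermediateField.inclusion (FL_le_of_dvd (L := Qb) (mul_dvd_mul_right hNM q))

theorem inclQ_ne_zero (hNM : N ∣ M) {u : FL Qb (N * q)} (hu : u ≠ 0) : inclQ q hNM u ≠ 0 := by
  intro h0
  exact hu ((inclQ q hNM).toRingHom.injective
    (by rw [AlgHom.toRingHom_eq_coe, RingHom.coe_coe, h0, map_zero]))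

theorem inclQ_const_mul (hNM : N ∣ M) (c : Qb) (u : FL Qb (N * q)) :
    inclQ q hNM (algebraMap Qb (FL Qb (N * q)) c * u) =
      algebraMap Qb (FL Qb (M * q)) c * inclQ q hNM u := by
  rw [map_mul, AlgHom.commutes]

/-- normalisability at `∞` descends along `N ∣ M` -/
theorem normalisableInf_of_dvd (hNM : N ∣ M) (A : ValuationSubring Qb)
    (h : NormalisableInf M q A) : NormalisableInf N q A := by
  intro u hu
  obtain ⟨c, hc, a, ha, hred⟩ := h (inclQ q hNM u) (inclQ_ne_zero hNM hu)
  refine ⟨c, hc, a, ha, ?_⟩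
  rw [← inclQ_const_mul] at hred
  refine hred.of_eq ?_
  show ((algebraMap Qb (FL Qb (N * q)) c * u : FL Qb (N * q)) : LaurentSeries Qb) =
    ((inclQ q hNM (algebraMap Qb (FL Qb (N * q)) c * u) : FL Qb (M * q)) : LaurentSeries Qb)
  exact (IntermediateField.coe_inclusion _ _).symm

/-- normalisability at `0` descends along `N ∣ M` -/
theorem normalisableZero_of_dvd (hNM : N ∣ M)
    (hdegN : finrankAlong Qb (heckeAlphaBar Qb N q) = q + 1)
    (hdegM : finrankAlong Qb (heckeAlphaBar Qb M q) = q + 1)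
    (hq : q.Prime) (hqN : ¬ q ∣ N) (hqM : ¬ q ∣ M) (A : ValuationSubring Qb)
    (h : NormalisableZero M q hdegM hq hqM A) : NormalisableZero N q hdegN hq hqN A := by
  intro u hu
  obtain ⟨c₀, hc₀, b, hb, hred⟩ := h (inclQ q hNM u) (inclQ_ne_zero hNM hu)
  refine ⟨c₀, hc₀, b, hb, ?_⟩
  rw [← inclQ_const_mul] at hred
  exact hred.of_eq (iota0_inclusion hNM hdegN hdegM hq hqN hqM _).symm

end Level

/-! ### The final chain of phase 2 -/

section Chain

variable {N M q : ℕ} [NeZero N] [NeZero M] [NeZero q]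

/-- **Phase 2, final chain.**  From the two normalisability statements and the Frobenius-square
statement (G3) at the good level `M q` (`M = lcm N 4` or `lcm N 9`), the Steinberg relation (E9)
at level `N q`. -/
theorem torsionSteinberg_of_goodLevel (hq : q.Prime) (hqN : ¬ q ∣ N) (hqM : ¬ q ∣ M)
    (hM : M = Nat.lcm N 4 ∨ M = Nat.lcm N 9)
    (hdegN : finrankAlong Qb (heckeAlphaBar Qb N q) = q + 1)
    (hdegM : finrankAlong Qb (heckeAlphaBar Qb M q) = q + 1)
    (hInf : ∀ A : ValuationSubring Qb, A.LiesOverPrime q → NormalisableInf M q A)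
    (hZero : ∀ A : ValuationSubring Qb, A.LiesOverPrime q →
      NormalisableZero M q hdegM hq hqM A)
    (hG3 : ∀ m : ℕ, ¬ q ∣ m → ∀ A : ValuationSubring Qb, A.LiesOverPrime q →
      Fermat.Agent.S35x.LevelGlueFrob.FrobSqAt (M * q) q A m (CondSS M q hdegM hq hqM A)) :
    TorsionSteinberg N q := by
  have hNM : N ∣ M := Fermat.Agent.Gateway.Descent.dvd_of_eq_lcm_or hM
  refine torsionSteinberg_of (fun _ A => CondSS N q hdegN hq hqN A) ?_ ?_
  · intro m hqm A hA
    have hm : 0 < m := Nat.pos_of_ne_zero (by rintro rfl; exact hqm (dvd_zero q))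
    exact kummerNewAt_condSS hq hqN hdegN A hA hm
      (normalisableInf_of_dvd hNM A (hInf A hA))
      (normalisableZero_of_dvd hNM hdegN hdegM hq hqN hqM A (hZero A hA))
  · intro m hqm A hA
    have hm : 0 < m := Nat.pos_of_ne_zero (by rintro rfl; exact hqm (dvd_zero q))
    refine Fermat.Agent.S35x.LevelGlueFrob.frobSqAt_of_level (mul_eq_lcm_or hq hqM hM) q A hm
      (fun w hw => ?_) (hG3 m hqm A hA)
    exact hw.inclusion hdegN hq hqN A hNM hdegM hqM

/-- `[F_{Mq} : α F_M] = q + 1` for a prime `q ∤ M` (landed: `ESC.finrank_along_alpha`). -/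
theorem hdegAlpha (M q : ℕ) [NeZero M] [NeZero q] (hq : q.Prime) (hqM : ¬ q ∣ M) :
    finrankAlong Qb (heckeAlphaBar Qb M q) = q + 1 :=
  Fermat.Agent.Gateway.ESC.finrank_along_alpha M q hq hqM

/-- **Phase 2, final chain**, with the degree hypotheses discharged. -/
theorem torsionSteinberg_of_goodLevel' (hq : q.Prime) (hqN : ¬ q ∣ N) (hqM : ¬ q ∣ M)
    (hM : M = Nat.lcm N 4 ∨ M = Nat.lcm N 9)
    (hInf : ∀ A : ValuationSubring Qb, A.LiesOverPrime q → NormalisableInf M q A)
    (hZero : ∀ A : ValuationSubring Qb, A.LiesOverPrime q →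
      NormalisableZero M q (hdegAlpha M q hq hqM) hq hqM A)
    (hG3 : ∀ m : ℕ, ¬ q ∣ m → ∀ A : ValuationSubring Qb, A.LiesOverPrime q →
      Fermat.Agent.S35x.LevelGlueFrob.FrobSqAt (M * q) q A m
        (CondSS M q (hdegAlpha M q hq hqM) hq hqM A)) :
    TorsionSteinberg N q :=
  torsionSteinberg_of_goodLevel hq hqN hqM hM (hdegAlpha N q hq hqN) (hdegAlpha M q hq hqM)
    hInf hZero hG3

end Chain

end Fermat.Agent.S35x.KummerNewInst
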