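import Fermat.Agent.S41.Forms.Key
import Fermat.Agent.S41.Degeneracy.HeckeCor
import Fermat.Agent.Gateway.Hecke.CohPeriod
import Fermat.Agent.Gateway.EigenChar
import Fermat.Prelude.Def_CuspForm_Newforms

/-!
# P-S34 phase 2 (S35 clause 2), newform package (NP-A)/(NP-B) (helper40)

For `q` prime, `q ∤ N`, a normalised eigenform `g` of level `N q` which is new at `q` in the
Prelude sense (`CuspForm.IsNewformAt q g`: its good eigensystem does not occur at level `N`) is
killed by both traces `Tr₁, Tr₂ : S₂(Γ₀(N q)) → S₂(Γ₀(N))`.  Consequently its period class is killed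
by both corestrictions, `U_q (U_q g) = g` and `a_q(g) ^ 2 = 1`.
-/

set_option autoImplicit false

open CongruenceSubgroup ModularForm
open scoped MatrixGroups
open ModularCurve ModularCurve.Period
open Fermat.Agent.Gateway.A2 Fermat.Agent.Gateway.HeckeCoh
open Fermat.Agent.S41 Fermat.Agent.S41.ES

namespace Fermat.Agent.S35x

/-- The period map on weight two cusp forms is injective (from Eichler-Shimura). -/
theorem periodMap_injective (N : ℕ) [NeZero N] : Function.Injective (periodMap N) := by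
  intro f f' h
  have hlin := Fermat.Agent.S21.existsPeriodMapLinear N
  have h2 : periodHomPair N (f, f) = periodHomPair N (f', f') := by
    rw [Fermat.Agent.S21.Glue.periodHomPair_apply N hlin,
      Fermat.Agent.S21.Glue.periodHomPair_apply N hlin, h]
  exact (Prod.ext_iff.mp (Fermat.Agent.S21.injective_periodHomPair N h2)).1

section Commute

variable (N q l : ℕ) [NeZero N] [NeZero q]

/-- `Tr₁` commutes with the good Hecke operators. -/
theorem Tr₁_heckeTLin (hq : q.Prime) (hqN : ¬ q ∣ N) (hl : l.Prime) (hlN : ¬ l ∣ N)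
    (hlNq : ¬ l ∣ N * q) (g : CuspForm (Gamma0 (N * q)) 2) :
    Tr₁ N q (CuspForm.heckeTLin 2 hl hlNq g) = CuspForm.heckeTLin 2 hl hlN (Tr₁ N q g) := by
  have := Fact.mk hq
  have := Fact.mk hl
  apply periodMap_injective N
  rw [← cor₁_periodMap, Fermat.Agent.Gateway.HeckeCohPeriod.periodMap_heckeTLin (N * q) l hlNq hl,
    Fermat.Agent.Gateway.HeckeCohPeriod.periodMap_heckeTLin N l hlN hl, ← cor₁_periodMap,
    Fermat.Agent.S41.Degeneracy.heckeHom_cor₁ N q l hqN hlN hlNq ℂ]

/-- `Tr₂` commutes with the good Hecke operators. -/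
theorem Tr₂_heckeTLin (hq : q.Prime) (hqN : ¬ q ∣ N) (hl : l.Prime) (hlN : ¬ l ∣ N)
    (hlNq : ¬ l ∣ N * q) (g : CuspForm (Gamma0 (N * q)) 2) :
    Tr₂ N q (CuspForm.heckeTLin 2 hl hlNq g) = CuspForm.heckeTLin 2 hl hlN (Tr₂ N q g) := by
  have := Fact.mk hq
  have := Fact.mk hl
  apply periodMap_injective N
  rw [← cor₂_periodMap, Fermat.Agent.Gateway.HeckeCohPeriod.periodMap_heckeTLin (N * q) l hlNq hl,
    Fermat.Agent.Gateway.HeckeCohPeriod.periodMap_heckeTLin N l hlN hl, ← cor₂_periodMap,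
    Fermat.Agent.S41.Degeneracy.heckeHom_cor₂ N q l hqN hlN hlNq ℂ]

end Commute

section Occurs

variable (N q : ℕ) [NeZero N]

/-- A nonzero cusp form of level `N` which is an eigenvector of all `T_l`, `l ∤ N q`, with the
eigenvalues of a form `g` of level `N q`, produces a normalised eigenform of level `N` with the same
good eigenvalues: the good eigensystem of `g` occurs at level `N`. -/
theorem goodEigensystemOccursAt_of_eigenvector (g : CuspForm (Gamma0 (N * q)) 2)
    (f : CuspForm (Gamma0 N) 2) (hf : f ≠ 0)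
    (hT : ∀ (l : ℕ) (hl : l.Prime) (hlN : ¬ l ∣ N), ¬ l ∣ N * q →
      CuspForm.heckeTLin 2 hl hlN f = ModularFormClass.qCoeff g l • f) :
    CuspForm.GoodEigensystemOccursAt g N := by
  have : Module.Finite ℂ (CuspForm (Gamma0 N) 2) := Fermat.Agent.S21.finite_cuspForm_Gamma0_two N
  let V : Submodule ℂ (CuspForm (Gamma0 N) 2) :=
    { carrier := {f | ∀ (l : ℕ) (hl : l.Prime) (hlN : ¬ l ∣ N), ¬ l ∣ N * q →
          CuspForm.heckeTLin 2 hl hlN f = ModularFormClass.qCoeff g l • f}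
      zero_mem' := fun l hl hlN _ => by rw [map_zero, smul_zero]
      add_mem' := by
        intro a b ha hb l hl hlN h
        rw [map_add, ha l hl hlN h, hb l hl hlN h, smul_add]
      smul_mem' := by
        intro t a ha l hl hlN h
        rw [map_smul, ha l hl hlN h, smul_comm] }
  have hfV : f ∈ V := hT
  have hV : V ≠ ⊥ := fun h => hf ((Submodule.eq_bot_iff V).mp h f hfV)
  have hstab : ∀ l' : Nat.Primes, ∀ x ∈ V, heckeFam N l' x ∈ V := by
    intro l' x hx l hl hlN h
    obtain ⟨lP, hlP⟩ : ∃ lP : Nat.Primes, heckeFam N lP = CuspForm.heckeTLin 2 hl hlN :=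
      ⟨⟨l, hl⟩, heckeFam_of_not_dvd N hl hlN⟩
    have hx3 := hx l hl hlN h
    rw [← hlP] at hx3 ⊢
    rw [heckeFam_comm_apply N lP l', hx3, map_smul]
  obtain ⟨w, hwV, hw0, hw⟩ := Fermat.Agent.S49.Lifting.exists_common_eigenvector_in_submodule
    (heckeFam N) (heckeFam_comm N) _ V rfl hV hstab
  choose lam hlam using hw
  let lam' : ℕ → ℂ := fun n => if h : n.Prime then lam (⟨n, h⟩ : Nat.Primes) else 0
  have hlam' : ∀ (n : ℕ) (h : n.Prime), lam' n = lam (⟨n, h⟩ : Nat.Primes) := fun n h => dif_pos h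
  obtain ⟨h, hh, hhc⟩ := Fermat.Agent.S49.Eigenform.exists_normalizedEigenform_of_eigenvector w hw0
    lam'
    (fun l hl hlM => by rw [hlam' l hl, ← hlam (⟨l, hl⟩ : Nat.Primes), heckeFam_of_not_dvd N hl hlM])
    (fun l hl hlM => by rw [hlam' l hl, ← hlam (⟨l, hl⟩ : Nat.Primes), heckeFam_of_dvd N hl hlM])
  refine ⟨h, hh, fun l hl hlNq => ?_⟩
  have hlN : ¬ l ∣ N := fun hd => hlNq (Dvd.dvd.mul_right hd q)
  rw [hhc l hl, hlam' l hl]
  have h1 := hlam (⟨l, hl⟩ : Nat.Primes)
  rw [heckeFam_of_not_dvd N hl hlN, hwV l hl hlN hlNq] at h1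
  have h2 : (ModularFormClass.qCoeff g l - lam (⟨l, hl⟩ : Nat.Primes)) • w = 0 := by
    rw [sub_smul, h1, sub_self]
  rcases smul_eq_zero.mp h2 with h3 | h3
  · exact (sub_eq_zero.mp h3).symm
  · exact absurd h3 hw0

end Occurs

section Main

variable (N q : ℕ) [NeZero N] [NeZero q]

omit [NeZero q] in
/-- If a linear map `S₂(Γ₀(N q)) → S₂(Γ₀(N))` commuting with the good Hecke operators does not kill
the normalised eigenform `g`, then the good eigensystem of `g` occurs at level `N`. -/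
theorem goodEigensystemOccursAt_of_commuting
    (Tr : CuspForm (Gamma0 (N * q)) 2 →ₗ[ℂ] CuspForm (Gamma0 N) 2)
    (hTr : ∀ (l : ℕ) (hl : l.Prime) (hlN : ¬ l ∣ N) (hlNq : ¬ l ∣ N * q)
      (g : CuspForm (Gamma0 (N * q)) 2),
      Tr (CuspForm.heckeTLin 2 hl hlNq g) = CuspForm.heckeTLin 2 hl hlN (Tr g))
    (g : CuspForm (Gamma0 (N * q)) 2) (hg : g.IsNormalizedEigenform) (h0 : Tr g ≠ 0) :
    CuspForm.GoodEigensystemOccursAt g N := by
  refine goodEigensystemOccursAt_of_eigenvector N q g (Tr g) h0 fun l hl hlN hlNq => ?_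
  rw [← hTr l hl hlN hlNq g, Fermat.Agent.Gateway.Assembly.EigenChar.heckeTLin_apply hg hl hlNq,
    map_smul]

/-- **(NP-A)** A normalised eigenform of level `N q` (`q` prime, `q ∤ N`) which is new at `q` in the
Prelude sense is killed by both traces to level `N`. -/
theorem tr_eq_zero_of_isNewformAt (hq : q.Prime) (hqN : ¬ q ∣ N)
    (g : CuspForm (Gamma0 (N * q)) 2) (hg : g.IsNewformAt q) :
    Tr₁ N q g = 0 ∧ Tr₂ N q g = 0 := by
  obtain ⟨hg1, -, hg3⟩ := hg
  rw [Nat.mul_div_cancel N hq.pos] at hg3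
  constructor
  · by_contra h0
    exact hg3 (goodEigensystemOccursAt_of_commuting N q (Tr₁ N q)
      (fun l hl hlN hlNq g => Tr₁_heckeTLin N q l hq hqN hl hlN hlNq g) g hg1 h0)
  · by_contra h0
    exact hg3 (goodEigensystemOccursAt_of_commuting N q (Tr₂ N q)
      (fun l hl hlN hlNq g => Tr₂_heckeTLin N q l hq hqN hl hlN hlNq g) g hg1 h0)

/-- A `q`-new normalised eigenform lies in the `q`-new subspace `ker Tr₁ ⊓ ker Tr₂`. -/
theorem mem_NewSub_of_isNewformAt (hq : q.Prime) (hqN : ¬ q ∣ N)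
    (g : CuspForm (Gamma0 (N * q)) 2) (hg : g.IsNewformAt q) :
    g ∈ Fermat.Agent.S41.Forms.NewSub N q :=
  Fermat.Agent.S41.Forms.mem_NewSub.mpr (tr_eq_zero_of_isNewformAt N q hq hqN g hg)

/-- **(NP-B)** The period class of a `q`-new normalised eigenform is killed by both
corestrictions to level `N`. -/
theorem cor_periodMap_eq_zero_of_isNewformAt (hq : q.Prime) (hqN : ¬ q ∣ N)
    (g : CuspForm (Gamma0 (N * q)) 2) (hg : g.IsNewformAt q) :
    cor₁ N q ℂ (periodMap (N * q) g) = 0 ∧ cor₂ N q ℂ (periodMap (N * q) g) = 0 := by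
  obtain ⟨h1, h2⟩ := tr_eq_zero_of_isNewformAt N q hq hqN g hg
  have hz : periodMap N (0 : CuspForm (Gamma0 N) 2) = 0 :=
    map_zero (Fermat.Agent.S21.periodMapLinear N)
  rw [cor₁_periodMap, cor₂_periodMap, h1, h2]
  exact ⟨hz, hz⟩

/-- The period class of a normalised eigenform is a `heckeHom` eigenvector with eigenvalue
`a_l`. -/
theorem heckeHom_periodMap_of_isNormalizedEigenform (M : ℕ) [NeZero M]
    (g : CuspForm (Gamma0 M) 2) (hg : g.IsNormalizedEigenform) (l : ℕ) [Fact l.Prime]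
    (hlM : ¬ l ∣ M) :
    heckeHom M l hlM ℂ (periodMap M g) = ModularFormClass.qCoeff g l • periodMap M g := by
  have hl : l.Prime := Fact.out
  rw [← Fermat.Agent.Gateway.HeckeCohPeriod.periodMap_heckeTLin M l hlM hl,
    Fermat.Agent.Gateway.Assembly.EigenChar.heckeTLin_apply hg hl hlM]
  exact map_smul (Fermat.Agent.S21.periodMapLinear M) _ g

/-- The period class of a nonzero cusp form is nonzero. -/
theorem periodMap_ne_zero (M : ℕ) [NeZero M] (g : CuspForm (Gamma0 M) 2) (hg : g ≠ 0) :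
    periodMap M g ≠ 0 := by
  intro h
  apply hg
  apply periodMap_injective M
  rw [h]
  exact (map_zero (Fermat.Agent.S21.periodMapLinear M)).symm

/-- `U_q` is an involution on a `q`-new normalised eigenform, and `a_q ^ 2 = 1`. -/
theorem qCoeff_sq_eq_one_of_isNewformAt (hq : q.Prime) (hqN : ¬ q ∣ N)
    (g : CuspForm (Gamma0 (N * q)) 2) (hg : g.IsNewformAt q) :
    ModularFormClass.qCoeff g q ^ 2 = 1 := by
  obtain ⟨h1, h2⟩ := tr_eq_zero_of_isNewformAt N q hq hqN g hg
  have hU := Fermat.Agent.S41.Forms.traceKey N q hq hqN g h1 h2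
  have hqNq : q ∣ N * q := Dvd.intro_left N rfl
  -- first coefficient of `U_q (U_q g)` is `a_{q^2}(g) = a_q(g)^2`
  have hc1 := Fermat.Agent.S49.Eigenform.qCoeff_heckeULin hq hqNq
    (CuspForm.heckeULin 2 hqNq g) 1
  have hc2 := Fermat.Agent.S49.Eigenform.qCoeff_heckeULin hq hqNq g q
  rw [hU, ModularForm.coeffHeckeU_apply, one_mul, hc2, ModularForm.coeffHeckeU_apply,
    hg.1.qCoeff_one] at hc1
  have h3 := hg.1.qCoeff_prime_pow_of_dvd q 0 hq hqNq
  rw [zero_add, zero_add, pow_one, sq] at h3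
  rw [sq, ← h3]
  exact hc1.symm

end Main

end Fermat.Agent.S35x
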