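/-
P-S34 phase 2 (S35 clause 2), helper34: the two reduction hypotheses `NormRedAlpha`, `NormRedBeta`
of `S35x/KummerNew.lean` are theorems.

They follow from the `q`-expansion norm formulas (`S35x/NormQ.lean`) and their reduction at the
level prime (`S35x/NormRed.lean`), given a primitive `q`-th root of unity in `A` reducing to `1`.
Over `Q̄` (with the residue map of a valuation subring over `q`) such a root of unity exists
(`Gateway/ES/NormInput.lean`), so there both statements are unconditional.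
-/
import Fermat.Agent.S35x.KummerNew
import Fermat.Agent.S35x.NormQ
import Fermat.Agent.S35x.NormRed
import Fermat.Agent.Gateway.ES.NormInput

set_option autoImplicit false
set_option linter.style.haveILetI false
set_option linter.unusedSectionVars false

noncomputable section

namespace Fermat.Agent.S35x.NormRedInst

open ModularCurve AlgebraicCurve HahnSeries
open Fermat.Agent.Gateway.Hecke Fermat.Agent.Gateway.Red Fermat.Agent.Gateway.GoodRed
open Fermat.Agent.Gateway.Kummer
open Fermat.Agent.S34x.TwoVal Fermat.Agent.S35x.GRedNS Fermat.Agent.S35x.KummerNew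

section General

variable {L : Type} [Field L] [Algebra ℚ L] [IsAlgClosed L] (A : ValuationSubring L)
  {k : Type} [Field k] (π : A →+* k) [IsAlgClosed k]
variable (N q : ℕ) [NeZero N] [NeZero q] [Fact q.Prime] [CharP k q]
variable (hdeg : finrankAlong L (heckeAlphaBar L N q) = q + 1) (hq : q.Prime) (hqN : ¬ q ∣ N)

/-- the second expansion of a constant multiple -/
theorem iota0_const_mul (c₀ : L) (u : FL L (N * q)) :
    iota0 L N q hdeg hq hqN (algebraMap L (FL L (N * q)) c₀ * u) =
      HahnSeries.C c₀ * iota0 L N q hdeg hq hqN u := by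
  rw [map_mul, iota0_algebraMap]

/-- **`NormRedAlpha` holds.** -/
theorem normRedAlpha (hπ : Function.Surjective π) (ζA : Aˣ)
    (hprim : IsPrimitiveRoot (Units.map (A.subtype : A →* L) ζA) q) (hζ : π ζA = 1) :
    NormRedAlpha A π N q hdeg hq hqN := by
  rintro u c₀ a b ⟨hu, rfl⟩ ⟨hu0, rfl⟩
  have e0 := iota0_const_mul N q hdeg hq hqN c₀ u
  have hu0' : HahnSeries.C c₀ * iota0 L N q hdeg hq hqN u ∈ gaussRing A π := e0 ▸ hu0
  obtain ⟨h, hred⟩ := Fermat.Agent.S35x.NormRed.red_norm_alpha A π N q hdeg hq hqN hπ ζA hζ u c₀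
    (Fermat.Agent.S35x.NormQ.normQExp_alpha hdeg hq hqN _ hprim u) hu hu0'
  have e1 : eNat L N (algebraMap L (FL L N) (c₀ ^ q) * normAlong (heckeAlphaBar L N q) u) =
      HahnSeries.C (c₀ ^ q) * ((normAlong (heckeAlphaBar L N q) u : FL L N) : LaurentSeries L) :=
    Fermat.Agent.S35x.NormRed.coe_algebraMap_mul N (c₀ ^ q) (normAlong (heckeAlphaBar L N q) u)
  have h' : eNat L N (algebraMap L (FL L N) (c₀ ^ q) * normAlong (heckeAlphaBar L N q) u) ∈
      gaussRing A π := e1 ▸ h
  refine ⟨h', ?_⟩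
  have e2 : (⟨_, h'⟩ : gaussRing A π) = ⟨_, h⟩ := Subtype.ext e1
  have e3 : (⟨_, hu0⟩ : gaussRing A π) = ⟨_, hu0'⟩ := Subtype.ext e0
  rw [e2, hred, e3]
  rfl

/-- **`NormRedBeta` holds.** -/
theorem normRedBeta (hπ : Function.Surjective π) (ζA : Aˣ)
    (hprim : IsPrimitiveRoot (Units.map (A.subtype : A →* L) ζA) q) (hζ : π ζA = 1) :
    NormRedBeta A π N q hdeg hq hqN := by
  rintro u c₀ a b ⟨hu, rfl⟩ ⟨hu0, rfl⟩
  have e0 := iota0_const_mul N q hdeg hq hqN c₀ u
  have hu0' : HahnSeries.C c₀ * iota0 L N q hdeg hq hqN u ∈ gaussRing A π := e0 ▸ hu0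
  obtain ⟨h, hred⟩ := Fermat.Agent.S35x.NormRed.red_norm_beta A π N q hdeg hq hqN hπ ζA hζ u c₀
    (Fermat.Agent.S35x.NormQ.normQExp_beta hdeg hq hqN _ hprim u) hu hu0'
  have e1 : eNat L N (algebraMap L (FL L N) c₀ * normAlong (heckeBetaBar L N q) u) =
      HahnSeries.C c₀ * ((normAlong (heckeBetaBar L N q) u : FL L N) : LaurentSeries L) :=
    Fermat.Agent.S35x.NormRed.coe_algebraMap_mul N c₀ (normAlong (heckeBetaBar L N q) u)
  have h' : eNat L N (algebraMap L (FL L N) c₀ * normAlong (heckeBetaBar L N q) u) ∈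
      gaussRing A π := e1 ▸ h
  refine ⟨h', ?_⟩
  have e2 : (⟨_, h'⟩ : gaussRing A π) = ⟨_, h⟩ := Subtype.ext e1
  have e3 : (⟨_, hu0⟩ : gaussRing A π) = ⟨_, hu0'⟩ := Subtype.ext e0
  rw [e2, hred, e3]
  rfl

end General

section Qbar

variable (A : ValuationSubring (AlgebraicClosure ℚ)) (N q : ℕ) [NeZero N] [NeZero q]
  [Fact q.Prime] [CharP (IsLocalRing.ResidueField A) q]
  [IsAlgClosed (IsLocalRing.ResidueField A)]
variable (hdeg : finrankAlong (AlgebraicClosure ℚ) (heckeAlphaBar (AlgebraicClosure ℚ) N q) = q + 1)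
  (hq : q.Prime) (hqN : ¬ q ∣ N)

/-- **`NormRedAlpha` over `Q̄`, unconditionally.** -/
theorem normRedAlpha_qbar : NormRedAlpha A (IsLocalRing.residue A) N q hdeg hq hqN := by
  obtain ⟨ζA, hprim, hres⟩ := Fermat.Agent.Gateway.ES.exists_primitiveRoot_unit A q
  exact normRedAlpha A (IsLocalRing.residue A) N q hdeg hq hqN IsLocalRing.residue_surjective
    ζA hprim hres

/-- **`NormRedBeta` over `Q̄`, unconditionally.** -/
theorem normRedBeta_qbar : NormRedBeta A (IsLocalRing.residue A) N q hdeg hq hqN := by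
  obtain ⟨ζA, hprim, hres⟩ := Fermat.Agent.Gateway.ES.exists_primitiveRoot_unit A q
  exact normRedBeta A (IsLocalRing.residue A) N q hdeg hq hqN IsLocalRing.residue_surjective
    ζA hprim hres

end Qbar

end Fermat.Agent.S35x.NormRedInst
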