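/-
helper13 (P-S34 phase 2 = S35, (G3) composite / shape check): `SigmaNbar.exists_const_mul_pow_of_twistFam`
(helper43) with the semilinear pair `(φ, φV, φV₀)` and its hypotheses
`hφsmul hσres hσO huO hu1 hφVsurj hφVsmul hjφ hφBbar` (both charts) DISCHARGED from a
`SemilinearChart.SemiData R σ`.  Remaining hypotheses = the geometric inputs of phase 1 (charts, counts,
(L2), (N1)) + (CONG) in componentwise form + `hσLN`, `hdiv`.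
-/
import Fermat.Agent.S35x.SemilinearChart
import Fermat.Agent.S35x.SigmaNbar

set_option autoImplicit false
set_option linter.unusedSectionVars false

noncomputable section

namespace Fermat.Agent.S35x.SemilinearAssemble

open Module AlgebraicCurve IntermediateField
open Fermat.Agent.Gateway.C0 Fermat.Agent.S34x Fermat.Agent.S34x.C0two Fermat.Agent.S34x.Lattice2
open Fermat.Agent.S35x.SemilinearChart

variable {K : Type*} [Field K] [IsAlgClosed K] [CharZero K] {A : ValuationSubring K}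
  {F : Type*} [Field F] [Algebra K F] {S : SmallRing F}
  {k κ₁ κ₂ : Type*} [Field k] [IsAlgClosed k] [CommRing κ₁] [CommRing κ₂] [Algebra k κ₁]
  [Algebra k κ₂] [Nontrivial (κ₁ × κ₂)]
  (R : RedSetup2 A S k (κ₁ × κ₂)) (C : ChartCoord R)
  (ht : Transcendental K C.t) [FiniteDimensional K⟮C.t⟯ F]
  {Dt : Divisor K F} (hDt : ∀ v : Place K F, Dt v = v.ord C.t)
  (hcart : ∀ V : Submodule K F, FiniteDimensional K V → (R.lat V).FG)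
  (P : ℕ → Submodule k (κ₁ × κ₂)) [∀ b, FiniteDimensional k (P b)] {b₀ : ℕ}
  (hgen : ∀ b, b₀ ≤ b → ∀ x ∈ P (b + 1), ∃ y ∈ P b, ∃ z ∈ P b, x = y + C.T * z)
  {m : ℕ}
  (hSC : ∀ (b : ℕ) (f : F) (hf : f ∈ S.O), f ∈ (TwoCharts.ofDivisor Dt).LN 0 b →
    R.res ⟨f, hf⟩ ∈ P b)
  (hrad : ∀ (b : ℕ) (x : κ₁ × κ₂), x ^ m ∈ P (m * b) → x ∈ P b)
  (hmA : IsUnit ((m : ℕ) : A))
  {σ : F →+* F} (D : SemiData R σ) (hσt : σ C.t = C.t)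
  (hσLN : ∀ (a b : ℕ) (x : F), x ∈ (TwoCharts.ofDivisor Dt).LN a b →
    σ x ∈ (TwoCharts.ofDivisor Dt).LN a b)
  {w : F} (hw0 : w ≠ 0) (hwO : w ∈ S.O) (hwiO : w⁻¹ ∈ S.O) (hw1 : R.res ⟨w, hwO⟩ = 1)
  {Dw : Divisor K F} (hDw : ∀ v : Place K F, (m : ℤ) * Dw v = v.ord w)
  (hdiv : ∀ v : Place K F, (m : ℤ) ∣ v.ord (σ w))
  {Q e i' : ℕ} (hQ : m * e = Q + i')

include ht hDt hcart hgen hSC hrad hmA hσt hσLN hw0 hwiO hw1 hDw hdiv hQ in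
/-- **Theorem B' for a semilinear datum** (`σ` = square of a Frobenius lift in phase 2). -/
theorem exists_const_mul_pow_of_semiData (hm : 0 < m) (W : TwistFam C m)
    (hW1 : ∀ a b, W.L 1 a b = (TwoCharts.ofDivisor Dt).LM Dw a b)
    (hWi : ∀ a b, W.L i' a b = (TwoCharts.ofDivisor Dt).LM (i' • Dw) a b)
    -- chart `∞`
    (hL2 : C.IsL2)
    [Module.Finite k ((C.B₁ × C.B₂) ⧸ Subalgebra.toSubmodule C.BbarT)]
    {p : ℕ} (hp : 2 ≤ p)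
    (hN1 : ∀ g : C.B₂, ∃ g' : C.B₂, ((0 : C.B₁), g - g' ^ p) ∈ C.BbarT)
    [Module.Finite k ((C.B₁ × C.B₂) ⧸ W.NbarT 1)]
    [Module.Finite k ((C.B₁ × C.B₂) ⧸ W.NbarT i')]
    (hcodim : finrank k ((C.B₁ × C.B₂) ⧸ W.NbarT 1) ≤
      finrank k ((C.B₁ × C.B₂) ⧸ Subalgebra.toSubmodule C.BbarT))
    (hcodim' : finrank k ((C.B₁ × C.B₂) ⧸ W.NbarT i') ≤
      finrank k ((C.B₁ × C.B₂) ⧸ Subalgebra.toSubmodule C.BbarT))
    (hcong : ∀ z : C.B₁ × C.B₂,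
      ((D.φ₁ (z.1 : κ₁) - (z.1 : κ₁) ^ Q, (0 : κ₂)) : κ₁ × κ₂) ∈ C.Bbar ∧
      (((0 : κ₁), D.φ₂ (z.2 : κ₂) - (z.2 : κ₂) ^ Q) : κ₁ × κ₂) ∈ C.Bbar)
    -- chart `0`
    (hL2₀ : C.swap.IsL2)
    [Module.Finite k ((C.swap.B₁ × C.swap.B₂) ⧸ Subalgebra.toSubmodule C.swap.BbarT)]
    {p₀ : ℕ} (hp₀ : 2 ≤ p₀)
    (hN1₀ : ∀ g : C.swap.B₂, ∃ g' : C.swap.B₂, ((0 : C.swap.B₁), g - g' ^ p₀) ∈ C.swap.BbarT)
    [Module.Finite k ((C.swap.B₁ × C.swap.B₂) ⧸ W.swap.NbarT 1)]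
    [Module.Finite k ((C.swap.B₁ × C.swap.B₂) ⧸ W.swap.NbarT i')]
    (hcodim₀ : finrank k ((C.swap.B₁ × C.swap.B₂) ⧸ W.swap.NbarT 1) ≤
      finrank k ((C.swap.B₁ × C.swap.B₂) ⧸ Subalgebra.toSubmodule C.swap.BbarT))
    (hcodim₀' : finrank k ((C.swap.B₁ × C.swap.B₂) ⧸ W.swap.NbarT i') ≤
      finrank k ((C.swap.B₁ × C.swap.B₂) ⧸ Subalgebra.toSubmodule C.swap.BbarT))
    (hcong₀ : ∀ z : C.swap.B₁ × C.swap.B₂,
      ((D.φ₁ (z.1 : κ₁) - (z.1 : κ₁) ^ Q, (0 : κ₂)) : κ₁ × κ₂) ∈ C.swap.Bbar ∧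
      (((0 : κ₁), D.φ₂ (z.2 : κ₂) - (z.2 : κ₂) ^ Q) : κ₁ × κ₂) ∈ C.swap.Bbar) :
    ∃ (c : K) (v : F), σ w / w ^ Q = algebraMap K F c * v ^ m := by
  have hσt₀ : σ C.swap.t = C.swap.t := SemiData.σ_tinv C hσt
  exact SigmaNbar.exists_const_mul_pow_of_twistFam R ht hDt C.t_mem C.tinv_mem hcart P hgen hSC
    hrad hmA hσLN D.σ_mem hw0 hwO hw1 hDw hdiv hQ (D.div_pow_mem hwO hwiO Q)
    (D.res_div_pow hwO hwiO hw1 Q) D.θ D.φ D.φ_smul D.res_σ' hm W hW1 hWi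
    hL2 hp hN1 hcodim hcodim' (D.φV C hσt) (D.φV_surjective C hσt) (D.φV_smul C hσt)
    (D.incl_φV C hσt) (fun _ hy => D.φ_mem_Bbar C hσt hy) (D.cong_of_components C hσt hcong)
    hL2₀ hp₀ hN1₀ hcodim₀ hcodim₀' (D.φV C.swap hσt₀) (D.φV_surjective C.swap hσt₀)
    (D.φV_smul C.swap hσt₀) (D.incl_φV C.swap hσt₀) (fun _ hy => D.φ_mem_Bbar C.swap hσt₀ hy)
    (D.cong_of_components C.swap hσt₀ hcong₀)

end Fermat.Agent.S35x.SemilinearAssemble
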