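import Mathlib
import Fermat.Agent.S35x.Consumer
import Fermat.Agent.Gateway.Statements
import Fermat.Agent.Gateway.EigenChar
import Fermat.Agent.Gateway.S29
import Fermat.Agent.Gateway.ResidueEmbed
import Fermat.Agent.Lib.FrobeniusExistsAt

/-!
# Strong multiplicity one (Galois theoretic proof)

Two normalised eigenforms of levels `M' ∣ M` whose eigenvalues agree at all primes outside a finite
set have the same eigenvalue at every prime not dividing `M`.

Proof: attach `p'`-adic representations to both (statement S30) over finite extensions of one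
complete discrete valuation ring, and compare the traces of a Frobenius lift at the given prime
through the approximation by powers of Frobenius lifts at primes outside the finite set.
-/

set_option autoImplicit false

namespace Fermat.Agent.S35x

open Polynomial IsLocalRing NumberField ModularFormClass CongruenceSubgroup
open Fermat.Agent.Gateway.S31Red Fermat.Agent.Gateway.Assembly

local notation "Γℚ" => (AlgebraicClosure ℚ ≃ₐ[ℚ] AlgebraicClosure ℚ)

section TraceApprox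

variable {T : Type} [CommRing T] [IsLocalRing T]

/-- If `g` agrees with `σ ^ k` on the level `n` continuity field of `ρ` and `ρ σ` has characteristic
polynomial `X ^ 2 - a X + d`, then `trace ρ(g) ≡ D_k(a, d)` modulo `m ^ n`. -/
theorem trace_sub_dick_mem (ρ : GaloisRepAdic T) (n : ℕ)
    (L : IntermediateField ℚ (AlgebraicClosure ℚ))
    (hL : ∀ σ : Γℚ, (∀ x ∈ L, σ x = x) →
      ∀ v : ρ.V, ρ.ρ σ v - v ∈ (maximalIdeal T ^ n) • (⊤ : Submodule T ρ.V))
    (σ : Γℚ) (a d : T) (hc : LinearMap.charpoly (ρ.ρ σ) = X ^ 2 - C a * X + C d)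
    (k : ℕ) (g : Γℚ) (hk : ∀ x ∈ L, (σ ^ k) x = g x) :
    LinearMap.trace T ρ.V (ρ.ρ g) - dick a d k ∈ maximalIdeal T ^ n := by
  set h : Γℚ := (σ ^ k)⁻¹ * g with hh
  have hg : g = σ ^ k * h := by rw [hh, mul_inv_cancel_left]
  have hfix : ∀ x ∈ L, h x = x := by
    intro x hx
    rw [hh, AlgEquiv.mul_apply, ← hk x hx]
    show (σ ^ k)⁻¹ ((σ ^ k) x) = x
    rw [← AlgEquiv.mul_apply, inv_mul_cancel, AlgEquiv.one_apply]
  obtain ⟨hsq, htr, -⟩ := of_charpoly_eq ρ.finrank_eq hc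
  have h1 : LinearMap.trace T ρ.V (ρ.ρ (σ ^ k)) = dick a d k := by
    rw [map_pow, trace_pow_eq_dick ρ.finrank_eq hsq htr]
  rw [← h1, ← map_sub]
  have h2 : ρ.ρ g - ρ.ρ (σ ^ k) = ρ.ρ (σ ^ k) * (ρ.ρ h - 1) := by
    rw [hg, map_mul, mul_sub, mul_one]
  rw [h2]
  refine trace_mem_of_forall_mem_smul_top _ _ fun v => ?_
  rw [Module.End.mul_apply, LinearMap.sub_apply, Module.End.one_apply]
  have h3 := hL h hfix v
  refine Submodule.smul_induction_on (p := fun x => ρ.ρ (σ ^ k) x ∈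
    (maximalIdeal T ^ n) • (⊤ : Submodule T ρ.V)) h3 ?_ ?_
  · intro a ha w _
    rw [map_smul]
    exact Submodule.smul_mem_smul ha Submodule.mem_top
  · intro x y hx hy
    rw [map_add]
    exact Submodule.add_mem _ hx hy

end TraceApprox

section Transfer

/-- For an injective homomorphism from a discrete valuation ring `O` to a noetherian local ring
`O''`, the `m''`-adic topology induces the `m`-adic topology on `O`. -/
theorem exists_pow_comap_le (O : Type*) [CommRing O] [IsDomain O] [IsDiscreteValuationRing O]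
    (O'' : Type*) [CommRing O''] [IsLocalRing O''] [IsNoetherianRing O''] (f : O →+* O'')
    (hf : Function.Injective f) (N0 : ℕ) :
    ∃ n : ℕ, ∀ x : O, f x ∈ maximalIdeal O'' ^ n → x ∈ maximalIdeal O ^ N0 := by
  by_contra hcon
  push Not at hcon
  -- then `m ^ N0` is contained in every `f⁻¹(m'' ^ n)`
  have hle : ∀ n : ℕ, maximalIdeal O ^ N0 ≤ Ideal.comap f (maximalIdeal O'' ^ n) := by
    intro n
    obtain ⟨x, hx1, hx2⟩ := hcon n
    rcases (ValuationRing.le_total_ideal (A := O)).total (Ideal.comap f (maximalIdeal O'' ^ n))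
      (maximalIdeal O ^ N0) with h | h
    · exact absurd (h (Ideal.mem_comap.mpr hx1)) hx2
    · exact h
  have hbot : maximalIdeal O ^ N0 = ⊥ := by
    rw [eq_bot_iff]
    intro x hx
    rw [Ideal.mem_bot]
    apply hf
    rw [map_zero]
    have hmem : f x ∈ ⨅ n : ℕ, maximalIdeal O'' ^ n := by
      rw [Ideal.mem_iInf]
      exact fun n => hle n hx
    rwa [Ideal.iInf_pow_eq_bot_of_isLocalRing (maximalIdeal O'')
      (Ideal.IsMaximal.ne_top inferInstance), Ideal.mem_bot] at hmem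
  have hne : maximalIdeal O ≠ 0 := IsDiscreteValuationRing.not_a_field O
  exact pow_ne_zero N0 hne hbot

end Transfer

section Main

/-- An element of a noetherian local ring lying in all powers of the maximal ideal vanishes. -/
theorem eq_zero_of_forall_mem_pow' {O : Type*} [CommRing O] [IsLocalRing O] [IsNoetherianRing O]
    {x : O} (h : ∀ n : ℕ, x ∈ maximalIdeal O ^ n) : x = 0 := by
  have hmem : x ∈ ⨅ n : ℕ, maximalIdeal O ^ n := by
    rw [Ideal.mem_iInf]; exact h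
  rwa [Ideal.iInf_pow_eq_bot_of_isLocalRing (maximalIdeal O)
    (Ideal.IsMaximal.ne_top inferInstance), Ideal.mem_bot] at hmem

/-- **Strong multiplicity one.** Two normalised eigenforms of levels `M' ∣ M` whose eigenvalues
agree at all primes outside a finite set `B` (and not dividing `M`) have the same eigenvalue at
every prime not dividing `M`. -/
theorem qCoeff_eq_of_eq_outside (h30 : S30Statement) (h22 : S22Statement) (hF : FrobPowerDense)
    {M M' : ℕ} [NeZero M] [NeZero M'] (hM' : M' ∣ M)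
    {g : CuspForm (Gamma0 M) 2} (hg : g.IsNormalizedEigenform)
    {h : CuspForm (Gamma0 M') 2} (hh : h.IsNormalizedEigenform)
    (B : Finset ℕ)
    (hagree : ∀ ℓ : ℕ, ℓ.Prime → ℓ ∉ B → ¬ ℓ ∣ M → qCoeff (⇑h) ℓ = qCoeff (⇑g) ℓ)
    (ℓ0 : ℕ) (hℓ0 : ℓ0.Prime) (hℓ0M : ¬ ℓ0 ∣ M) :
    qCoeff (⇑h) ℓ0 = qCoeff (⇑g) ℓ0 := by
  classical
  have hM0 : M ≠ 0 := NeZero.ne M
  -- an auxiliary prime `p' ≠ ℓ0`
  obtain ⟨p', hp', hp'ℓ0⟩ : ∃ p' : ℕ, p'.Prime ∧ p' ≠ ℓ0 := by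
    by_cases h2 : ℓ0 = 2
    · exact ⟨3, Nat.prime_three, by omega⟩
    · exact ⟨2, Nat.prime_two, fun h => h2 h.symm⟩
  have : Fact p'.Prime := ⟨hp'⟩
  let S1 : Finset ℕ := insert p' M.primeFactors
  have hp'S1 : p' ∈ S1 := Finset.mem_insert_self _ _
  have hMS1 : ∀ q : ℕ, q.Prime → q ∣ M → q ∈ S1 := fun q hq hqM =>
    Finset.mem_insert_of_mem (Nat.mem_primeFactors.mpr ⟨hq, hqM, hM0⟩)
  have hM'S1 : ∀ q : ℕ, q.Prime → q ∣ M' → q ∈ S1 := fun q hq hqM' =>
    hMS1 q hq (dvd_trans hqM' hM')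
  have hMS1' : ∀ q : ℕ, q.Prime → q ∣ M → q ∈ (↑S1 : Set ℕ) := fun q hq hqM =>
    Finset.mem_coe.mpr (hMS1 q hq hqM)
  have hM'S1' : ∀ q : ℕ, q.Prime → q ∣ M' → q ∈ (↑S1 : Set ℕ) := fun q hq hqM' =>
    Finset.mem_coe.mpr (hM'S1 q hq hqM')
  have hnotS1 : ∀ ℓ : ℕ, ℓ ≠ p' → ¬ ℓ ∣ M → ℓ ∉ (↑S1 : Set ℕ) := by
    intro ℓ h1 h2 h3
    rcases Finset.mem_insert.mp (Finset.mem_coe.mp h3) with h | h
    · exact h1 h
    · exact h2 (Nat.dvd_of_mem_primeFactors h)
  have hℓ0S1 : ℓ0 ∉ (↑S1 : Set ℕ) := hnotS1 ℓ0 (Ne.symm hp'ℓ0) hℓ0M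
  have hℓ0M' : ¬ ℓ0 ∣ M' := fun hd => hℓ0M (dvd_trans hd hM')
  -- the two eigencharacters
  have hfing : Module.Finite ℤ (CuspForm.heckeAlgebra M 2 (↑S1 : Set ℕ)) := h22 M 2 _
  have hfinh : Module.Finite ℤ (CuspForm.heckeAlgebra M' 2 (↑S1 : Set ℕ)) := h22 M' 2 _
  let χg : CuspForm.heckeAlgebra M 2 (↑S1 : Set ℕ) →+* ℂ := eigenChar hMS1' hg
  let χh : CuspForm.heckeAlgebra M' 2 (↑S1 : Set ℕ) →+* ℂ := eigenChar hM'S1' hh
  have hintg : ∀ t, IsIntegral ℤ (χg t) := fun t => eigenChar_isIntegral hMS1' hg hfing t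
  have hinth : ∀ t, IsIntegral ℤ (χh t) := fun t => eigenChar_isIntegral hM'S1' hh hfinh t
  -- a common number field
  obtain ⟨Kg, hKgfin, hKg⟩ := exists_numberField_of_finite χg
  obtain ⟨Kh, hKhfin, hKh⟩ := exists_numberField_of_finite χh
  have := hKgfin
  have := hKhfin
  let K : IntermediateField ℚ ℂ := Kg ⊔ Kh
  have hKfin : FiniteDimensional ℚ K := IntermediateField.finiteDimensional_sup Kg Kh
  have hKg' : ∀ t, χg t ∈ K := fun t => (le_sup_left : Kg ≤ K) (hKg t)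
  have hKh' : ∀ t, χh t ∈ K := fun t => (le_sup_right : Kh ≤ K) (hKh t)
  let χgK : CuspForm.heckeAlgebra M 2 (↑S1 : Set ℕ) →+* K := RingHom.codRestrict χg K hKg'
  let χhK : CuspForm.heckeAlgebra M' 2 (↑S1 : Set ℕ) →+* K := RingHom.codRestrict χh K hKh'
  have hintgK : ∀ t, χgK t ∈ integralClosure ℤ K := by
    intro t
    show IsIntegral ℤ (χgK t)
    have h1 := hintg t
    have h2 : ((χgK t : K) : ℂ) = χg t := rfl
    rw [← h2] at h1
    exact (isIntegral_algebraMap_iff (algebraMap K ℂ).injective).mp h1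
  have hinthK : ∀ t, χhK t ∈ integralClosure ℤ K := by
    intro t
    show IsIntegral ℤ (χhK t)
    have h1 := hinth t
    have h2 : ((χhK t : K) : ℂ) = χh t := rfl
    rw [← h2] at h1
    exact (isIntegral_algebraMap_iff (algebraMap K ℂ).injective).mp h1
  let χg1 : CuspForm.heckeAlgebra M 2 (↑S1 : Set ℕ) →+* 𝓞 K :=
    RingHom.codRestrict χgK (integralClosure ℤ K) hintgK
  let χh1 : CuspForm.heckeAlgebra M' 2 (↑S1 : Set ℕ) →+* 𝓞 K :=
    RingHom.codRestrict χhK (integralClosure ℤ K) hinthK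
  have hχg1 : ∀ t, (((χg1 t : 𝓞 K) : K) : ℂ) = χg t := fun t => rfl
  have hχh1 : ∀ t, (((χh1 t : 𝓞 K) : K) : ℂ) = χh t := fun t => rfl
  have hcoe_inj : ∀ x y : 𝓞 K, (((x : 𝓞 K) : K) : ℂ) = (((y : 𝓞 K) : K) : ℂ) → x = y := by
    intro x y hxy
    apply RingOfIntegers.ext
    exact Subtype.ext hxy
  -- a maximal ideal of `𝓞 K` over `p'`
  have hpmax : (Ideal.span {(p' : ℤ)}).IsMaximal :=
    (Int.prime_iff_natAbs_prime.mpr (by simpa using hp')) |> fun hpr =>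
      PrincipalIdealRing.isMaximal_of_irreducible hpr.irreducible
  obtain ⟨P, hPmax, hPover⟩ := Ideal.exists_ideal_over_maximal_of_isIntegral
    (S := 𝓞 K) (Ideal.span {(p' : ℤ)}) (by
      rw [(RingHom.injective_iff_ker_eq_bot _).mp (RingHom.injective_int (algebraMap ℤ (𝓞 K)))]
      exact bot_le)
  have hp'P : (p' : 𝓞 K) ∈ P := by
    have h1 : (p' : ℤ) ∈ Ideal.comap (algebraMap ℤ (𝓞 K)) P := by
      rw [hPover]; exact Ideal.mem_span_singleton_self _
    have h2 := Ideal.mem_comap.mp h1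
    rwa [eq_intCast, Int.cast_natCast] at h2
  have hP0 : P ≠ ⊥ := by
    intro hbot
    rw [hbot, Ideal.mem_bot] at hp'P
    exact hp'.ne_zero (by exact_mod_cast hp'P)
  obtain ⟨O, i1, i2, i3, i4, i5, i6, ι, hιinj, hιmem, -⟩ :=
    Fermat.Agent.Lib.CompleteDVR.exists_completeDVR_of_dedekind (𝓞 K) P hP0
  have hp'O : (p' : O) ∈ maximalIdeal O := by
    have : (p' : O) = ι (p' : 𝓞 K) := (map_natCast ι p').symm
    rw [this, hιmem]
    exact hp'P
  -- the two representations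
  obtain ⟨Og, a1, a2, a3, a4, a5, a6, a7, a8, a9, hinjg, ρg, hcg, -⟩ :=
    h30 p' M S1 hp'S1 hMS1 O hp'O (ι.comp χg1)
  obtain ⟨Oh, b1, b2, b3, b4, b5, b6, b7, b8, b9, hinjh, ρh, hch, -⟩ :=
    h30 p' M' S1 hp'S1 hM'S1 O hp'O (ι.comp χh1)
  -- a Frobenius lift at `ℓ0`
  obtain ⟨A0, hA0⟩ := Fermat.Agent.Lib.exists_valuationSubring_liesOverPrime
    (L := AlgebraicClosure ℚ) ℓ0 hℓ0
  obtain ⟨σ0, hσ0, -⟩ := Fermat.Agent.Lib.exists_isFrobeniusAt_of_liesOverPrime hℓ0 A0 hA0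
  set a0g : 𝓞 K := χg1 (CuspForm.heckeAlgebra.T hℓ0 hℓ0M hℓ0S1) with ha0g
  set a0h : 𝓞 K := χh1 (CuspForm.heckeAlgebra.T hℓ0 hℓ0M' hℓ0S1) with ha0h
  have htrg : LinearMap.trace Og ρg.V (ρg.ρ σ0) = algebraMap O Og (ι a0g) :=
    (of_charpoly_eq ρg.finrank_eq (hcg ℓ0 hℓ0 hℓ0M hℓ0S1 A0 hA0 σ0 hσ0)).2.1
  have htrh : LinearMap.trace Oh ρh.V (ρh.ρ σ0) = algebraMap O Oh (ι a0h) :=
    (of_charpoly_eq ρh.finrank_eq (hch ℓ0 hℓ0 hℓ0M' hℓ0S1 A0 hA0 σ0 hσ0)).2.1
  -- the two eigenvalues agree in `O`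
  have key : ι a0g - ι a0h = 0 := by
    refine eq_zero_of_forall_mem_pow' fun N0 => ?_
    obtain ⟨ng, hng⟩ := exists_pow_comap_le O Og (algebraMap O Og) hinjg N0
    obtain ⟨nh, hnh⟩ := exists_pow_comap_le O Oh (algebraMap O Oh) hinjh N0
    set n := max ng nh with hn
    obtain ⟨Lg, hLgfd, hLg⟩ := ρg.isAdicContinuous n
    obtain ⟨Lh, hLhfd, hLh⟩ := ρh.isAdicContinuous n
    have := hLgfd
    have := hLhfd
    obtain ⟨ℓ, hℓ, hℓbad, A, hA, σ, hσ, k, hk⟩ := hF (Lg ⊔ Lh) inferInstance σ0 (B ∪ S1)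
    have hℓB : ℓ ∉ B := fun hb => hℓbad (Finset.mem_union_left _ hb)
    have hℓS1 : ℓ ∉ S1 := fun hb => hℓbad (Finset.mem_union_right _ hb)
    have hℓS1' : ℓ ∉ (↑S1 : Set ℕ) := by simpa using hℓS1
    have hℓM : ¬ ℓ ∣ M := fun hd => hℓS1 (hMS1 ℓ hℓ hd)
    have hℓM' : ¬ ℓ ∣ M' := fun hd => hℓM (dvd_trans hd hM')
    set ag : 𝓞 K := χg1 (CuspForm.heckeAlgebra.T hℓ hℓM hℓS1') with hag
    set ah : 𝓞 K := χh1 (CuspForm.heckeAlgebra.T hℓ hℓM' hℓS1') with hah
    have hagah : ag = ah := by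
      apply hcoe_inj
      rw [hag, hah, hχg1, hχh1]
      show eigenChar hMS1' hg _ = eigenChar hM'S1' hh _
      rw [eigenChar_T, eigenChar_T]
      exact (hagree ℓ hℓ hℓB hℓM).symm
    set w : 𝓞 K := dick ag (ℓ : 𝓞 K) k with hw
    -- level `M`
    have h1 : algebraMap O Og (ι (a0g - w)) ∈ maximalIdeal Og ^ n := by
      have hc := hcg ℓ hℓ hℓM hℓS1' A hA σ hσ
      have hkg : ∀ x ∈ Lg, (σ ^ k) x = σ0 x := fun x hx =>
        hk x ((le_sup_left : Lg ≤ Lg ⊔ Lh) hx)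
      have := trace_sub_dick_mem ρg n Lg hLg σ _ _ hc k σ0 hkg
      rw [htrg] at this
      have hd : dick (algebraMap O Og ((ι.comp χg1) (CuspForm.heckeAlgebra.T hℓ hℓM hℓS1')))
          (ℓ : Og) k = algebraMap O Og (ι w) := by
        have h2 := map_dick ag (ℓ : 𝓞 K) ((algebraMap O Og).comp ι) k
        rw [map_natCast] at h2
        exact h2.symm
      rw [hd, ← map_sub, ← map_sub] at this
      exact this
    -- level `M'`
    have h2 : algebraMap O Oh (ι (a0h - w)) ∈ maximalIdeal Oh ^ n := by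
      have hc := hch ℓ hℓ hℓM' hℓS1' A hA σ hσ
      have hkh : ∀ x ∈ Lh, (σ ^ k) x = σ0 x := fun x hx =>
        hk x ((le_sup_right : Lh ≤ Lg ⊔ Lh) hx)
      have := trace_sub_dick_mem ρh n Lh hLh σ _ _ hc k σ0 hkh
      rw [htrh] at this
      have hd : dick (algebraMap O Oh ((ι.comp χh1) (CuspForm.heckeAlgebra.T hℓ hℓM' hℓS1')))
          (ℓ : Oh) k = algebraMap O Oh (ι w) := by
        have h3 := map_dick ah (ℓ : 𝓞 K) ((algebraMap O Oh).comp ι) k
        rw [map_natCast] at h3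
        rw [hw, hagah]
        exact h3.symm
      rw [hd, ← map_sub, ← map_sub] at this
      exact this
    have h1' : ι (a0g - w) ∈ maximalIdeal O ^ N0 :=
      hng _ (Ideal.pow_le_pow_right (le_max_left ng nh) h1)
    have h2' : ι (a0h - w) ∈ maximalIdeal O ^ N0 :=
      hnh _ (Ideal.pow_le_pow_right (le_max_right ng nh) h2)
    have : ι a0g - ι a0h = ι (a0g - w) - ι (a0h - w) := by
      rw [map_sub, map_sub]; ring
    rw [this]
    exact Ideal.sub_mem _ h1' h2'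
  have hfinal : a0g = a0h := hιinj (sub_eq_zero.mp key)
  have h3 : qCoeff (⇑g) ℓ0 = (((a0g : 𝓞 K) : K) : ℂ) := by
    rw [ha0g, hχg1]
    exact (eigenChar_T hMS1' hg hℓ0 hℓ0M hℓ0S1).symm
  have h4 : qCoeff (⇑h) ℓ0 = (((a0h : 𝓞 K) : K) : ℂ) := by
    rw [ha0h, hχh1]
    exact (eigenChar_T hM'S1' hh hℓ0 hℓ0M' hℓ0S1).symm
  rw [h3, h4, hfinal]

end Main

end Fermat.Agent.S35x
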