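/-
P-S34 phase 2 (S35), (G3) composite (helper43): Theorem B' for a semilinear pair `(σ, φ)`.

Glue of `TheoremB.exists_const_mul_pow_of_sigma` (helper71, `S34x/TheoremBSigma.lean`) and
`ExistsLifts.exists_lifts_semilinear` (helper43, `S34x/ExistsLifts.lean` on top of `ExistsOneQ`), in
the same style as `TheoremBInst.exists_const_mul_pow_of_charts` (helper45) for phase 1.  The
hypothesis list of `exists_const_mul_pow_of_charts_semilinear` IS the to-do list of the phase-2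
instance (`σ` = square of a Frobenius lift, `θ = Fr²`, `φ = (coeffMap Fr², coeffMap Fr²)`, `Q = q²`).

Setting: `R : RedSetup2 A S k κ`, chart function `t`, `σ : F →+* F` preserving `O` and all
`L(a C₀ + b C∞)`, with `res (σ f) = φ (res f)`; `w ∈ O`, `res w = 1`, `div w = m D_w`;
`m e = Q + i'`; `u = σ w / w ^ Q ∈ O`, `res u = 1`.  On each of the two charts: the normalisation
`j : B₁ × B₂ → κ` of the reduced chart ring `Bbar`, `N₁ = red ⋃_b Lam(D_w + b C∞)`,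
`N' = red ⋃_b Lam(i' D_w + b C∞)`, the Goursat/(N1) data, the codimension bounds, the semilinear
lift `φV` of `φ` to `B₁ × B₂`, and (CONG) `φ x - x ^ Q ∈ I₁ × I₂` on `N₁`.
Conclusion: `σ w / w ^ Q = c v ^ m`.
-/
import Fermat.Agent.S34x.TheoremBSigma
import Fermat.Agent.S34x.ExistsLifts

set_option autoImplicit false
set_option linter.unusedSectionVars false

noncomputable section

namespace Fermat.Agent.S35x.TheoremBFrob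

open AlgebraicCurve Module IntermediateField
open Fermat.Agent.Gateway.C0 Fermat.Agent.S34x.C0two Fermat.Agent.S34x

variable {K : Type*} [Field K] [IsAlgClosed K] [CharZero K] {A : ValuationSubring K}
  {F : Type*} [Field F] [Algebra K F] {S : SmallRing F}
  {k κ : Type*} [Field k] [CommRing κ] [Algebra k κ] [Nontrivial κ]
  (R : RedSetup2 A S k κ)
  {t : F} (ht : Transcendental K t) [FiniteDimensional K⟮t⟯ F]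
  {Dt : Divisor K F} (hDt : ∀ v : Place K F, Dt v = v.ord t)
  (htO : t ∈ S.O) (htiO : t⁻¹ ∈ S.O)
  (hcart : ∀ V : Submodule K F, FiniteDimensional K V → (R.lat V).FG)
  (P : ℕ → Submodule k κ) [∀ b, FiniteDimensional k (P b)] {b₀ : ℕ}
  (hgen : ∀ b, b₀ ≤ b → ∀ x ∈ P (b + 1), ∃ y ∈ P b, ∃ z ∈ P b, x = y + R.res ⟨t, htO⟩ * z)
  {m : ℕ}
  (hSC : ∀ (b : ℕ) (f : F) (hf : f ∈ S.O), f ∈ (TwoCharts.ofDivisor Dt).LN 0 b →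
    R.res ⟨f, hf⟩ ∈ P b)
  (hrad : ∀ (b : ℕ) (x : κ), x ^ m ∈ P (m * b) → x ∈ P b)
  (hmA : IsUnit ((m : ℕ) : A))
  {σ : F →+* F}
  (hσLN : ∀ (a b : ℕ) (x : F), x ∈ (TwoCharts.ofDivisor Dt).LN a b →
    σ x ∈ (TwoCharts.ofDivisor Dt).LN a b)
  (hσO : ∀ x ∈ S.O, σ x ∈ S.O)
  {w : F} (hw0 : w ≠ 0) (hwO : w ∈ S.O) (hw1 : R.res ⟨w, hwO⟩ = 1)
  {Dw : Divisor K F} (hDw : ∀ v : Place K F, (m : ℤ) * Dw v = v.ord w)
  (hdiv : ∀ v : Place K F, (m : ℤ) ∣ v.ord (σ w))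
  {Q e i' : ℕ} (hQ : m * e = Q + i')
  (huO : σ w / w ^ Q ∈ S.O) (hu1 : R.res ⟨σ w / w ^ Q, huO⟩ = 1)
  -- the residual action
  (θ : k ≃+* k) (φ : κ →+* κ) (hφsmul : ∀ (c : k) (y : κ), φ (c • y) = θ c • φ y)
  (hσres : ∀ (f : F) (hf : f ∈ S.O), R.res ⟨σ f, hσO f hf⟩ = φ (R.res ⟨f, hf⟩))

section Charts

variable [IsAlgClosed k]
  {B₁ B₂ : Type*} [CommRing B₁] [CommRing B₂] [Algebra k B₁] [Algebra k B₂]
  {B₁' B₂' : Type*} [CommRing B₁'] [CommRing B₂'] [Algebra k B₁'] [Algebra k B₂']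

include ht hDt htiO hcart hgen hSC hrad hmA hσLN hw0 hw1 hDw hdiv hQ hu1 hφsmul hσres in
/-- **Theorem B' from the (N2) data of the two charts.**  Chart `∞`: `j, Bbar, N₁, N', φV`;
chart `0`: `j₀, Bbar₀, N₁₀, N₀', φV₀`. -/
theorem exists_const_mul_pow_of_charts_semilinear (hm0 : 0 < m)
    -- chart `∞`
    (j : (B₁ × B₂) →ₐ[k] κ) (Bbar : Subalgebra k κ) (N₁ N' : Submodule k κ)
    (h₁ : ∀ f : B₁, ∃ g : B₂, j (f, g) ∈ Bbar) (h₂ : ∀ g : B₂, ∃ f : B₁, j (f, g) ∈ Bbar)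
    [Module.Finite k ((B₁ × B₂) ⧸ Subalgebra.toSubmodule (Bbar.comap j))]
    {p : ℕ} (hp : 2 ≤ p) (hpth : ∀ g : B₂, ∃ g' : B₂, j ((0 : B₁), g - g' ^ p) ∈ Bbar)
    [Module.Finite k ((B₁ × B₂) ⧸ N₁.comap j.toLinearMap)]
    [Module.Finite k ((B₁ × B₂) ⧸ N'.comap j.toLinearMap)]
    (hcodim : finrank k ((B₁ × B₂) ⧸ N₁.comap j.toLinearMap) ≤
      finrank k ((B₁ × B₂) ⧸ Subalgebra.toSubmodule (Bbar.comap j)))
    (hcodim' : finrank k ((B₁ × B₂) ⧸ N'.comap j.toLinearMap) ≤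
      finrank k ((B₁ × B₂) ⧸ Subalgebra.toSubmodule (Bbar.comap j)))
    (φV : (B₁ × B₂) →+* (B₁ × B₂)) (hφVsurj : Function.Surjective φV)
    (hφVsmul : ∀ (c : k) (v : B₁ × B₂), φV (c • v) = θ c • φV v)
    (hjφ : ∀ v, j (φV v) = φ (j v)) (hφBbar : ∀ y ∈ Bbar, φ y ∈ Bbar)
    (hcong : ∀ x ∈ N₁, ∃ (c₁ : B₁) (c₂ : B₂), φ x - x ^ Q = j (c₁, c₂) ∧
      j (c₁, 0) ∈ Bbar ∧ j (0, c₂) ∈ Bbar)
    (hN'range : ∀ y ∈ N', ∃ v, j v = y)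
    (hpow : ∀ n ∈ N₁, n ^ m ∈ Bbar) (hpow' : ∀ n ∈ N', n ^ m ∈ Bbar)
    (hmulQ : ∀ n ∈ N₁, ∀ n' ∈ N', n ^ Q * n' ∈ Bbar)
    (hN₁ : ∀ x ∈ N₁, ∃ b, x ∈ R.redLat ((TwoCharts.ofDivisor Dt).LM Dw 0 b))
    (hN' : ∀ y ∈ N', ∃ b, y ∈ R.redLat ((TwoCharts.ofDivisor Dt).LM (i' • Dw) 0 b))
    -- chart `0`
    (j₀ : (B₁' × B₂') →ₐ[k] κ) (Bbar₀ : Subalgebra k κ) (N₁₀ N₀' : Submodule k κ)
    (h₁₀ : ∀ f : B₁', ∃ g : B₂', j₀ (f, g) ∈ Bbar₀)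
    (h₂₀ : ∀ g : B₂', ∃ f : B₁', j₀ (f, g) ∈ Bbar₀)
    [Module.Finite k ((B₁' × B₂') ⧸ Subalgebra.toSubmodule (Bbar₀.comap j₀))]
    {p₀ : ℕ} (hp₀ : 2 ≤ p₀)
    (hpth₀ : ∀ g : B₂', ∃ g' : B₂', j₀ ((0 : B₁'), g - g' ^ p₀) ∈ Bbar₀)
    [Module.Finite k ((B₁' × B₂') ⧸ N₁₀.comap j₀.toLinearMap)]
    [Module.Finite k ((B₁' × B₂') ⧸ N₀'.comap j₀.toLinearMap)]
    (hcodim₀ : finrank k ((B₁' × B₂') ⧸ N₁₀.comap j₀.toLinearMap) ≤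
      finrank k ((B₁' × B₂') ⧸ Subalgebra.toSubmodule (Bbar₀.comap j₀)))
    (hcodim₀' : finrank k ((B₁' × B₂') ⧸ N₀'.comap j₀.toLinearMap) ≤
      finrank k ((B₁' × B₂') ⧸ Subalgebra.toSubmodule (Bbar₀.comap j₀)))
    (φV₀ : (B₁' × B₂') →+* (B₁' × B₂')) (hφVsurj₀ : Function.Surjective φV₀)
    (hφVsmul₀ : ∀ (c : k) (v : B₁' × B₂'), φV₀ (c • v) = θ c • φV₀ v)
    (hjφ₀ : ∀ v, j₀ (φV₀ v) = φ (j₀ v)) (hφBbar₀ : ∀ y ∈ Bbar₀, φ y ∈ Bbar₀)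
    (hcong₀ : ∀ x ∈ N₁₀, ∃ (c₁ : B₁') (c₂ : B₂'), φ x - x ^ Q = j₀ (c₁, c₂) ∧
      j₀ (c₁, 0) ∈ Bbar₀ ∧ j₀ (0, c₂) ∈ Bbar₀)
    (hN'range₀ : ∀ y ∈ N₀', ∃ v, j₀ v = y)
    (hpow₀ : ∀ n ∈ N₁₀, n ^ m ∈ Bbar₀) (hpow₀' : ∀ n ∈ N₀', n ^ m ∈ Bbar₀)
    (hmulQ₀ : ∀ n ∈ N₁₀, ∀ n' ∈ N₀', n ^ Q * n' ∈ Bbar₀)
    (hN₁₀ : ∀ x ∈ N₁₀, ∃ a, x ∈ R.redLat ((TwoCharts.ofDivisor Dt).LM Dw a 0))
    (hN₀' : ∀ y ∈ N₀', ∃ a, y ∈ R.redLat ((TwoCharts.ofDivisor Dt).LM (i' • Dw) a 0)) :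
    ∃ (c : K) (v : F), σ w / w ^ Q = algebraMap K F c * v ^ m := by
  have hm' : m ≠ 0 := hm0.ne'
  refine TheoremB.exists_const_mul_pow_of_sigma R ht hDt htO htiO hcart P hgen hSC hrad hmA hσLN
    hσO hw0 hwO hw1 hDw hdiv hQ huO hu1 ?_ ?_
  · -- chart `∞`
    exact ExistsLifts.exists_lifts_semilinear R j Bbar N₁ N' h₁ h₂ hp hpth hcodim hcodim' θ φV
      hφVsurj hφVsmul φ hφsmul hjφ hφBbar Q hcong hN'range hm' hm' hpow hpow' hmulQ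
      (V := fun b => (TwoCharts.ofDivisor Dt).LM Dw 0 b)
      (V' := fun b => (TwoCharts.ofDivisor Dt).LM (i' • Dw) 0 b)
      (fun _ _ h => (TwoCharts.ofDivisor Dt).LM_mono _ le_rfl h)
      (fun _ _ h => (TwoCharts.ofDivisor Dt).LM_mono _ le_rfl h) hN₁ hN' σ hσO hσres
  · -- chart `0`
    exact ExistsLifts.exists_lifts_semilinear R j₀ Bbar₀ N₁₀ N₀' h₁₀ h₂₀ hp₀ hpth₀ hcodim₀ hcodim₀'
      θ φV₀ hφVsurj₀ hφVsmul₀ φ hφsmul hjφ₀ hφBbar₀ Q hcong₀ hN'range₀ hm' hm' hpow₀ hpow₀' hmulQ₀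
      (V := fun a => (TwoCharts.ofDivisor Dt).LM Dw a 0)
      (V' := fun a => (TwoCharts.ofDivisor Dt).LM (i' • Dw) a 0)
      (fun _ _ h => (TwoCharts.ofDivisor Dt).LM_mono _ h le_rfl)
      (fun _ _ h => (TwoCharts.ofDivisor Dt).LM_mono _ h le_rfl) hN₁₀ hN₀' σ hσO hσres

end Charts

end Fermat.Agent.S35x.TheoremBFrob
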